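import Mathlib

set_option autoImplicit false

namespace Fermat.Agent.S24.Ree

open Equiv.Perm Module

section Perm

variable {X : Type*} [Fintype X] [DecidableEq X]

/-- complete invariant of the cycles of a permutation -/
def cycInv (σ : Equiv.Perm X) (x : X) : Equiv.Perm X ⊕ X :=
  if σ x = x then Sum.inr x else Sum.inl (σ.cycleOf x)

theorem cycInv_eq_iff (σ : Equiv.Perm X) (x y : X) :
    cycInv σ x = cycInv σ y ↔ σ.SameCycle x y := by
  unfold cycInv
  constructor
  · intro h
    by_cases hx : σ x = x <;> by_cases hy : σ y = y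
    · simp only [hx, hy, if_true, Sum.inr.injEq] at h
      exact h ▸ SameCycle.refl _ _
    · simp [hx, hy] at h
    · simp [hx, hy] at h
    · simp only [hx, hy, if_false, Sum.inl.injEq] at h
      have hy' : y ∈ (σ.cycleOf y).support := by
        rw [mem_support_cycleOf_iff]
        exact ⟨SameCycle.refl _ _, mem_support.mpr hy⟩
      rw [← h, mem_support_cycleOf_iff] at hy'
      exact hy'.1
  · intro h
    by_cases hx : σ x = x
    · have hy : σ y = y := h.apply_eq_self_iff.mp hx
      have := h.eq_of_left hx
      simp [hy, this]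
    · have hy : ¬ σ y = y := fun hy => hx (h.apply_eq_self_iff.mpr hy)
      simp [hx, hy, h.cycleOf_eq]

theorem range_cycInv (σ : Equiv.Perm X) :
    Set.range (cycInv σ) =
      ↑((σ.cycleFactorsFinset.map ⟨Sum.inl, Sum.inl_injective⟩ : Finset (Equiv.Perm X ⊕ X)) ∪
        ((Finset.univ.filter fun x => σ x = x).map ⟨Sum.inr, Sum.inr_injective⟩)) := by
  ext z
  simp only [Set.mem_range, Finset.coe_union, Finset.coe_map, Function.Embedding.coeFn_mk,
    Set.mem_union, Set.mem_image, Finset.mem_coe, Finset.mem_filter, Finset.mem_univ, true_and]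
  constructor
  · rintro ⟨x, rfl⟩
    unfold cycInv
    by_cases hx : σ x = x
    · right; exact ⟨x, hx, by simp [hx]⟩
    · left
      exact ⟨σ.cycleOf x, cycleOf_mem_cycleFactorsFinset_iff.mpr (mem_support.mpr hx), by simp [hx]⟩
  · rintro (⟨c, hc, rfl⟩ | ⟨x, hx, rfl⟩)
    · have hcyc := (mem_cycleFactorsFinset_iff.mp hc).1
      obtain ⟨a, ha⟩ := hcyc.nonempty_support
      have h1 : c = σ.cycleOf a := cycle_is_cycleOf ha hc
      have h2 : a ∈ σ.support := mem_cycleFactorsFinset_support_le hc ha
      exact ⟨a, by simp [cycInv, mem_support.mp h2, h1]⟩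
    · exact ⟨x, by simp [cycInv, hx]⟩

theorem card_quotient_setoid {α γ : Type*} (s : Setoid α) (f : α → γ)
    (hf : ∀ x y, f x = f y ↔ s x y) : Nat.card (Quotient s) = Nat.card (Set.range f) := by
  let F : Quotient s → Set.range f :=
    Quotient.lift (fun b => (⟨f b, _, rfl⟩ : Set.range f))
      (fun a b hab => Subtype.ext ((hf a b).mpr hab))
  refine Nat.card_eq_of_bijective F ⟨?_, ?_⟩
  · intro x y
    induction x using Quotient.inductionOn with | _ x => ?_
    induction y using Quotient.inductionOn with | _ y => ?_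
    intro hxy
    exact Quotient.sound ((hf x y).mp (congrArg Subtype.val hxy))
  · rintro ⟨_, x, rfl⟩
    exact ⟨Quotient.mk s x, rfl⟩

/-- number of cycles (including trivial ones) -/
theorem card_sameCycle_quotient (σ : Equiv.Perm X) :
    Nat.card (Quotient (SameCycle.setoid σ)) =
      Multiset.card σ.cycleType + (Fintype.card X - σ.cycleType.sum) := by
  rw [card_quotient_setoid (SameCycle.setoid σ) (cycInv σ) (cycInv_eq_iff σ), range_cycInv,
    Nat.card_coe_set_eq, Set.ncard_coe_finset, Finset.card_union_of_disjoint, Finset.card_map,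
    Finset.card_map, ← card_fixedPoints, cycleType_def, Multiset.card_map]
  · congr 1
    rw [Fintype.card_subtype]
    rfl
  · rw [Finset.disjoint_left]
    intro z hz hz'
    obtain ⟨a, -, rfl⟩ := Finset.mem_map.mp hz
    obtain ⟨b, -, hb⟩ := Finset.mem_map.mp hz'
    simp at hb

end Perm

section Action

variable {G : Type*} [Group G] {X : Type*} [MulAction G X]

/-- elements of `G` leaving a function invariant -/
def invSubgroup {α : Type*} (f : X → α) : Subgroup G where
  carrier := {h | ∀ x, f (h • x) = f x}
  mul_mem' := by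
    intro a b ha hb x
    rw [mul_smul, ha, hb]
  one_mem' := by intro x; rw [one_smul]
  inv_mem' := by
    intro a ha x
    have := ha (a⁻¹ • x)
    rw [smul_inv_smul] at this
    exact this.symm

theorem mem_invSubgroup {α : Type*} (f : X → α) (h : G) :
    h ∈ invSubgroup (G := G) f ↔ ∀ x, f (h • x) = f x := Iff.rfl

/-- the permutation representation on functions -/
noncomputable def rho (g : G) : (X → ℚ) →ₗ[ℚ] (X → ℚ) :=
  LinearMap.funLeft ℚ ℚ (fun y : X => g⁻¹ • y)

theorem rho_apply (g : G) (f : X → ℚ) (y : X) : rho g f y = f (g⁻¹ • y) := rfl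

theorem rho_mul (g h : G) (f : X → ℚ) : rho (g * h) f = rho g (rho h f) := by
  ext y
  simp only [rho_apply, mul_inv_rev, mul_smul]

theorem rho_single [DecidableEq X] (g : G) (x : X) :
    rho g (Pi.single x (1 : ℚ)) = Pi.single (g • x) (1 : ℚ) := by
  ext y
  simp only [rho_apply, Pi.single_apply, inv_smul_eq_iff]

theorem mem_ker_iff (g : G) (f : X → ℚ) :
    f ∈ LinearMap.ker (LinearMap.id - rho g) ↔ g ∈ invSubgroup (G := G) f := by
  rw [LinearMap.mem_ker, LinearMap.sub_apply, LinearMap.id_apply, sub_eq_zero]
  constructor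
  · intro h
    apply (invSubgroup (G := G) f).inv_mem_iff.mp
    intro x
    exact (congrFun h x).symm
  · intro h
    ext x
    exact ((invSubgroup (G := G) f).inv_mem h x).symm

theorem finrank_ker [Finite X] (g : G) :
    finrank ℚ (LinearMap.ker (LinearMap.id - rho (X := X) g)) =
      Nat.card (MulAction.orbitRel.Quotient (Subgroup.zpowers g) X) := by
  classical
  have := Fintype.ofFinite X
  have := Fintype.ofFinite (MulAction.orbitRel.Quotient (Subgroup.zpowers g) X)
  let q : X → MulAction.orbitRel.Quotient (Subgroup.zpowers g) X := Quotient.mk _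
  have hq : Function.Surjective q := Quotient.mk_surjective
  have hrange : LinearMap.range (LinearMap.funLeft ℚ ℚ q) =
      LinearMap.ker (LinearMap.id - rho (X := X) g) := by
    ext f
    rw [mem_ker_iff, LinearMap.mem_range]
    constructor
    · rintro ⟨φ, rfl⟩ x
      simp only [LinearMap.funLeft_apply]
      congr 1
      apply Quotient.sound
      exact ⟨⟨g, Subgroup.mem_zpowers g⟩, rfl⟩
    · intro h
      have hle : Subgroup.zpowers g ≤ invSubgroup (G := G) f := by
        rw [Subgroup.zpowers_le]; exact h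
      refine ⟨Quotient.lift f ?_, ?_⟩
      · rintro a b ⟨⟨k, hk⟩, rfl⟩
        exact hle hk b
      · ext x
        rfl
  rw [← hrange, LinearMap.finrank_range_of_inj (LinearMap.funLeft_injective_of_surjective ℚ ℚ q hq),
    Module.finrank_fintype_fun_eq_card, Nat.card_eq_fintype_card]

theorem finrank_range [Finite X] (g : G) :
    finrank ℚ (LinearMap.range (LinearMap.id - rho (X := X) g)) +
      Nat.card (MulAction.orbitRel.Quotient (Subgroup.zpowers g) X) = Nat.card X := by
  classical
  have := Fintype.ofFinite X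
  rw [← finrank_ker, LinearMap.finrank_range_add_finrank_ker, Module.finrank_fintype_fun_eq_card,
    Nat.card_eq_fintype_card]

theorem const_of_invariant {α : Type*} {s t : G}
    (htrans : ∀ x y : X, ∃ g ∈ Subgroup.closure {s, t}, g • x = y) (f : X → α)
    (hs : ∀ x, f (s • x) = f x) (ht : ∀ x, f (t • x) = f x) (x y : X) : f x = f y := by
  have hle : Subgroup.closure {s, t} ≤ invSubgroup (G := G) f := by
    rw [Subgroup.closure_le]
    rintro g (rfl | rfl)
    · exact hs
    · exact ht
  obtain ⟨g, hg, rfl⟩ := htrans x y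
  exact (hle hg x).symm

/-- Ree's inequality (via Scott's lemma). -/
theorem ree [Finite X] (s t : G)
    (htrans : ∀ x y : X, ∃ g ∈ Subgroup.closure {s, t}, g • x = y) :
    Nat.card (MulAction.orbitRel.Quotient (Subgroup.zpowers s) X) +
      Nat.card (MulAction.orbitRel.Quotient (Subgroup.zpowers (s * t)) X) +
      Nat.card (MulAction.orbitRel.Quotient (Subgroup.zpowers t) X) ≤ Nat.card X + 2 := by
  classical
  have := Fintype.ofFinite X
  set A : (X → ℚ) →ₗ[ℚ] (X → ℚ) := rho s with hA
  set B : (X → ℚ) →ₗ[ℚ] (X → ℚ) := rho t with hB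
  set C : (X → ℚ) →ₗ[ℚ] (X → ℚ) := rho (s * t) with hC
  have hCAB : ∀ f, C f = A (B f) := fun f => rho_mul s t f
  set DA : (X → ℚ) →ₗ[ℚ] (X → ℚ) := LinearMap.id - A with hDA
  set DB : (X → ℚ) →ₗ[ℚ] (X → ℚ) := LinearMap.id - B with hDB
  set DC : (X → ℚ) →ₗ[ℚ] (X → ℚ) := LinearMap.id - C with hDC
  have hDA' : ∀ f, DA f = f - A f := fun f => rfl
  have hDB' : ∀ f, DB f = f - B f := fun f => rfl
  have hDC' : ∀ f, DC f = f - C f := fun f => rfl
  set U1 := LinearMap.range DA with hU1
  set U2 := LinearMap.range DB with hU2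
  set U3 := LinearMap.range DC with hU3
  have e1 : finrank ℚ U1 + _ = _ := finrank_range (X := X) s
  have e2 : finrank ℚ U2 + _ = _ := finrank_range (X := X) t
  have e3 : finrank ℚ U3 + _ = _ := finrank_range (X := X) (s * t)
  let δ : (U1 × U2 × U3) →ₗ[ℚ] (X → ℚ) :=
    U1.subtype ∘ₗ LinearMap.fst ℚ U1 (U2 × U3)
      + A ∘ₗ U2.subtype ∘ₗ LinearMap.fst ℚ U2 U3 ∘ₗ LinearMap.snd ℚ U1 (U2 × U3)
      - U3.subtype ∘ₗ LinearMap.snd ℚ U2 U3 ∘ₗ LinearMap.snd ℚ U1 (U2 × U3)
  have hδ : ∀ z, δ z = (z.1 : X → ℚ) + A (z.2.1 : X → ℚ) - (z.2.2 : X → ℚ) := fun z => rfl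
  let β : (X → ℚ) →ₗ[ℚ] (U1 × U2 × U3) :=
    LinearMap.prod DA.rangeRestrict (LinearMap.prod DB.rangeRestrict DC.rangeRestrict)
  have hβ1 : ∀ v, ((β v).1 : X → ℚ) = DA v := fun v => rfl
  have hβ2 : ∀ v, ((β v).2.1 : X → ℚ) = DB v := fun v => rfl
  have hβ3 : ∀ v, ((β v).2.2 : X → ℚ) = DC v := fun v => rfl
  have hδβ : ∀ v, δ (β v) = 0 := by
    intro v
    rw [hδ, hβ1, hβ2, hβ3, hDA', hDB', hDC', hCAB, map_sub]
    abel
  have hle : LinearMap.range β ≤ LinearMap.ker δ := by
    rintro _ ⟨v, rfl⟩
    exact hδβ v
  have hdim : finrank ℚ (U1 × U2 × U3) = finrank ℚ U1 + (finrank ℚ U2 + finrank ℚ U3) := by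
    rw [Module.finrank_prod, Module.finrank_prod]
  have hn : finrank ℚ (X → ℚ) = Nat.card X := by
    rw [Module.finrank_fintype_fun_eq_card, Nat.card_eq_fintype_card]
  -- kernel of β
  have hkerβ : finrank ℚ (LinearMap.ker β) ≤ 1 := by
    have hsub : LinearMap.ker β ≤ Submodule.span ℚ {(fun _ => 1 : X → ℚ)} := by
      intro v hv
      have hv' : β v = 0 := hv
      have h1 : DA v = 0 := by rw [← hβ1, hv']; rfl
      have h2 : DB v = 0 := by rw [← hβ2, hv']; rfl
      have h1' : s ∈ invSubgroup (G := G) v := (mem_ker_iff s v).mp h1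
      have h2' : t ∈ invSubgroup (G := G) v := (mem_ker_iff t v).mp h2
      have hc := const_of_invariant htrans v h1' h2'
      rcases isEmpty_or_nonempty X with hX | ⟨⟨x0⟩⟩
      · have : v = 0 := Subsingleton.elim _ _
        rw [this]; exact Submodule.zero_mem _
      · rw [Submodule.mem_span_singleton]
        refine ⟨v x0, ?_⟩
        ext x
        simp [hc x x0]
    refine (Submodule.finrank_mono hsub).trans ?_
    exact (finrank_span_le_card _).trans (by simp)
  -- range of δ
  have hranδ : Nat.card X ≤ finrank ℚ (LinearMap.range δ) + 1 := by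
    have hann : finrank ℚ (LinearMap.range δ).dualAnnihilator ≤ 1 := by
      have hsub : (LinearMap.range δ).dualAnnihilator ≤
          Submodule.span ℚ {(∑ x : X, LinearMap.proj x : (X → ℚ) →ₗ[ℚ] ℚ)} := by
        intro φ hφ
        rw [Submodule.mem_dualAnnihilator] at hφ
        let u : X → ℚ := fun x => φ (Pi.single x 1)
        have hs : ∀ x, u (s • x) = u x := by
          intro x
          have hmem : DA (Pi.single x 1) ∈ LinearMap.range δ := by
            refine ⟨(⟨DA (Pi.single x 1), _, rfl⟩, 0, 0), ?_⟩
            rw [hδ]; simp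
          have := hφ _ hmem
          rw [hDA', hA, rho_single, map_sub, sub_eq_zero] at this
          exact this.symm
        have ht : ∀ x, u (t • x) = u x := by
          intro x
          have hmem : A (DB (Pi.single x 1)) ∈ LinearMap.range δ := by
            refine ⟨(0, ⟨DB (Pi.single x 1), _, rfl⟩, 0), ?_⟩
            rw [hδ]; simp
          have := hφ _ hmem
          rw [hDB', hB, rho_single, map_sub, hA, rho_single, rho_single, map_sub,
            sub_eq_zero] at this
          have h3 : u (s • x) = u (s • t • x) := this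
          rw [hs, hs] at h3
          exact h3.symm
        have hc := const_of_invariant htrans u hs ht
        rcases isEmpty_or_nonempty X with hX | ⟨⟨x0⟩⟩
        · have : φ = 0 := by
            apply LinearMap.ext
            intro f
            have : f = 0 := Subsingleton.elim _ _
            rw [this]; simp
          rw [this]; exact Submodule.zero_mem _
        · rw [Submodule.mem_span_singleton]
          refine ⟨u x0, ?_⟩
          apply LinearMap.ext
          intro f
          rw [LinearMap.pi_apply_eq_sum_univ φ f]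
          simp only [LinearMap.smul_apply, LinearMap.sum_apply, LinearMap.proj_apply,
            smul_eq_mul, Finset.mul_sum]
          refine Finset.sum_congr rfl fun x _ => ?_
          have : u x = φ (fun j => if x = j then 1 else 0) := by
            show φ (Pi.single x 1) = _
            congr 1
            ext j
            simp [Pi.single_apply, eq_comm]
          rw [← this, hc x x0, mul_comm]
      refine (Submodule.finrank_mono hsub).trans ?_
      exact (finrank_span_le_card _).trans (by simp)
    have := Subspace.finrank_add_finrank_dualAnnihilator_eq (LinearMap.range δ)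
    omega
  have r1 := LinearMap.finrank_range_add_finrank_ker δ
  have r2 := LinearMap.finrank_range_add_finrank_ker β
  have r3 := Submodule.finrank_mono hle
  omega

theorem orbitRel_zpowers_eq (g : G) :
    MulAction.orbitRel (Subgroup.zpowers g) X = SameCycle.setoid (MulAction.toPerm g) := by
  ext a b
  rw [MulAction.orbitRel_apply, MulAction.mem_orbit_iff]
  show _ ↔ SameCycle (MulAction.toPerm g) a b
  constructor
  · rintro ⟨⟨_, i, rfl⟩, hi⟩
    refine SameCycle.symm ⟨i, ?_⟩
    rw [← MulAction.toPermHom_apply, ← map_zpow]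
    exact hi
  · intro h
    obtain ⟨i, hi⟩ := h.symm
    refine ⟨⟨g ^ i, i, rfl⟩, ?_⟩
    rw [← MulAction.toPermHom_apply, ← map_zpow] at hi
    exact hi

theorem card_orbits_eq [Fintype X] [DecidableEq X] (g : G) :
    Nat.card (MulAction.orbitRel.Quotient (Subgroup.zpowers g) X) =
      Multiset.card (MulAction.toPerm g : Equiv.Perm X).cycleType +
        (Fintype.card X - (MulAction.toPerm g : Equiv.Perm X).cycleType.sum) := by
  rw [← card_sameCycle_quotient, MulAction.orbitRel.Quotient, orbitRel_zpowers_eq]

theorem sign_toPerm [Fintype X] [DecidableEq X] (g : G) :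
    Equiv.Perm.sign (MulAction.toPerm g : Equiv.Perm X) =
      (-1) ^ (Fintype.card X + Nat.card (MulAction.orbitRel.Quotient (Subgroup.zpowers g) X)) := by
  rw [card_orbits_eq, sign_of_cycleType]
  have hle := sum_cycleType_le (MulAction.toPerm g : Equiv.Perm X)
  set σ := (MulAction.toPerm g : Equiv.Perm X)
  have : Fintype.card X + (Multiset.card σ.cycleType + (Fintype.card X - σ.cycleType.sum)) =
      (σ.cycleType.sum + Multiset.card σ.cycleType) + 2 * (Fintype.card X - σ.cycleType.sum) := by
    omega
  rw [this, pow_add _ (σ.cycleType.sum + Multiset.card σ.cycleType), pow_mul]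
  simp

/-- parity -/
theorem even_card_add [Finite X] (s t : G) :
    Even (Nat.card X + Nat.card (MulAction.orbitRel.Quotient (Subgroup.zpowers s) X) +
      Nat.card (MulAction.orbitRel.Quotient (Subgroup.zpowers (s * t)) X) +
      Nat.card (MulAction.orbitRel.Quotient (Subgroup.zpowers t) X)) := by
  classical
  have := Fintype.ofFinite X
  have h1 := sign_toPerm (X := X) s
  have h2 := sign_toPerm (X := X) t
  have h3 := sign_toPerm (X := X) (s * t)
  have hmul : (MulAction.toPerm (s * t) : Equiv.Perm X) =
      MulAction.toPerm s * MulAction.toPerm t := by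
    ext x; simp [mul_smul]
  rw [hmul, Equiv.Perm.sign_mul, h1, h2, ← pow_add] at h3
  rw [Nat.card_eq_fintype_card]
  set n := Fintype.card X
  set a := Nat.card (MulAction.orbitRel.Quotient (Subgroup.zpowers s) X)
  set b := Nat.card (MulAction.orbitRel.Quotient (Subgroup.zpowers t) X)
  set c := Nat.card (MulAction.orbitRel.Quotient (Subgroup.zpowers (s * t)) X)
  have h4 : ((-1 : ℤˣ)) ^ ((n + a + (n + b)) + (n + c)) = 1 := by
    rw [pow_add, h3, ← pow_add, ← two_mul, pow_mul]; simp
  have h5 : Even ((n + a + (n + b)) + (n + c)) := by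
    by_contra hodd
    rw [Nat.not_even_iff_odd] at hodd
    rw [hodd.neg_one_pow] at h4
    exact absurd h4 (by decide)
  obtain ⟨m, hm⟩ := h5
  exact ⟨m - n, by omega⟩

/-- orbit count when `g ^ p` acts trivially -/
theorem prime_mul_card_orbits [Finite X] (g : G) {p : ℕ} (hp : p.Prime)
    (hg : ∀ x : X, g ^ p • x = x) :
    p * Nat.card (MulAction.orbitRel.Quotient (Subgroup.zpowers g) X) =
      Nat.card X + (p - 1) * Nat.card (MulAction.fixedBy X g) := by
  classical
  have := Fintype.ofFinite X
  rw [card_orbits_eq]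
  set σ := (MulAction.toPerm g : Equiv.Perm X) with hσ
  have hσp : σ ^ p = 1 := by
    ext x
    rw [hσ, ← MulAction.toPermHom_apply, ← map_pow]
    exact hg x
  have hall : ∀ m ∈ σ.cycleType, m = p := by
    intro m hm
    have h1 : m ∣ p := (dvd_of_mem_cycleType hm).trans (orderOf_dvd_of_pow_eq_one hσp)
    have h2 := two_le_of_mem_cycleType hm
    rcases (Nat.dvd_prime hp).mp h1 with h | h
    · omega
    · exact h
  have hsum : σ.cycleType.sum = Multiset.card σ.cycleType * p := by
    rw [Multiset.eq_replicate_card.mpr hall, Multiset.sum_replicate, Multiset.card_replicate,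
      smul_eq_mul]
  have hfix : Nat.card (MulAction.fixedBy X g) = Fintype.card X - σ.cycleType.sum := by
    rw [← card_fixedPoints, Nat.card_eq_fintype_card]
    apply Fintype.card_congr
    exact Equiv.subtypeEquivRight (fun x => Iff.rfl)
  have hle := sum_cycleType_le σ
  rw [hfix, Nat.card_eq_fintype_card]
  obtain ⟨q, rfl⟩ : ∃ q, p = q + 1 := ⟨p - 1, by have := hp.pos; omega⟩
  rw [hsum] at hle ⊢
  set k := Multiset.card σ.cycleType
  obtain ⟨d, hd⟩ := Nat.exists_eq_add_of_le hle
  rw [hd]
  simp only [Nat.add_sub_cancel_left, Nat.add_sub_cancel]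
  ring

end Action

end Fermat.Agent.S24.Ree
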