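import Fermat.Agent.S24.ModDefs
import Fermat.Agent.S24.Ree
import Fermat.Agent.S20.CountIndex
import Fermat.Agent.S20.CountElliptic
import Fermat.Agent.S20.CountCusps

set_option autoImplicit false

open ModularCurve
open scoped MatrixGroups

noncomputable section

namespace Fermat.Agent.S24

/-- number of orbits of the cyclic group generated by `g` on the coset space -/
def rOrb (N : ℕ) (g : SL(2, ℤ)) : ℕ :=
  Nat.card (MulAction.orbitRel.Quotient (Subgroup.zpowers g) (QN N))

theorem card_QN (N : ℕ) [NeZero N] : Nat.card (QN N) = dedekindPsi N :=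
  Fermat.Agent.S20.card_quotient_Gamma0 N

theorem finite_QN (N : ℕ) [NeZero N] : Finite (QN N) :=
  Subgroup.finite_quotient_of_finiteIndex

theorem neg_one_smul_QN (N : ℕ) (x : QN N) : (-1 : SL(2, ℤ)) • x = x := by
  induction x using QuotientGroup.induction_on with | _ g => ?_
  rw [MulAction.Quotient.smul_coe, smul_eq_mul, Fermat.Agent.S20.Count.mk_eq_mk_iff]
  simp [mul_comm]

theorem S_pow_two : ModularGroup.S ^ 2 = (-1 : SL(2, ℤ)) := by
  ext i j
  fin_cases i <;> fin_cases j <;>
    simp [pow_two, ModularGroup.S, Matrix.mul_apply, Fin.sum_univ_two]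

theorem ST_pow_three : (ModularGroup.S * ModularGroup.T) ^ 3 = (-1 : SL(2, ℤ)) := by
  ext i j
  fin_cases i <;> fin_cases j <;>
    simp [pow_succ, ModularGroup.S, ModularGroup.T, Matrix.mul_apply, Fin.sum_univ_two]

theorem two_mul_rOrb_S (N : ℕ) [NeZero N] :
    2 * rOrb N ModularGroup.S = dedekindPsi N + nuTwo N := by
  have := finite_QN N
  have h := Ree.prime_mul_card_orbits (X := QN N) ModularGroup.S Nat.prime_two
    (fun x => by rw [S_pow_two]; exact neg_one_smul_QN N x)
  rw [card_QN, Fermat.Agent.S20.card_fixedBy_S, show (2 - 1) * nuTwo N = nuTwo N by norm_num] at h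
  exact h

theorem three_mul_rOrb_ST (N : ℕ) [NeZero N] :
    3 * rOrb N (ModularGroup.S * ModularGroup.T) = dedekindPsi N + 2 * nuThree N := by
  have := finite_QN N
  have h := Ree.prime_mul_card_orbits (X := QN N) (ModularGroup.S * ModularGroup.T) Nat.prime_three
    (fun x => by rw [ST_pow_three]; exact neg_one_smul_QN N x)
  rw [card_QN, Fermat.Agent.S20.card_fixedBy_ST] at h
  exact h

theorem rOrb_T (N : ℕ) [NeZero N] : rOrb N ModularGroup.T = cuspCount N :=
  Fermat.Agent.S20.card_orbits_T N

theorem even_card_add_rOrb (N : ℕ) [NeZero N] :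
    Even (Nat.card (QN N) + rOrb N ModularGroup.S + rOrb N (ModularGroup.S * ModularGroup.T)
      + rOrb N ModularGroup.T) := by
  have := finite_QN N
  exact Ree.even_card_add (X := QN N) ModularGroup.S ModularGroup.T

theorem rOrb_add_le (N : ℕ) [NeZero N] :
    rOrb N ModularGroup.S + rOrb N (ModularGroup.S * ModularGroup.T) + rOrb N ModularGroup.T
      ≤ Nat.card (QN N) + 2 := by
  have := finite_QN N
  refine Ree.ree (X := QN N) ModularGroup.S ModularGroup.T ?_
  intro x y
  obtain ⟨g, hg⟩ := MulAction.exists_smul_eq SL(2, ℤ) x y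
  exact ⟨g, by rw [SpecialLinearGroup.SL2Z_generators]; trivial, hg⟩

end Fermat.Agent.S24
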