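import Mathlib
import Fermat.Prelude.Def_AlgebraicCurve_DivisorClassGroup

set_option autoImplicit false
set_option linter.unusedSectionVars false

open IsDedekindDomain AlgebraicCurve

namespace Fermat.Agent.S24


section Basic

variable {K F : Type*} [Field K] [Field F] [Algebra K F] (v : Place K F)

theorem ord_nonneg_of_mem {f : F} (hf : f ∈ v.toValuationSubring) : 0 ≤ v.ord f := by
  rcases eq_or_ne f 0 with rfl | hf0
  · simp
  obtain ⟨π, hπ⟩ := IsDiscreteValuationRing.exists_irreducible v.toValuationSubring
  obtain ⟨n, u, hu⟩ :=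
    IsDiscreteValuationRing.eq_unit_mul_pow_irreducible
      (x := (⟨f, hf⟩ : v.toValuationSubring)) (by simpa [Subtype.ext_iff] using hf0) hπ
  have hcoe : f = ((u : v.toValuationSubring) : F) * ((π : F) ^ (n : ℤ)) := by
    have h := congrArg (Subtype.val) hu
    push_cast at h
    rw [zpow_natCast]
    exact h
  rw [hcoe, v.ord_unit_smul_zpow u hπ (n : ℤ)]
  exact Int.natCast_nonneg n

theorem mem_of_ord_nonneg {f : F} (h : 0 ≤ v.ord f) : f ∈ v.toValuationSubring := by
  rcases eq_or_ne f 0 with rfl | hf
  · exact zero_mem _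
  obtain ⟨π, hπ⟩ := IsDiscreteValuationRing.exists_irreducible v.toValuationSubring
  obtain ⟨u, hu⟩ := v.exists_unit_mul_zpow hf hπ
  rw [hu, show v.ord f = (((v.ord f).toNat : ℕ) : ℤ) from (Int.toNat_of_nonneg h).symm,
    zpow_natCast]
  exact mul_mem (u : v.toValuationSubring).2 (pow_mem (π : v.toValuationSubring).2 _)

theorem mem_iff_ord_nonneg {f : F} : f ∈ v.toValuationSubring ↔ 0 ≤ v.ord f :=
  ⟨ord_nonneg_of_mem v, mem_of_ord_nonneg v⟩

end Basic

section General

variable {K F : Type*} [Field K] [Field F] [Algebra K F]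
variable {R : Type*} [CommRing R] [IsDedekindDomain R] [Algebra R F] [IsFractionRing R F]
  [Algebra K R] [IsScalarTower K R F]

omit [Algebra K F] [Algebra K R] [IsScalarTower K R F] in
/-- A nontrivial valuation subring containing the Dedekind domain `R` is the valuation ring
of a prime of `R`. -/
theorem exists_heightOneSpectrum_of_valuationSubring (O : ValuationSubring F) (hO : O ≠ ⊤)
    (h : ∀ r : R, algebraMap R F r ∈ O) :
    ∃ w : HeightOneSpectrum R, O = (w.valuation F).valuationSubring := by
  let φ : R →+* O := (algebraMap R F).codRestrict O.toSubring h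
  let 𝔭 : Ideal R := Ideal.comap φ (IsLocalRing.maximalIdeal O)
  have hprime : 𝔭.IsPrime := Ideal.comap_isPrime φ _
  have hunit : ∀ r : R, r ∉ 𝔭 → IsUnit (φ r) := by
    intro r hr
    by_contra hu
    exact hr ((IsLocalRing.mem_maximalIdeal _).mpr hu)
  have hinv : ∀ r : R, r ∉ 𝔭 → (algebraMap R F r)⁻¹ ∈ O := by
    intro r hr
    obtain ⟨u, hu⟩ := hunit r hr
    have h1 : ((u⁻¹ : (O)ˣ) : O) * φ r = 1 := by
      rw [← hu]; exact u.inv_mul
    have h2 : (((u⁻¹ : (O)ˣ) : O) : F) * algebraMap R F r = 1 :=
      congrArg Subtype.val h1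
    have h3 : (algebraMap R F r)⁻¹ = (((u⁻¹ : (O)ˣ) : O) : F) :=
      (eq_inv_of_mul_eq_one_left h2).symm
    rw [h3]
    exact Subtype.mem _
  have hne : 𝔭 ≠ ⊥ := by
    intro hbot
    apply hO
    refine SetLike.ext fun x => ⟨fun _ => ValuationSubring.mem_top x, fun _ => ?_⟩
    obtain ⟨a, b, hb, rfl⟩ := IsFractionRing.div_surjective (A := R) x
    have hb0 : b ∉ 𝔭 := by
      rw [hbot, Ideal.mem_bot]
      exact nonZeroDivisors.ne_zero hb
    rw [div_eq_mul_inv]
    exact O.mul_mem _ _ (h a) (hinv b hb0)
  let w : HeightOneSpectrum R := ⟨𝔭, hprime, hne⟩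
  refine ⟨w, ?_⟩
  symm
  have : Ring.KrullDimLE 1 ((w.valuation F).valuationSubring) := by
    rw [← HeightOneSpectrum.valuationSubringAtPrime_eq_valuationSubring]
    infer_instance
  refine ValuationSubring.eq_of_le_of_ne_top _ ?_ hO
  intro x hx
  rw [Valuation.mem_valuationSubring_iff] at hx
  obtain ⟨n, d, hnd⟩ := w.exists_primeCompl_mul_eq_of_integer x hx
  have hd : (d : R) ∉ 𝔭 := d.2
  have hd0 : algebraMap R F d ≠ 0 := by
    intro h0
    apply hd
    have : (d : R) = 0 := (IsFractionRing.injective R F) (h0.trans (map_zero _).symm)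
    rw [this]; exact 𝔭.zero_mem
  have hx' : x = algebraMap R F n * (algebraMap R F d)⁻¹ := by
    field_simp
    exact hnd
  rw [hx']
  exact O.mul_mem _ _ (h n) (hinv d hd)

/-- A place whose valuation ring contains the Dedekind domain `R` comes from a prime of `R`. -/
theorem exists_heightOneSpectrum_of_le (v : Place K F)
    (h : ∀ r : R, algebraMap R F r ∈ v.toValuationSubring) :
    ∃ w : HeightOneSpectrum R, v = Place.ofHeightOneSpectrum (K := K) (F := F) w := by
  obtain ⟨w, hw⟩ := exists_heightOneSpectrum_of_valuationSubring v.toValuationSubring v.ne_top' h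
  exact ⟨w, Place.ext hw⟩

theorem mem_iff_of_eq (w : HeightOneSpectrum R) (v : Place K F)
    (hv : v.toValuationSubring = (w.valuation F).valuationSubring) (x : F) :
    x ∈ v.toValuationSubring ↔ w.valuation F x ≤ 1 := by
  rw [hv]; exact Valuation.mem_valuationSubring_iff _ _

theorem valuation_unit_eq_one (w : HeightOneSpectrum R) (v : Place K F)
    (hv : v.toValuationSubring = (w.valuation F).valuationSubring)
    (u : (v.toValuationSubring)ˣ) :
    w.valuation F ((u : v.toValuationSubring) : F) = 1 := by
  have h1 : w.valuation F ((u : v.toValuationSubring) : F) ≤ 1 :=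
    (mem_iff_of_eq w v hv _).mp (u : v.toValuationSubring).2
  have h2 : w.valuation F (((u⁻¹ : (v.toValuationSubring)ˣ) : v.toValuationSubring) : F) ≤ 1 :=
    (mem_iff_of_eq w v hv _).mp ((u⁻¹ : (v.toValuationSubring)ˣ) : v.toValuationSubring).2
  have h3 : ((u : v.toValuationSubring) : F) *
      (((u⁻¹ : (v.toValuationSubring)ˣ) : v.toValuationSubring) : F) = 1 :=
    congrArg Subtype.val u.mul_inv
  have h4 := congrArg (w.valuation F) h3
  rw [map_mul, map_one] at h4
  exact eq_one_of_one_le_mul_left h1 h2 h4.ge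

theorem valuation_irreducible (w : HeightOneSpectrum R) (v : Place K F)
    (hv : v.toValuationSubring = (w.valuation F).valuationSubring)
    {ϖ : v.toValuationSubring} (hϖ : Irreducible ϖ) :
    w.valuation F (ϖ : F) = WithZero.exp (-1 : ℤ) := by
  have hϖ0 : (ϖ : F) ≠ 0 := by
    simpa [ne_eq, ZeroMemClass.coe_eq_zero] using hϖ.ne_zero
  have hval0 : w.valuation F (ϖ : F) ≠ 0 := (Valuation.ne_zero_iff _).mpr hϖ0
  set a : ℤ := WithZero.log (w.valuation F (ϖ : F)) with ha
  have hexp : w.valuation F (ϖ : F) = WithZero.exp a := (WithZero.exp_log hval0).symm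
  have hle : w.valuation F (ϖ : F) ≤ 1 := (mem_iff_of_eq w v hv _).mp ϖ.2
  have hne1 : w.valuation F (ϖ : F) ≠ 1 := by
    intro h1
    apply hϖ.not_isUnit
    have hinv : (ϖ : F)⁻¹ ∈ v.toValuationSubring := by
      rw [mem_iff_of_eq w v hv, map_inv₀, h1, inv_one]
    refine IsUnit.of_mul_eq_one ⟨(ϖ : F)⁻¹, hinv⟩ (Subtype.ext ?_)
    exact mul_inv_cancel₀ hϖ0
  have halt : a < 0 := by
    have h1 : WithZero.exp a < WithZero.exp (0 : ℤ) := by
      rw [← hexp, WithZero.exp_zero]
      exact lt_of_le_of_ne hle hne1
    exact WithZero.exp_lt_exp.mp h1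
  obtain ⟨π₀, hπ₀⟩ := w.valuation_exists_uniformizer F
  have hπ₀0 : π₀ ≠ 0 := by
    intro h0
    rw [h0, map_zero] at hπ₀
    exact WithZero.exp_ne_zero hπ₀.symm
  obtain ⟨u, hu⟩ := v.exists_unit_mul_zpow hπ₀0 hϖ
  have h5 := congrArg (w.valuation F) hu
  rw [map_mul, map_zpow₀, valuation_unit_eq_one w v hv u, one_mul, hπ₀, hexp,
    ← WithZero.exp_zsmul] at h5
  have h6 : (-1 : ℤ) = v.ord π₀ • a := WithZero.exp_injective h5
  rw [smul_eq_mul] at h6
  have h7 : a = -1 := by
    have hdvd : a ∣ 1 := ⟨-v.ord π₀, by linarith⟩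
    have := Int.isUnit_iff.mp (isUnit_of_dvd_one hdvd)
    omega
  rw [hexp, h7]

theorem ord_eq_of_eq (w : HeightOneSpectrum R) (v : Place K F)
    (hv : v.toValuationSubring = (w.valuation F).valuationSubring) (f : F) :
    v.ord f = -(WithZero.log (w.valuation F f)) := by
  rcases eq_or_ne f 0 with rfl | hf
  · simp
  obtain ⟨ϖ, hϖ⟩ := IsDiscreteValuationRing.exists_irreducible v.toValuationSubring
  obtain ⟨u, hu⟩ := v.exists_unit_mul_zpow hf hϖ
  have h5 := congrArg (w.valuation F) hu
  rw [map_mul, map_zpow₀, valuation_unit_eq_one w v hv u, one_mul,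
    valuation_irreducible w v hv hϖ, ← WithZero.exp_zsmul] at h5
  rw [h5, WithZero.log_exp]
  simp

/-- The order function of the place attached to a prime is the adic valuation. -/
theorem ord_ofHeightOneSpectrum (w : HeightOneSpectrum R) (f : F) :
    (Place.ofHeightOneSpectrum (K := K) (F := F) w).ord f = -(WithZero.log (w.valuation F f)) :=
  ord_eq_of_eq w _ rfl f


theorem ord_algebraMap_pos_iff (w : HeightOneSpectrum R) {x : R} (hx : x ≠ 0) :
    0 < (Place.ofHeightOneSpectrum (K := K) (F := F) w).ord (algebraMap R F x) ↔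
      x ∈ w.asIdeal := by
  rw [ord_ofHeightOneSpectrum, ← w.valuation_lt_one_iff_mem (K := F)]
  have h0 : w.valuation F (algebraMap R F x) ≠ 0 := by
    rw [Valuation.ne_zero_iff]
    exact fun h => hx ((IsFractionRing.injective R F) (h.trans (map_zero _).symm))
  rw [Left.neg_pos_iff, ← WithZero.log_one, WithZero.log_lt_log h0 one_ne_zero]

theorem ofHeightOneSpectrum_injective :
    Function.Injective (Place.ofHeightOneSpectrum (K := K) (F := F) (R := R)) := by
  intro w₁ w₂ h
  apply HeightOneSpectrum.ext
  ext x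
  rcases eq_or_ne x 0 with rfl | hx
  · simp
  · rw [← ord_algebraMap_pos_iff (K := K) (F := F) w₁ hx,
      ← ord_algebraMap_pos_iff (K := K) (F := F) w₂ hx, h]

/-- The canonical map from `R` to the residue field of the place attached to `w`. -/
noncomputable def toResidueField (w : HeightOneSpectrum R) :
    R →ₐ[K] (Place.ofHeightOneSpectrum (K := K) (F := F) w).ResidueField :=
  { (IsLocalRing.residue (Place.ofHeightOneSpectrum (K := K) (F := F) w).toValuationSubring).comp
      ((algebraMap R F).codRestrict
        (Place.ofHeightOneSpectrum (K := K) (F := F) w).toValuationSubring.toSubring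
        (fun r => (Valuation.mem_valuationSubring_iff _ _).mpr (w.valuation_le_one r))) with
    commutes' := fun a => by
      rw [IsScalarTower.algebraMap_apply K
        (Place.ofHeightOneSpectrum (K := K) (F := F) w).toValuationSubring
        (Place.ofHeightOneSpectrum (K := K) (F := F) w).ResidueField]
      refine congrArg (IsLocalRing.residue _) (Subtype.ext ?_)
      exact (IsScalarTower.algebraMap_apply K R F a).symm }


theorem toResidueField_apply (w : HeightOneSpectrum R) (r : R) :
    toResidueField (K := K) (F := F) w r =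
      IsLocalRing.residue (Place.ofHeightOneSpectrum (K := K) (F := F) w).toValuationSubring
        ⟨algebraMap R F r, (Valuation.mem_valuationSubring_iff _ _).mpr (w.valuation_le_one r)⟩ :=
  rfl

theorem toResidueField_eq_zero_iff (w : HeightOneSpectrum R) (r : R) :
    toResidueField (K := K) (F := F) w r = 0 ↔ r ∈ w.asIdeal := by
  rw [toResidueField_apply, IsLocalRing.residue_eq_zero_iff, ← w.valuation_lt_one_iff_mem (K := F)]
  set v := Place.ofHeightOneSpectrum (K := K) (F := F) w with hv
  constructor
  · intro h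
    refine lt_of_le_of_ne (w.valuation_le_one r) fun h1 => ?_
    replace h1 : w.valuation F (algebraMap R F r) = 1 := h1
    rw [IsLocalRing.mem_maximalIdeal, mem_nonunits_iff] at h
    apply h
    have hr0 : algebraMap R F r ≠ 0 := by
      intro h0
      rw [h0, map_zero] at h1
      exact zero_ne_one h1
    have hinv : (algebraMap R F r)⁻¹ ∈ v.toValuationSubring := by
      rw [mem_iff_of_eq w v rfl, map_inv₀, h1, inv_one]
    refine IsUnit.of_mul_eq_one ⟨(algebraMap R F r)⁻¹, hinv⟩ (Subtype.ext ?_)
    exact mul_inv_cancel₀ hr0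
  · intro h
    rw [IsLocalRing.mem_maximalIdeal, mem_nonunits_iff]
    rintro ⟨u, hu⟩
    have := valuation_unit_eq_one w v rfl u
    rw [hu] at this
    exact h.ne this

theorem toResidueField_surjective (w : HeightOneSpectrum R) :
    Function.Surjective (toResidueField (K := K) (F := F) w) := by
  intro z
  obtain ⟨x, rfl⟩ := IsLocalRing.residue_surjective z
  have hx : w.valuation F (x : F) ≤ 1 := (mem_iff_of_eq w _ rfl _).mp x.2
  obtain ⟨n, d, hnd⟩ := w.exists_primeCompl_mul_eq_of_integer (x : F) hx
  have hd : (d : R) ∉ w.asIdeal := d.2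
  have hd' : toResidueField (K := K) (F := F) w d ≠ 0 := by
    rwa [ne_eq, toResidueField_eq_zero_iff]
  obtain ⟨d', i, hi, hdi⟩ := w.isMaximal.exists_inv hd
  have hi' : toResidueField (K := K) (F := F) w i = 0 := by
    rwa [toResidueField_eq_zero_iff]
  refine ⟨n * d', ?_⟩
  have h1 : IsLocalRing.residue _ x * toResidueField (K := K) (F := F) w d =
      toResidueField (K := K) (F := F) w n := by
    rw [toResidueField_apply, toResidueField_apply, ← map_mul]
    exact congrArg _ (Subtype.ext hnd)
  have h2 : toResidueField (K := K) (F := F) w d' * toResidueField (K := K) (F := F) w d = 1 := by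
    have := congrArg (toResidueField (K := K) (F := F) w) hdi
    rwa [map_add, map_mul, hi', add_zero, map_one] at this
  rw [map_mul, ← h1, mul_assoc, mul_comm (toResidueField (K := K) (F := F) w d), h2, mul_one]

theorem finite_residueField_ofHeightOneSpectrum [Algebra.FiniteType K R]
    (w : HeightOneSpectrum R) :
    Module.Finite K (Place.ofHeightOneSpectrum (K := K) (F := F) w).ResidueField := by
  have : Algebra.FiniteType K (Place.ofHeightOneSpectrum (K := K) (F := F) w).ResidueField :=
    Algebra.FiniteType.of_surjective (toResidueField (K := K) (F := F) w)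
      (toResidueField_surjective w)
  exact finite_of_finite_type_of_isJacobsonRing K _

end General

section Tower

/-- Over an algebraically closed field, a maximal ideal of a finite type algebra has residue
field `K`. -/
theorem algebraMap_quotient_bijective {K : Type*} [Field K] [IsAlgClosed K]
    {A : Type*} [CommRing A] [Algebra K A] [Algebra.FiniteType K A] (p : Ideal A) [p.IsMaximal] :
    Function.Bijective (algebraMap K (A ⧸ p)) := by
  let := Ideal.Quotient.field p
  have h1 : Algebra.FiniteType K (A ⧸ p) :=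
    Algebra.FiniteType.of_surjective (Ideal.Quotient.mkₐ K p) (Ideal.Quotient.mkₐ_surjective K p)
  have h2 : Module.Finite K (A ⧸ p) := finite_of_finite_type_of_isJacobsonRing K _
  exact IsAlgClosed.algebraMap_bijective_of_isIntegral

theorem inertiaDeg'_eq_one (K : Type*) [Field K] [IsAlgClosed K]
    {A : Type*} [CommRing A] [Algebra K A] [Algebra.FiniteType K A]
    {S : Type*} [CommRing S] [Algebra A S] [Module.Finite A S]
    [Algebra K S] [IsScalarTower K A S]
    (p : Ideal A) (P : Ideal S) [P.IsMaximal]
    [P.LiesOver p] : Ideal.inertiaDeg' p P = 1 := by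
  rw [Ideal.inertiaDeg'_algebraMap]
  have hS : Algebra.FiniteType K S :=
    Algebra.FiniteType.trans (S := A) inferInstance inferInstance
  have hb := algebraMap_quotient_bijective (K := K) P
  have hbij : Function.Bijective (Algebra.linearMap (A ⧸ p) (S ⧸ P)) := by
    refine ⟨FaithfulSMul.algebraMap_injective _ _, fun z => ?_⟩
    obtain ⟨c, rfl⟩ := hb.2 z
    exact ⟨algebraMap K (A ⧸ p) c, (IsScalarTower.algebraMap_apply K (A ⧸ p) (S ⧸ P) c).symm⟩
  have : Nontrivial (A ⧸ p) := by
    have : Nontrivial (S ⧸ P) := Ideal.Quotient.nontrivial_iff.mpr (Ideal.IsMaximal.ne_top ‹_›)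
    exact (algebraMap (A ⧸ p) (S ⧸ P)).domain_nontrivial
  rw [← (LinearEquiv.ofBijective _ hbij).finrank_eq, Module.finrank_self]

end Tower

theorem mem_valuationSubring_of_isIntegral {F : Type*} [Field F] {A : Type*} [CommRing A]
    [Algebra A F] (O : ValuationSubring F) (h : ∀ a : A, algebraMap A F a ∈ O) {x : F}
    (hx : IsIntegral A x) : x ∈ O := by
  let φ : A →+* O := (algebraMap A F).codRestrict O.toSubring h
  obtain ⟨p, hp, hpx⟩ := hx
  have h1 : IsIntegral O x := ⟨p.map φ, hp.map φ, by rw [Polynomial.eval₂_map]; exact hpx⟩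
  obtain ⟨z, hz⟩ := IsIntegrallyClosed.isIntegral_iff.mp h1
  rw [← hz]; exact z.2

section Sum

variable {K F : Type*} [Field K] [Field F] [Algebra K F]
variable {A : Type*} [CommRing A] [IsDedekindDomain A] [Algebra K A]
variable [Algebra A F] [FaithfulSMul A F]
variable (S : Type*) [CommRing S] [IsDedekindDomain S] [Algebra A S] [Algebra S F]
  [IsFractionRing S F] [IsScalarTower A S F] [Module.Finite A S] [Algebra K S]
  [IsScalarTower K S F]

omit [IsDedekindDomain A] [Algebra K A] [FaithfulSMul A F] in
theorem exists_heightOneSpectrum_of_le' (v : Place K F)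
    (h : ∀ a : A, algebraMap A F a ∈ v.toValuationSubring) :
    ∃ w : HeightOneSpectrum S, v = Place.ofHeightOneSpectrum (K := K) (F := F) w := by
  refine exists_heightOneSpectrum_of_le v fun s => ?_
  refine mem_valuationSubring_of_isIntegral (A := A) _ h ?_
  exact (Algebra.IsIntegral.isIntegral (R := A) s).algebraMap

omit [IsDedekindDomain A] [Algebra K A] in
theorem zeroPlaces_eq_image (y : A) (hy0 : y ≠ 0)
    (hpl : ∀ v : Place K F, 0 < v.ord (algebraMap A F y) →
      ∀ a : A, algebraMap A F a ∈ v.toValuationSubring) :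
    {v : Place K F | 0 < v.ord (algebraMap A F y)} =
      Place.ofHeightOneSpectrum (K := K) (F := F) ''
        {w : HeightOneSpectrum S | algebraMap A S y ∈ w.asIdeal} := by
  have hy1 : algebraMap A S y ≠ 0 := by
    intro h
    apply hy0
    apply FaithfulSMul.algebraMap_injective A F
    rw [IsScalarTower.algebraMap_apply A S F, h, map_zero, map_zero]
  ext v
  simp only [Set.mem_ofPred_eq, Set.mem_image]
  constructor
  · intro hv
    obtain ⟨w, rfl⟩ := exists_heightOneSpectrum_of_le' S v (hpl v hv)
    refine ⟨w, ?_, rfl⟩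
    rwa [IsScalarTower.algebraMap_apply A S F, ord_algebraMap_pos_iff w hy1] at hv
  · rintro ⟨w, hw, rfl⟩
    rwa [IsScalarTower.algebraMap_apply A S F, ord_algebraMap_pos_iff w hy1]


omit [IsDedekindDomain A] [Algebra S F] [IsFractionRing S F] [Module.Finite A S] in
theorem liesOver_span_of_mem (y : A) [hmax : (Ideal.span {y}).IsMaximal]
    (w : HeightOneSpectrum S) (hw : algebraMap A S y ∈ w.asIdeal) :
    w.asIdeal.LiesOver (Ideal.span {y}) := by
  constructor
  refine hmax.eq_of_le ?_ ?_
  · exact (Ideal.comap_isPrime (algebraMap A S) w.asIdeal).ne_top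
  · rw [Ideal.span_le, Set.singleton_subset_iff]
    exact hw

omit [Algebra K A] [Module.Finite A S] in
theorem ord_eq_ramificationIdx' (y : A) (hy0 : y ≠ 0) [hmax : (Ideal.span {y}).IsMaximal]
    (w : HeightOneSpectrum S) (hw : algebraMap A S y ∈ w.asIdeal) :
    (Place.ofHeightOneSpectrum (K := K) (F := F) w).ord (algebraMap A F y) =
      (Ideal.ramificationIdx' (Ideal.span {y}) w.asIdeal : ℤ) := by
  have hlo := liesOver_span_of_mem S y w hw
  let v : HeightOneSpectrum A := ⟨Ideal.span {y}, hmax.isPrime, by simpa using hy0⟩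
  have : w.asIdeal.LiesOver v.asIdeal := hlo
  have : Module.IsTorsionFree A S := by
    have : FaithfulSMul A S := by
      rw [faithfulSMul_iff_algebraMap_injective]
      intro a b hab
      apply FaithfulSMul.algebraMap_injective A F
      rw [IsScalarTower.algebraMap_apply A S F, hab, ← IsScalarTower.algebraMap_apply A S F]
    infer_instance
  have h1 := HeightOneSpectrum.intValuation_liesOver v w y
  rw [v.intValuation_singleton hy0 rfl] at h1
  rw [ord_ofHeightOneSpectrum, IsScalarTower.algebraMap_apply A S F,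
    HeightOneSpectrum.valuation_of_algebraMap, ← h1, ← WithZero.exp_nsmul, WithZero.log_exp]
  simp [v]


omit [Algebra K A] [Algebra K S] [IsScalarTower K S F] [Algebra K F] in
include F in
theorem isTorsionFree_of_tower : Module.IsTorsionFree A S := by
  have : FaithfulSMul A S := by
    rw [faithfulSMul_iff_algebraMap_injective]
    intro a b hab
    apply FaithfulSMul.algebraMap_injective A F
    rw [IsScalarTower.algebraMap_apply A S F, hab, ← IsScalarTower.algebraMap_apply A S F]
  infer_instance

omit [Algebra K A] [Algebra K S] [IsScalarTower K S F] [Algebra K F] in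
include F in
theorem image_asIdeal_eq (y : A) (hy0 : y ≠ 0) [hmax : (Ideal.span {y}).IsMaximal] :
    HeightOneSpectrum.asIdeal '' {w : HeightOneSpectrum S | algebraMap A S y ∈ w.asIdeal} =
      ↑(IsDedekindDomain.primesOverFinset (Ideal.span {y}) S) := by
  have := isTorsionFree_of_tower (F := F) (A := A) S
  have hpb : Ideal.span {y} ≠ ⊥ := by simpa using hy0
  rw [IsDedekindDomain.coe_primesOverFinset hpb S]
  ext P
  constructor
  · rintro ⟨w, hw, rfl⟩
    exact ⟨w.isPrime, liesOver_span_of_mem S y w hw⟩
  · rintro ⟨hP, hlo⟩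
    refine ⟨⟨P, hP, Ideal.ne_bot_of_liesOver_of_ne_bot hpb P⟩, ?_, rfl⟩
    exact (Ideal.mem_of_liesOver P (Ideal.span {y}) y).mp (Ideal.mem_span_singleton_self y)

omit [Algebra K A] in
include S in
theorem finite_zeroPlaces_aux (y : A) (hy0 : y ≠ 0) [hmax : (Ideal.span {y}).IsMaximal]
    (hpl : ∀ v : Place K F, 0 < v.ord (algebraMap A F y) →
      ∀ a : A, algebraMap A F a ∈ v.toValuationSubring) :
    {v : Place K F | 0 < v.ord (algebraMap A F y)}.Finite := by
  rw [zeroPlaces_eq_image S y hy0 hpl]
  refine Set.Finite.image _ ?_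
  refine Set.Finite.of_finite_image (f := HeightOneSpectrum.asIdeal) ?_
    (fun a _ b _ h => HeightOneSpectrum.ext h)
  rw [image_asIdeal_eq (F := F) S y hy0]
  exact Finset.finite_toSet _

set_option linter.deprecated false in
include S in
theorem sum_ord_zeroPlaces_aux [IsAlgClosed K] [Algebra.FiniteType K A] [IsScalarTower K A S]
    (E : Type*) [Field E] [Algebra A E] [IsFractionRing A E] [Algebra E F] [IsScalarTower A E F]
    (y : A) (hy0 : y ≠ 0) [hmax : (Ideal.span {y}).IsMaximal]
    (hpl : ∀ v : Place K F, 0 < v.ord (algebraMap A F y) →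
      ∀ a : A, algebraMap A F a ∈ v.toValuationSubring) :
    ∑ᶠ v ∈ {v : Place K F | 0 < v.ord (algebraMap A F y)}, v.ord (algebraMap A F y) =
      (Module.finrank E F : ℤ) := by
  have hpb : Ideal.span {y} ≠ ⊥ := by simpa using hy0
  rw [zeroPlaces_eq_image S y hy0 hpl,
    finsum_mem_image (fun a _ b _ h => ofHeightOneSpectrum_injective h),
    ← Ideal.sum_ramification_inertia S E F hpb, Nat.cast_sum, ← finsum_mem_coe_finset,
    ← image_asIdeal_eq (F := F) S y hy0,
    finsum_mem_image (fun a _ b _ h => HeightOneSpectrum.ext h)]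
  refine finsum_mem_congr rfl fun w hw => ?_
  have := liesOver_span_of_mem S y w hw
  have := w.isMaximal
  rw [ord_eq_ramificationIdx' S y hy0 w hw, inertiaDeg'_eq_one K, mul_one]

end Sum

section Adjoin

open IntermediateField
open scoped IntermediateField.algebraAdjoinAdjoin

variable {K F : Type*} [Field K] [Field F] [Algebra K F]

/-- The generator `y` as an element of `K[y]`. -/
abbrev genAdjoin (K : Type*) {F : Type*} [Field K] [Field F] [Algebra K F] (y : F) :
    Algebra.adjoin K {y} := ⟨y, Algebra.self_mem_adjoin_singleton K y⟩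

theorem isPrincipalIdealRing_adjoin (y : F) (hy : Transcendental K y) :
    IsPrincipalIdealRing (Algebra.adjoin K {y}) :=
  IsPrincipalIdealRing.of_surjective
    (Polynomial.algEquivOfTranscendental K y hy : Polynomial K →+* Algebra.adjoin K {y})
    (Polynomial.algEquivOfTranscendental K y hy).surjective

theorem finiteType_adjoin (y : F) : Algebra.FiniteType K (Algebra.adjoin K {y}) :=
  (Subalgebra.fg_iff_finiteType _).mp ⟨{y}, by simp⟩

theorem genAdjoin_ne_zero (y : F) (hy : Transcendental K y) : genAdjoin K y ≠ 0 := by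
  intro h
  have : y = 0 := congrArg Subtype.val h
  rw [this] at hy
  exact hy isAlgebraic_zero

theorem prime_genAdjoin (y : F) (hy : Transcendental K y) : Prime (genAdjoin K y) := by
  have h : genAdjoin K y = Polynomial.algEquivOfTranscendental K y hy Polynomial.X :=
    (Polynomial.algEquivOfTranscendental_apply_X K y hy).symm
  rw [h]
  exact (MulEquiv.prime_iff (Polynomial.algEquivOfTranscendental K y hy).toMulEquiv).mpr
    Polynomial.prime_X

theorem isMaximal_span_genAdjoin (y : F) (hy : Transcendental K y) :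
    (Ideal.span {genAdjoin K y}).IsMaximal := by
  have := isPrincipalIdealRing_adjoin y hy
  have h0 := genAdjoin_ne_zero y hy
  exact Ideal.IsPrime.isMaximal ((Ideal.span_singleton_prime h0).mpr (prime_genAdjoin y hy))
    (by simpa using h0)

theorem adjoin_le_valuationSubring (y : F) (O : ValuationSubring F)
    (hK : ∀ a : K, algebraMap K F a ∈ O) (hy : y ∈ O) (a : Algebra.adjoin K {y}) :
    algebraMap (Algebra.adjoin K {y}) F a ∈ O := by
  let O' : Subalgebra K F := { O.toSubring with algebraMap_mem' := hK }
  have : Algebra.adjoin K {y} ≤ O' := Algebra.adjoin_le (by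
    rw [Set.singleton_subset_iff]; exact hy)
  exact this a.2

end Adjoin




end Fermat.Agent.S24
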