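import Mathlib

set_option autoImplicit false

open IntermediateField

namespace Fermat.Agent.S24

section DegGen

variable {K F : Type*} [Field K] [Field F] [Algebra K F]

theorem finiteDimensional_of_gens (x : F) (S : Set F) (hS : S.Finite)
    (hadj : IntermediateField.adjoin K S = ⊤) (halg : ∀ θ : F, IsAlgebraic K⟮x⟯ θ) :
    FiniteDimensional K⟮x⟯ F := by
  have := hS.to_subtype
  have h1 : FiniteDimensional K⟮x⟯ (IntermediateField.adjoin K⟮x⟯ S) :=
    IntermediateField.finiteDimensional_adjoin fun y _ => (halg y).isIntegral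
  have h2 : IntermediateField.adjoin K⟮x⟯ S = ⊤ := by
    rw [eq_top_iff]
    intro y _
    have hy : y ∈ IntermediateField.adjoin K S := by
      rw [hadj]; trivial
    have hle : IntermediateField.adjoin K S ≤
      (IntermediateField.adjoin K⟮x⟯ S).restrictScalars K := by
      rw [IntermediateField.adjoin_le_iff]
      exact IntermediateField.subset_adjoin _ _
    exact hle hy
  rw [h2] at h1
  exact (IntermediateField.topEquiv (F := K⟮x⟯) (E := F)).toLinearEquiv.finiteDimensional

theorem finrank_le_of_poly [CharZero K] (x : F) (n : ℕ) (hfin : FiniteDimensional K⟮x⟯ F)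
    (h : ∀ θ : F, ∃ R : Polynomial K⟮x⟯, R ≠ 0 ∧ R.natDegree ≤ n ∧ Polynomial.aeval θ R = 0) :
    Module.finrank K⟮x⟯ F ≤ n := by
  have : CharZero K⟮x⟯ := charZero_of_injective_algebraMap (algebraMap K K⟮x⟯).injective
  obtain ⟨θ, hθ⟩ := Field.exists_primitive_element K⟮x⟯ F
  obtain ⟨R, hR, hdeg, h0⟩ := h θ
  have h1 : Module.finrank K⟮x⟯ F = (minpoly K⟮x⟯ θ).natDegree := by
    rw [← IntermediateField.adjoin.finrank (IsAlgebraic.isIntegral ⟨R, hR, h0⟩), hθ,
      IntermediateField.finrank_top']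
  rw [h1]
  exact (Polynomial.natDegree_le_of_dvd (minpoly.dvd _ _ h0) hR).trans hdeg

theorem card_le_finrank_of_embeddings {L : Type*} [Field L] (x : F)
    (hfin : FiniteDimensional K⟮x⟯ F) {X : Type*} [Finite X] (σ : X → F →+* L)
    (hσ : Function.Injective σ)
    (hK : ∀ i j (a : K), σ i (algebraMap K F a) = σ j (algebraMap K F a))
    (hx : ∀ i j, σ i x = σ j x) : Nat.card X ≤ Module.finrank K⟮x⟯ F := by
  classical
  rcases isEmpty_or_nonempty X with hX | ⟨⟨i₀⟩⟩
  · simp
  -- all embeddings agree on `K⟮x⟯`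
  have hagree : ∀ i (y : K⟮x⟯), σ i (algebraMap K⟮x⟯ F y) = σ i₀ (algebraMap K⟮x⟯ F y) := by
    intro i
    let E : IntermediateField K F :=
      { (RingHom.eqLocusField (σ i) (σ i₀)) with
        algebraMap_mem' := fun a => hK i i₀ a }
    have hle : K⟮x⟯ ≤ E := by
      rw [adjoin_simple_le_iff]
      exact hx i i₀
    intro y
    exact hle y.2
  let _ : Algebra K⟮x⟯ L := ((σ i₀).comp (algebraMap K⟮x⟯ F)).toAlgebra
  let τ : X → (F →ₐ[K⟮x⟯] L) := fun i =>
    { σ i with commutes' := fun y => hagree i y }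
  have hτ : Function.Injective τ := by
    intro i j hij
    apply hσ
    ext y
    exact congrArg (fun f : F →ₐ[K⟮x⟯] L => f y) hij
  calc Nat.card X ≤ Nat.card (F →ₐ[K⟮x⟯] L) := Nat.card_le_card_of_injective τ hτ
    _ ≤ Module.finrank K⟮x⟯ F := card_algHom_le_finrank K⟮x⟯ F L

end DegGen

end Fermat.Agent.S24
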