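import Fermat.Agent.S24.DegreeUpper
import Fermat.Agent.S24.DegreeGen

set_option autoImplicit false

open UpperHalfPlane ModularForm EisensteinSeries WithZero ModularCurve AlgebraicCurve
open IntermediateField
open scoped MatrixGroups Manifold

noncomputable section

namespace Fermat.Agent.S24

/-- the conjugate embeddings, indexed by cosets -/
def sigma (N : ℕ) [NeZero N] (q : QN N) : FN N →+* Mer :=
  (merAct q.out).toRingHom.comp (iota N)

theorem sigma_mk (N : ℕ) [NeZero N] (g : SL(2, ℤ)) (θ : FN N) :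
    sigma N (g : QN N) θ = merAct g (iota N θ) := by
  obtain ⟨h, hh⟩ := QuotientGroup.mk_out_eq_mul (CongruenceSubgroup.Gamma0 N) g
  show merAct (g : QN N).out (iota N θ) = _
  rw [hh, merAct_mul, merAct_iota_of_mem N h.2]

theorem sigma_smul (N : ℕ) [NeZero N] (g : SL(2, ℤ)) (q : QN N) (θ : FN N) :
    sigma N (g • q) θ = merAct g (sigma N q θ) := by
  induction q using QuotientGroup.induction_on with
  | H g' =>
    have : g • (g' : QN N) = ((g * g' : SL(2, ℤ)) : QN N) := rfl
    rw [this, sigma_mk, sigma_mk, merAct_mul]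

theorem sigma_injective (N : ℕ) [NeZero N] : Function.Injective (sigma N) := by
  intro q q' h
  induction q using QuotientGroup.induction_on with
  | H g =>
    induction q' using QuotientGroup.induction_on with
    | H g' =>
      have h1 := congrArg (fun f => f (jF N N dvd_rfl)) h
      simp only [sigma_mk] at h1
      rw [QuotientGroup.eq]
      apply mem_Gamma0_of_merAct
      rw [merAct_mul, ← h1, ← merAct_mul, inv_mul_cancel, merAct_one]
      rfl

theorem isAlgebraic_FN (N : ℕ) [NeZero N] (θ : FN N) : IsAlgebraic Kb⟮jN N⟯ θ := by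
  obtain ⟨R, hR, -, h0⟩ := exists_poly_FN N θ
  exact ⟨R, hR, h0⟩

theorem finite_gens (N : ℕ) [NeZero N] :
    {x : FN N | ∃ (d : ℕ) (_ : NeZero d) (hd : d ∣ N), x = jF N d hd}.Finite := by
  classical
  have : {x : FN N | ∃ (d : ℕ) (_ : NeZero d) (hd : d ∣ N), x = jF N d hd} ⊆
      ((N.divisors.attach.image fun d : {d // d ∈ N.divisors} =>
        haveI : NeZero d.1 := ⟨(Nat.pos_of_mem_divisors d.2).ne'⟩
        jF N d.1 (Nat.dvd_of_mem_divisors d.2) : Finset (FN N)) : Set (FN N)) := by
    rintro x ⟨d, hd0, hd, rfl⟩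
    rw [Finset.mem_coe, Finset.mem_image]
    exact ⟨⟨d, Nat.mem_divisors.mpr ⟨hd, NeZero.ne N⟩⟩, Finset.mem_attach _ _, rfl⟩
  exact (Finset.finite_toSet _).subset this

theorem finiteDimensional_FN (N : ℕ) [NeZero N] : FiniteDimensional Kb⟮jN N⟯ (FN N) :=
  finiteDimensional_of_gens (jN N) _ (finite_gens N) (adjoin_jF N) (isAlgebraic_FN N)

theorem sigma_eq_const (N : ℕ) [NeZero N] (q : QN N) (a : Kb) :
    sigma N q (algebraMap Kb (FN N) a) = algebraMap ℂ Mer (kappa a) := by
  show merAct q.out (iota N (algebraMap Kb (FN N) a)) = _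
  rw [iota_algebraMap, merAct_const]

theorem sigma_jF_one (N : ℕ) [NeZero N] (q : QN N) :
    sigma N q (jN N) = iota N (jN N) := by
  show merAct q.out (iota N (jN N)) = _
  rw [iota_jN, merAct_algebraMap, holAct_jH]

theorem finrank_FN (N : ℕ) [NeZero N] :
    Module.finrank Kb⟮jN N⟯ (FN N) = Nat.card (QN N) := by
  apply le_antisymm
  · exact finrank_le_of_poly (jN N) _ (finiteDimensional_FN N) (exists_poly_FN N)
  · exact card_le_finrank_of_embeddings (jN N) (finiteDimensional_FN N) (sigma N)
      (sigma_injective N) (fun i j a => by rw [sigma_eq_const, sigma_eq_const])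
      (fun i j => by rw [sigma_jF_one, sigma_jF_one])

end Fermat.Agent.S24
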