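import Fermat.Agent.S24.DiffLocal

set_option autoImplicit false
set_option linter.unusedSectionVars false
set_option linter.style.haveILetI false

open AlgebraicCurve IntermediateField KaehlerDifferential Polynomial

namespace Fermat.Agent.S24.Diff

variable {K F : Type*} [Field K] [Field F] [Algebra K F]

section Ord2

variable (v : Place K F)

theorem ord_neg_iff (y : F) : v.ord y < 0 ↔ y ∉ v.toValuationSubring := by
  rw [mem_iff_ord_nonneg]; omega

theorem exists_eq_mul_of_ord_pos {ϖ : v.toValuationSubring} (hϖ : Irreducible ϖ) {y : F}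
    (h : 0 < v.ord y) : ∃ y' : v.toValuationSubring, y = (ϖ : F) * (y' : F) := by
  have hϖ0 : (ϖ : F) ≠ 0 := by
    simpa [ne_eq, ZeroMemClass.coe_eq_zero] using hϖ.ne_zero
  have hy0 : y ≠ 0 := by
    rintro rfl
    simp at h
  have h1 : 0 ≤ v.ord (y * (ϖ : F)⁻¹) := by
    rw [v.ord_mul hy0 (inv_ne_zero hϖ0), v.ord_inv, v.ord_coe_irreducible hϖ]
    omega
  exact ⟨⟨_, mem_of_ord_nonneg v h1⟩, by field_simp⟩

theorem ord_pos_of_eq_mul {ϖ : v.toValuationSubring} (hϖ : Irreducible ϖ) {y : F}
    (hy0 : y ≠ 0) (y' : v.toValuationSubring) (h : y = (ϖ : F) * (y' : F)) : 0 < v.ord y := by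
  have hϖ0 : (ϖ : F) ≠ 0 := by
    simpa [ne_eq, ZeroMemClass.coe_eq_zero] using hϖ.ne_zero
  have hy'0 : (y' : F) ≠ 0 := by
    rintro h0
    rw [h0, mul_zero] at h
    exact hy0 h
  rw [h, v.ord_mul hϖ0 hy'0, v.ord_coe_irreducible hϖ]
  have := ord_nonneg_of_mem v y'.2
  omega

theorem eq_of_ord_sub_pos (x : F) {c c' : K} (h : 0 < v.ord (x - algebraMap K F c))
    (h' : 0 < v.ord (x - algebraMap K F c')) : c = c' := by
  by_contra hne
  obtain ⟨ϖ, hϖ⟩ := IsDiscreteValuationRing.exists_irreducible v.toValuationSubring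
  obtain ⟨p, hp⟩ := exists_eq_mul_of_ord_pos v hϖ h
  obtain ⟨q, hq⟩ := exists_eq_mul_of_ord_pos v hϖ h'
  have h1 : algebraMap K F (c - c') = (ϖ : F) * ((q - p : v.toValuationSubring) : F) := by
    have h0 : ((q - p : v.toValuationSubring) : F) = (q : F) - (p : F) := rfl
    rw [h0, mul_sub, ← hp, ← hq, map_sub]
    ring
  have h2 : algebraMap K F (c - c') ≠ 0 := by
    rw [ne_eq, map_eq_zero]
    exact sub_ne_zero.mpr hne
  have h3 := ord_pos_of_eq_mul v hϖ h2 _ h1
  rw [ord_algebraMap] at h3
  exact lt_irrefl _ h3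

theorem not_ord_sub_pos_of_ord_neg (x : F) (c : K) (h : v.ord x < 0) :
    ¬ 0 < v.ord (x - algebraMap K F c) := by
  intro h'
  rw [ord_neg_iff] at h
  apply h
  have h1 : x - algebraMap K F c ∈ v.toValuationSubring := mem_of_ord_nonneg v h'.le
  have := add_mem h1 (v.algebraMap_mem' c)
  simpa using this

end Ord2

section Fields

theorem adjoin_sub_algebraMap (x : F) (c : K) : K⟮x - algebraMap K F c⟯ = K⟮x⟯ := by
  apply le_antisymm
  · rw [adjoin_simple_le_iff]
    exact sub_mem (mem_adjoin_simple_self K x) (IntermediateField.algebraMap_mem _ c)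
  · rw [adjoin_simple_le_iff]
    have := add_mem (mem_adjoin_simple_self K (x - algebraMap K F c))
      (IntermediateField.algebraMap_mem K⟮x - algebraMap K F c⟯ c)
    simpa using this

theorem adjoin_inv (x : F) : K⟮x⁻¹⟯ = K⟮x⟯ := by
  apply le_antisymm
  · rw [adjoin_simple_le_iff]
    exact inv_mem (mem_adjoin_simple_self K x)
  · rw [adjoin_simple_le_iff]
    have := inv_mem (mem_adjoin_simple_self K x⁻¹)
    simpa using this

theorem finrank_congr {L L' : IntermediateField K F} (h : L = L') :
    Module.finrank L F = Module.finrank L' F := by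
  subst h; rfl

theorem finiteDimensional_congr {L L' : IntermediateField K F} (h : L = L')
    (hL : FiniteDimensional L F) : FiniteDimensional L' F := by
  subst h; exact hL

theorem transcendental_sub_algebraMap {x : F} (hx : Transcendental K x) (c : K) :
    Transcendental K (x - algebraMap K F c) := by
  intro h
  apply hx
  have := h.add (isAlgebraic_algebraMap (A := F) c)
  simpa using this

theorem transcendental_inv {x : F} (hx : Transcendental K x) : Transcendental K x⁻¹ := by
  intro h
  apply hx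
  simpa using h.inv

end Fields

section Sums

variable [IsAlgClosed K] [CharZero K]

theorem finsum_mem_one_int {α : Type*} {s : Set α} (hs : s.Finite) :
    ∑ᶠ _v ∈ s, (1 : ℤ) = (Nat.card s : ℤ) := by
  rw [finsum_mem_eq_finite_toFinset_sum _ hs, Finset.sum_const, nsmul_eq_mul, mul_one,
    Nat.card_eq_card_finite_toFinset hs]

theorem hasFiniteSupport_indicator {α : Type*} {s : Set α} (hs : s.Finite) (h : α → ℤ) :
    Function.HasFiniteSupport (s.indicator h) :=
  hs.subset Set.support_indicator_subset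

theorem sum_sub_one (y : F) (hy : Transcendental K y) (hfin : FiniteDimensional K⟮y⟯ F) :
    ∑ᶠ v ∈ {v : Place K F | 0 < v.ord y}, (v.ord y - 1) =
      (Module.finrank K⟮y⟯ F : ℤ) - Nat.card {v : Place K F // 0 < v.ord y} := by
  have hZ := finite_zeroPlaces y hy hfin
  rw [finsum_mem_sub_distrib _ _ hZ, sum_ord_zeroPlaces y hy hfin, finsum_mem_one_int hZ]
  rfl

theorem sum_poles_sub_one (x : F) (hx : Transcendental K x) (hfin : FiniteDimensional K⟮x⟯ F) :
    {v : Place K F | v.ord x < 0}.Finite ∧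
    ∑ᶠ v ∈ {v : Place K F | v.ord x < 0}, (v.ord x - 1) =
      - (Module.finrank K⟮x⟯ F : ℤ) - Nat.card {v : Place K F // v.ord x < 0} := by
  have hx' := transcendental_inv hx
  have hfin' : FiniteDimensional K⟮x⁻¹⟯ F := finiteDimensional_congr (adjoin_inv x).symm hfin
  have hset : {v : Place K F | v.ord x < 0} = {v : Place K F | 0 < v.ord x⁻¹} := by
    ext v
    simp only [Set.mem_ofPred_eq, v.ord_inv]
    omega
  have hZ := finite_zeroPlaces x⁻¹ hx' hfin'
  refine ⟨hset ▸ hZ, ?_⟩
  have h1 : ∑ᶠ v ∈ {v : Place K F | v.ord x < 0}, (v.ord x - 1) =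
      ∑ᶠ v ∈ {v : Place K F | 0 < v.ord x⁻¹}, (- v.ord x⁻¹ - 1) :=
    finsum_mem_congr hset fun v _ => by rw [v.ord_inv, neg_neg]
  have h2 : Nat.card {v : Place K F // v.ord x < 0} =
      Nat.card {v : Place K F // 0 < v.ord x⁻¹} := by
    change Nat.card ({v : Place K F | v.ord x < 0} : Set _) = _
    rw [hset]
    rfl
  rw [h1, h2, finsum_mem_sub_distrib _ _ hZ, finsum_mem_neg_distrib _ hZ,
    sum_ord_zeroPlaces x⁻¹ hx' hfin', finsum_mem_one_int hZ, finrank_congr (adjoin_inv x)]
  rfl

theorem finsum_ord_eq_zero (x : F) (hfin : FiniteDimensional K⟮x⟯ F)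
    (f : F) (hf : f ≠ 0) :
    Function.HasFiniteSupport (fun v : Place K F => v.ord f) ∧
      ∑ᶠ v : Place K F, v.ord f = 0 := by
  by_cases hc : f ∈ Set.range (algebraMap K F)
  · obtain ⟨a, rfl⟩ := hc
    have h0 : (fun v : Place K F => v.ord (algebraMap K F a)) = fun _ => 0 := by
      funext v
      exact ord_algebraMap v a
    rw [h0]
    exact ⟨by simp [Function.HasFiniteSupport], by simp⟩
  · have htr := transcendental_of_notMem_range f hc
    have hfin1 := finiteDimensional_adjoin_of_transcendental x hfin f htr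
    have htr' := transcendental_inv htr
    have hfin2 : FiniteDimensional K⟮f⁻¹⟯ F := finiteDimensional_congr (adjoin_inv f).symm hfin1
    have hZ1 := finite_zeroPlaces f htr hfin1
    have hZ2 := finite_zeroPlaces f⁻¹ htr' hfin2
    have hpt : (fun v : Place K F => v.ord f) = fun v =>
        ({v : Place K F | 0 < v.ord f}.indicator (fun v => v.ord f) v) -
        ({v : Place K F | 0 < v.ord f⁻¹}.indicator (fun v => v.ord f⁻¹) v) := by
      funext v
      simp only [Set.indicator_apply, Set.mem_ofPred_eq, v.ord_inv]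
      split_ifs <;> omega
    have hs1 := hasFiniteSupport_indicator hZ1 (fun v : Place K F => v.ord f)
    have hs2 := hasFiniteSupport_indicator hZ2 (fun v : Place K F => v.ord f⁻¹)
    constructor
    · rw [hpt]
      exact hs1.fun_sub hs2
    · rw [hpt, finsum_sub_distrib hs1 hs2, ← finsum_mem_def, ← finsum_mem_def,
        sum_ord_zeroPlaces f htr hfin1, sum_ord_zeroPlaces f⁻¹ htr' hfin2,
        finrank_congr (adjoin_inv f), sub_self]

theorem exists_ord_sub_pos (x : F) (hx : Transcendental K x) (hfin : FiniteDimensional K⟮x⟯ F)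
    (v : Place K F) (h : ¬ v.ord x < 0) : ∃ c : K, 0 < v.ord (x - algebraMap K F c) := by
  rw [ord_neg_iff, not_not] at h
  obtain ⟨ϖ, hϖ⟩ := IsDiscreteValuationRing.exists_irreducible v.toValuationSubring
  obtain ⟨c, y₁, hy⟩ := exists_residue v (finite_residueField x hx hfin v) hϖ ⟨x, h⟩
  have h1 : x = algebraMap K F c + (ϖ : F) * (y₁ : F) := congrArg Subtype.val hy
  refine ⟨c, ord_pos_of_eq_mul v hϖ ?_ y₁ (by rw [h1]; ring)⟩
  intro h0
  exact (transcendental_sub_algebraMap hx c) (h0 ▸ isAlgebraic_zero)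

theorem deg_eq_one (v : Place K F) (hres : Module.Finite K v.ResidueField) : v.deg = 1 := by
  have hbij : Function.Bijective (algebraMap K v.ResidueField) :=
    IsAlgClosed.algebraMap_bijective_of_isIntegral
  exact (LinearEquiv.ofBijective (Algebra.linearMap K v.ResidueField) hbij).finrank_eq.symm.trans
    (Module.finrank_self K)

theorem ordDifferential_D_eq (x : F) (hx : Transcendental K x) (hfin : FiniteDimensional K⟮x⟯ F)
    (c₀ c₁ : K) (hc : c₀ ≠ c₁)
    (hgen : ∀ c : K, c ≠ c₀ → c ≠ c₁ → ∀ v : Place K F,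
      0 < v.ord (x - algebraMap K F c) → v.ord (x - algebraMap K F c) = 1)
    (v : Place K F) :
    v.ordDifferential (D K F x) =
      {v : Place K F | 0 < v.ord (x - algebraMap K F c₀)}.indicator
        (fun v => v.ord (x - algebraMap K F c₀) - 1) v +
      {v : Place K F | 0 < v.ord (x - algebraMap K F c₁)}.indicator
        (fun v => v.ord (x - algebraMap K F c₁) - 1) v +
      {v : Place K F | v.ord x < 0}.indicator (fun v => v.ord x - 1) v := by
  obtain ⟨-, -, hloc⟩ := local_package x hx hfin v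
  simp only [Set.indicator_apply, Set.mem_ofPred_eq]
  by_cases hpole : v.ord x < 0
  · rw [if_neg (not_ord_sub_pos_of_ord_neg v x c₀ hpole),
      if_neg (not_ord_sub_pos_of_ord_neg v x c₁ hpole), if_pos hpole, (hloc x hpole.ne).2]
    ring
  · obtain ⟨c, hcpos⟩ := exists_ord_sub_pos x hx hfin v hpole
    have hD : D K F (x - algebraMap K F c) = D K F x := by
      rw [map_sub, Derivation.map_algebraMap, sub_zero]
    have hval := (hloc _ hcpos.ne').2
    rw [hD] at hval
    rw [if_neg hpole, hval]
    by_cases h0 : c = c₀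
    · subst h0
      rw [if_pos hcpos, if_neg (fun h => hc (eq_of_ord_sub_pos v x hcpos h))]
      ring
    · by_cases h1 : c = c₁
      · subst h1
        rw [if_pos hcpos, if_neg (fun h => hc (eq_of_ord_sub_pos v x h hcpos))]
        ring
      · rw [if_neg (fun h => h0 (eq_of_ord_sub_pos v x hcpos h)),
          if_neg (fun h => h1 (eq_of_ord_sub_pos v x hcpos h)), hgen c h0 h1 v hcpos]
        ring

theorem finsum_ordDifferential_D (x : F) (hx : Transcendental K x)
    (hfin : FiniteDimensional K⟮x⟯ F) (c₀ c₁ : K) (hc : c₀ ≠ c₁)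
    (hgen : ∀ c : K, c ≠ c₀ → c ≠ c₁ → ∀ v : Place K F,
      0 < v.ord (x - algebraMap K F c) → v.ord (x - algebraMap K F c) = 1) :
    Function.HasFiniteSupport (fun v : Place K F => v.ordDifferential (D K F x)) ∧
    ∑ᶠ v : Place K F, v.ordDifferential (D K F x) =
      (Module.finrank K⟮x⟯ F : ℤ)
        - Nat.card {v : Place K F // 0 < v.ord (x - algebraMap K F c₀)}
        - Nat.card {v : Place K F // 0 < v.ord (x - algebraMap K F c₁)}
        - Nat.card {v : Place K F // v.ord x < 0} := by
  have hpt := funext (ordDifferential_D_eq x hx hfin c₀ c₁ hc hgen)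
  have ht0 := transcendental_sub_algebraMap hx c₀
  have ht1 := transcendental_sub_algebraMap hx c₁
  have hf0 : FiniteDimensional K⟮x - algebraMap K F c₀⟯ F :=
    finiteDimensional_congr (adjoin_sub_algebraMap x c₀).symm hfin
  have hf1 : FiniteDimensional K⟮x - algebraMap K F c₁⟯ F :=
    finiteDimensional_congr (adjoin_sub_algebraMap x c₁).symm hfin
  obtain ⟨hZi, hsumi⟩ := sum_poles_sub_one x hx hfin
  have hs0 := hasFiniteSupport_indicator (finite_zeroPlaces _ ht0 hf0)
    (fun v : Place K F => v.ord (x - algebraMap K F c₀) - 1)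
  have hs1 := hasFiniteSupport_indicator (finite_zeroPlaces _ ht1 hf1)
    (fun v : Place K F => v.ord (x - algebraMap K F c₁) - 1)
  have hsi := hasFiniteSupport_indicator hZi (fun v : Place K F => v.ord x - 1)
  rw [hpt]
  refine ⟨(hs0.fun_add hs1).fun_add hsi, ?_⟩
  rw [finsum_add_distrib (hs0.fun_add hs1) hsi, finsum_add_distrib hs0 hs1,
    ← finsum_mem_def, ← finsum_mem_def, ← finsum_mem_def, hsumi,
    sum_sub_one _ ht0 hf0, sum_sub_one _ ht1 hf1,
    finrank_congr (adjoin_sub_algebraMap x c₀), finrank_congr (adjoin_sub_algebraMap x c₁)]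
  ring

theorem degree_eq_finsum (x : F) (hx : Transcendental K x) (hfin : FiniteDimensional K⟮x⟯ F)
    (D : Divisor K F) : Divisor.degree D = ∑ᶠ v : Place K F, D v := by
  rw [finsum_eq_sum_of_support_subset (s := D.support) _ (by simp)]
  simp only [Divisor.degree, Finsupp.liftAddHom_apply, Finsupp.sum, AddMonoidHom.coe_mulRight]
  refine Finset.sum_congr rfl fun v _ => ?_
  rw [deg_eq_one v (finite_residueField x hx hfin v)]
  simp

end Sums

end Fermat.Agent.S24.Diff
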