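import Mathlib

set_option autoImplicit false
set_option linter.unusedSectionVars false
set_option linter.style.haveILetI false
set_option linter.unusedSimpArgs false

open IntermediateField KaehlerDifferential Polynomial TensorProduct

namespace Fermat.Agent.S24.Diff

section Kaehler


variable {K F : Type*} [Field K] [Field F] [Algebra K F] [CharZero K]

/-- For `t` transcendental with `F` algebraic over `K(t)` (char. 0), `Ω[F/K]` is free of rank one
on `dt`. -/
theorem exists_kaehler_equiv (t : F) (ht : Transcendental K t)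
    (halg : Algebra.IsAlgebraic K⟮t⟯ F) :
    ∃ e : Ω[F⁄K] ≃ₗ[F] F, e (D K F t) = 1 := by
  letI a1 : Algebra K[X] F := (aeval t).toAlgebra
  letI a2 : Algebra K[X] K⟮t⟯ := (aeval (AdjoinSimple.gen K t)).toAlgebra
  haveI t1 : IsScalarTower K K[X] F := IsScalarTower.of_algebraMap_eq fun a => by
    change algebraMap K F a = aeval t (C a)
    simp
  haveI t2 : IsScalarTower K[X] K⟮t⟯ F := IsScalarTower.of_algebraMap_eq fun p => by
    change aeval t p = ((aeval (AdjoinSimple.gen K t) p : K⟮t⟯) : F)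
    rw [← IntermediateField.coe_val, ← aeval_algHom_apply]
    simp
  have hinj : Function.Injective (algebraMap K[X] K⟮t⟯) := by
    intro p q hpq
    have h1 : aeval t p = aeval t q := by
      have := congrArg (algebraMap K⟮t⟯ F) hpq
      rwa [← IsScalarTower.algebraMap_apply, ← IsScalarTower.algebraMap_apply] at this
    exact (transcendental_iff_injective.mp ht) h1
  haveI f1 : FaithfulSMul K[X] K⟮t⟯ := (faithfulSMul_iff_algebraMap_injective _ _).mpr hinj
  haveI fr : IsFractionRing K[X] K⟮t⟯ := IsFractionRing.of_field _ _ fun z => by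
    obtain ⟨r, s, h⟩ := (mem_adjoin_simple_iff K _).1 z.2
    refine ⟨r, s, Subtype.ext ?_⟩
    rw [h]
    have h2 : ∀ p : K[X], ((algebraMap K[X] K⟮t⟯ p : K⟮t⟯) : F) = aeval t p := fun p =>
      (IsScalarTower.algebraMap_apply K[X] K⟮t⟯ F p).symm
    simp [h2]
  haveI e1 : Algebra.FormallyEtale K[X] K⟮t⟯ := .of_isLocalization (nonZeroDivisors K[X])
  haveI : CharZero K⟮t⟯ := charZero_of_injective_algebraMap (algebraMap K K⟮t⟯).injective
  haveI e2 : Algebra.FormallyEtale K⟮t⟯ F := Algebra.FormallyEtale.of_isSeparable _ _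
  haveI e3 : Algebra.FormallyEtale K[X] F := .comp _ K⟮t⟯ _
  let E1 := tensorKaehlerEquivOfFormallyEtale K K[X] F
  let E2 : F ⊗[K[X]] Ω[K[X]⁄K] ≃ₗ[F] F ⊗[K[X]] K[X] :=
    TensorProduct.AlgebraTensorModule.congr (LinearEquiv.refl F F) (polynomialEquiv K)
  let E3 : F ⊗[K[X]] K[X] ≃ₗ[F] F := TensorProduct.AlgebraTensorModule.rid K[X] F F
  refine ⟨E1.symm.trans (E2.trans E3), ?_⟩
  have hX : D K F t = D K F (algebraMap K[X] F X) := by
    congr 1
    change t = aeval t X
    simp
  rw [hX]
  simp only [LinearEquiv.trans_apply, E1, tensorKaehlerEquivOfFormallyEtale_symm_D_algebraMap]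
  simp [E2, E3, polynomialEquiv_D]


end Kaehler

section Transc


variable {K F : Type*} [Field K] [Field F] [Algebra K F]

theorem transcendental_of_notMem_range [IsAlgClosed K] (f : F)
    (hf : f ∉ Set.range (algebraMap K F)) : Transcendental K f := by
  intro halg
  have h1 : Algebra.IsAlgebraic K K⟮f⟯ := IntermediateField.isAlgebraic_adjoin_simple halg.isIntegral
  have h2 : K⟮f⟯ = ⊥ := IntermediateField.eq_bot_of_isAlgClosed_of_isAlgebraic _
  have h3 : f ∈ (⊥ : IntermediateField K F) := h2 ▸ mem_adjoin_simple_self K f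
  exact hf (IntermediateField.mem_bot.mp h3)

open scoped IntermediateField.algebraAdjoinAdjoin in
theorem finiteDimensional_adjoin_of_transcendental (x : F)
    (hfin : FiniteDimensional K⟮x⟯ F) (f : F) (hf : Transcendental K f) :
    FiniteDimensional K⟮f⟯ F := by
  have h1 : Algebra.IsAlgebraic (Algebra.adjoin K {x}) F :=
    Algebra.IsAlgebraic.trans (Algebra.adjoin K {x}) K⟮x⟯ F
  have h2 : Algebra.trdeg K F ≤ 1 := by
    simpa using Algebra.IsAlgebraic.trdeg_le_cardinalMk K ({x} : Set F)
  have h3 : AlgebraicIndependent K (fun _ : Unit => f) := by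
    rwa [algebraicIndependent_unique_type_iff]
  have h4 : IsTranscendenceBasis K (fun _ : Unit => f) :=
    h3.isTranscendenceBasis_of_lift_trdeg_le_of_finite (by simpa using h2)
  have h5 : Algebra.IsAlgebraic K⟮f⟯ F := by
    have := h4.isAlgebraic_field
    rwa [Set.range_const] at this
  have h6 : Algebra.EssFiniteType K K⟮x⟯ :=
    IntermediateField.essFiniteType_iff.mpr (fg_adjoin_of_finite (Set.finite_singleton x))
  have h7 : Algebra.EssFiniteType K F := Algebra.EssFiniteType.comp K K⟮x⟯ F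
  have h8 : Algebra.EssFiniteType K⟮f⟯ F := Algebra.EssFiniteType.of_comp K K⟮f⟯ F
  exact Algebra.finite_of_essFiniteType_of_isAlgebraic


end Transc


section AbstractD

variable {K O M : Type*} [Field K] [CommRing O] [Algebra K O] [AddCommGroup M] [Module O M]
  [Module K M] [IsScalarTower K O M]

/-- evaluation of a bivariate polynomial at `(t, y)`. -/
noncomputable def ev (t y : O) : K[X][X] →+* O :=
  eval₂RingHom (aeval t : K[X] →ₐ[K] O).toRingHom y

theorem ev_C (t y : O) (c : K[X]) : ev t y (C c) = aeval t c := by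
  simp [ev]

theorem ev_X (t y : O) : ev (K := K) t y X = y := by
  simp [ev]

theorem d_ev (d : Derivation K O M) (t : O) (hdt : d t = 0) (z : O) (P : K[X][X]) :
    d (ev t z P) = ev t z (derivative P) • d z := by
  induction P using Polynomial.induction_on' with
  | add p q hp hq => simp [map_add, add_smul, hp, hq]
  | monomial n c =>
    rw [← C_mul_X_pow_eq_monomial, derivative_C_mul_X_pow]
    simp only [map_mul, map_pow, ev_C, ev_X, Derivation.leibniz, Derivation.leibniz_pow,
      Derivation.map_aeval, hdt, smul_zero, add_zero]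
    rw [map_natCast, mul_smul, mul_smul, Nat.cast_smul_eq_nsmul]

theorem ev_comp (t y : O) (P R : K[X][X]) : ev t y (P.comp R) = ev t (ev t y R) P := by
  simp [ev, eval₂_comp]

theorem step (t : O) (ht : t ∈ nonZeroDivisors O)
    (hK : ∀ a : K, t ∣ algebraMap K O a → a = 0)
    (y y₁ : O) (a : K) (hy : y = algebraMap K O a + t * y₁) (P : K[X][X]) (hP : ev t y P = 0) :
    ∃ P₁ : K[X][X], ev t y₁ P₁ = 0 ∧ ev t y₁ (derivative P₁) = ev t y (derivative P) := by
  set R : K[X][X] := C (C a) + C X * X with hR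
  have hRy : ev t y₁ R = y := by
    simp [hR, ev_C, ev_X, hy]
  set Q : K[X][X] := P.comp R with hQ
  have hQy : ev t y₁ Q = 0 := by rw [hQ, ev_comp, hRy, hP]
  -- the constant `p₀`
  set ε : K[X] →+* K := constantCoeff with hε
  set p₀ : K := (P.map ε).eval a with hp₀
  have hQε : Q.map ε = C p₀ := by
    rw [hQ, Polynomial.map_comp, hR]
    simp [hε, hp₀]
  have hp₀0 : p₀ = 0 := by
    apply hK
    let I : Ideal O := Ideal.span {t}
    let ψ₁ : K[X][X] →+* O ⧸ I := (Ideal.Quotient.mk I).comp (ev t y)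
    let ψ₂ : K[X][X] →+* O ⧸ I :=
      ((Ideal.Quotient.mk I).comp (algebraMap K O)).comp ((evalRingHom a).comp (mapRingHom ε))
    have hψ : ψ₁ = ψ₂ := by
      apply Polynomial.ringHom_ext
      · intro c
        have : (ψ₁.comp C) = (ψ₂.comp C) := by
          apply Polynomial.ringHom_ext
          · intro k
            simp [ψ₁, ψ₂, ev_C, hε]
          · simp only [ψ₁, ψ₂, RingHom.comp_apply, ev_C, aeval_X, coe_mapRingHom, map_C, hε,
              constantCoeff_apply, coeff_X_zero, coe_evalRingHom, eval_C, map_zero]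
            exact Ideal.Quotient.eq_zero_iff_mem.mpr (Ideal.mem_span_singleton_self t)
        exact congrArg (fun f => f c) this
      · simp only [ψ₁, ψ₂, RingHom.comp_apply, ev_X, coe_mapRingHom, map_X, coe_evalRingHom, eval_X]
        rw [hy, map_add, add_eq_left]
        exact Ideal.Quotient.eq_zero_iff_mem.mpr
          (Ideal.mul_mem_right _ _ (Ideal.mem_span_singleton_self t))
    have h1 : ψ₂ P = 0 := by
      rw [← hψ]; simp [ψ₁, hP]
    have h2 : Ideal.Quotient.mk I (algebraMap K O p₀) = 0 := h1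
    exact Ideal.mem_span_singleton.mp (Ideal.Quotient.eq_zero_iff_mem.mp h2)
  have hdvd : C (X : K[X]) ∣ Q := by
    rw [Polynomial.C_dvd_iff_dvd_coeff]
    intro i
    rw [X_dvd_iff]
    have : (Q.map ε).coeff i = 0 := by rw [hQε, hp₀0]; simp
    rwa [coeff_map] at this
  obtain ⟨P₁, hP₁⟩ := hdvd
  refine ⟨P₁, ?_, ?_⟩
  · have : t * ev t y₁ P₁ = 0 := by
      rw [← hQy, hP₁, map_mul, ev_C, aeval_X]
    exact (mul_left_mem_nonZeroDivisors_eq_zero_iff ht).mp this
  · have h1 : derivative Q = C X * (derivative P).comp R := by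
      rw [hQ, derivative_comp, hR]
      simp
    have h2 : derivative Q = C X * derivative P₁ := by
      rw [hP₁, derivative_C_mul]
    have h3 : t * ev t y₁ (derivative P₁) = t * ev t y (derivative P) := by
      have := congrArg (ev t y₁) (h2.symm.trans h1)
      rwa [map_mul, map_mul, ev_C, aeval_X, ev_comp, hRy] at this
    exact (mul_cancel_left_mem_nonZeroDivisors ht).mp h3

theorem iter (t : O) (ht : t ∈ nonZeroDivisors O)
    (hK : ∀ a : K, t ∣ algebraMap K O a → a = 0)
    (hres : ∀ y : O, ∃ a : K, ∃ y₁ : O, y = algebraMap K O a + t * y₁)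
    (d : Derivation K O M) (hdt : d t = 0) (j : ℕ) :
    ∀ (y : O) (P : K[X][X]), ev t y P = 0 → ∃ (z : O) (P' : K[X][X]), ev t z P' = 0 ∧
      ev t z (derivative P') = ev t y (derivative P) ∧ d y = t ^ j • d z := by
  induction j with
  | zero => intro y P hP; exact ⟨y, P, hP, rfl, by simp⟩
  | succ j ih =>
    intro y P hP
    obtain ⟨a, y₁, hy⟩ := hres y
    obtain ⟨P₁, h1, h2⟩ := step t ht hK y y₁ a hy P hP
    obtain ⟨z, P', h3, h4, h5⟩ := ih y₁ P₁ h1
    refine ⟨z, P', h3, h4.trans h2, ?_⟩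
    rw [hy, map_add, Derivation.map_algebraMap, zero_add, Derivation.leibniz, hdt, smul_zero,
      add_zero, h5, smul_smul, pow_succ']

theorem d_eq_zero (t : O) (ht : t ∈ nonZeroDivisors O)
    (hK : ∀ a : K, t ∣ algebraMap K O a → a = 0)
    (hres : ∀ y : O, ∃ a : K, ∃ y₁ : O, y = algebraMap K O a + t * y₁)
    (d : Derivation K O M) (hdt : d t = 0) (y : O) (P : K[X][X]) (hP : ev t y P = 0)
    (m : ℕ) (g' : O) (hg : g' * ev t y (derivative P) = t ^ m) : d y = 0 := by
  obtain ⟨z, P', h3, h4, h5⟩ := iter t ht hK hres d hdt m y P hP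
  have h6 := d_ev d t hdt z P'
  rw [h3, map_zero, h4] at h6
  rw [h5, ← hg, mul_smul, ← h6, smul_zero]

theorem map_ev {O' : Type*} [CommRing O'] [Algebra K O'] (g : O →ₐ[K] O') (t y : O)
    (P : K[X][X]) : g (ev t y P) = ev (g t) (g y) P := by
  have : (g : O →+* O').comp (ev (K := K) t y) = ev (g t) (g y) := by
    apply Polynomial.ringHom_ext
    · intro c
      simp [ev_C, aeval_algHom_apply]
    · simp [ev_X]
  exact congrArg (fun f => f P) this

theorem exists_ev_derivative_ne_zero [IsDomain O] [CharZero K] (t y : O)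
    (ht : Transcendental K t) (h : ∃ P : K[X][X], P ≠ 0 ∧ ev t y P = 0) :
    ∃ P : K[X][X], ev t y P = 0 ∧ ev t y (derivative P) ≠ 0 := by
  classical
  have h' : ∃ n : ℕ, ∃ P : K[X][X], P ≠ 0 ∧ ev t y P = 0 ∧ P.natDegree = n := by
    obtain ⟨P, h1, h2⟩ := h
    exact ⟨_, P, h1, h2, rfl⟩
  obtain ⟨P, h1, h2, h3⟩ := Nat.find_spec h'
  refine ⟨P, h2, fun h4 => ?_⟩
  have hmin := @Nat.find_min _ _ h'
  by_cases hd : P.natDegree = 0
  · rw [natDegree_eq_zero] at hd
    obtain ⟨c, rfl⟩ := hd
    rw [ev_C] at h2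
    have : c = 0 := (transcendental_iff.mp ht) c h2
    exact h1 (by rw [this, C_0])
  · have h5 : (derivative P).natDegree < P.natDegree := natDegree_derivative_lt hd
    have h6 : derivative P ≠ 0 := by
      intro h0
      exact hd (Polynomial.derivative_eq_zero.mp h0)
    exact hmin (h3 ▸ h5) ⟨derivative P, h6, h4, rfl⟩

end AbstractD


section Rel


variable {K F : Type*} [Field K] [Field F] [Algebra K F]

open scoped IntermediateField.algebraAdjoinAdjoin in
theorem exists_ev_eq_zero (t : F) (halg : Algebra.IsAlgebraic K⟮t⟯ F) (y : F) :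
    ∃ P : K[X][X], P ≠ 0 ∧ ev t y P = 0 := by
  have h1 : Algebra.IsAlgebraic (Algebra.adjoin K {t}) F :=
    Algebra.IsAlgebraic.trans (Algebra.adjoin K {t}) K⟮t⟯ F
  obtain ⟨p, hp0, hp⟩ := h1.isAlgebraic y
  let π : K[X] →ₐ[K] Algebra.adjoin K {t} := aeval ⟨t, Algebra.self_mem_adjoin_singleton K t⟩
  have hπ : Function.Surjective π := by
    rintro ⟨z, hz⟩
    rw [Algebra.adjoin_singleton_eq_range_aeval] at hz
    obtain ⟨q, rfl⟩ := hz
    refine ⟨q, Subtype.ext ?_⟩
    exact (aeval_algHom_apply (Algebra.adjoin K {t}).val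
      ⟨t, Algebra.self_mem_adjoin_singleton K t⟩ q).symm
  obtain ⟨P, rfl⟩ := Polynomial.map_surjective (π : K[X] →+* Algebra.adjoin K {t}) hπ p
  refine ⟨P, fun h => hp0 (by rw [h, Polynomial.map_zero]), ?_⟩
  rw [aeval_def, eval₂_map] at hp
  rw [← hp, ev, coe_eval₂RingHom]
  congr 1
  apply Polynomial.ringHom_ext
  · intro a
    simp [π]
  · simp [π]


end Rel

end Fermat.Agent.S24.Diff
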