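import Fermat.Agent.S24.Places

set_option autoImplicit false
set_option linter.unusedSectionVars false

open AlgebraicCurve IntermediateField WithZero IsDedekindDomain

namespace Fermat.Agent.S24

theorem norm_eq_prod_of_card {E F L : Type*} [Field E] [Field F] [Field L] [Algebra E F]
    [FiniteDimensional E F] [Algebra.IsSeparable E F]
    {X : Type*} [Fintype X] (σ : X → F →+* L) (hσ : Function.Injective σ)
    (hcard : Fintype.card X = Module.finrank E F)
    (hE : ∀ i j (a : E), σ i (algebraMap E F a) = σ j (algebraMap E F a)) (i : X) (x : F) :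
    σ i (algebraMap E F (Algebra.norm E x)) = ∏ j, σ j x := by
  let Lbar := AlgebraicClosure L
  let _ : Algebra E Lbar := ((algebraMap L Lbar).comp ((σ i).comp (algebraMap E F))).toAlgebra
  let τ : X → (F →ₐ[E] Lbar) := fun j =>
    { toRingHom := (algebraMap L Lbar).comp (σ j)
      commutes' := fun a => by
        show algebraMap L Lbar (σ j (algebraMap E F a)) = algebraMap L Lbar (σ i (algebraMap E F a))
        rw [hE j i] }
  have hτ : Function.Injective τ := by
    intro j k hjk
    apply hσ
    ext z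
    have := DFunLike.congr_fun hjk z
    exact (algebraMap L Lbar).injective this
  have hbij : Function.Bijective τ := by
    rw [Fintype.bijective_iff_injective_and_card]
    exact ⟨hτ, by rw [hcard, AlgHom.card]⟩
  apply (algebraMap L Lbar).injective
  have h := Algebra.norm_eq_prod_embeddings E Lbar x
  rw [map_prod]
  calc algebraMap L Lbar (σ i (algebraMap E F (Algebra.norm E x)))
      = algebraMap E Lbar (Algebra.norm E x) := rfl
    _ = ∏ σ' : F →ₐ[E] Lbar, σ' x := h
    _ = ∏ j, τ j x := (Fintype.prod_bijective τ hbij _ _ (fun _ => rfl)).symm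
    _ = _ := rfl

theorem injective_of_sum_le {Ω Z : Type*} [Fintype Ω] [Fintype Z] (p : Ω → Z)
    (hp : Function.Surjective p) (h : Ω → ℕ) (e : Z → ℕ) (hpos : ∀ ω, 0 < h ω)
    (hle : ∀ ω, e (p ω) ≤ h ω) (hsum : ∑ ω, h ω ≤ ∑ z, e z) : Function.Injective p := by
  classical
  obtain ⟨s, hs⟩ := hp.hasRightInverse
  have hsinj : Function.Injective s := hs.injective
  by_contra hinj
  have hns : ¬ Function.Surjective s := fun hsurj => hinj (by
    intro a b hab
    obtain ⟨a', rfl⟩ := hsurj a
    obtain ⟨b', rfl⟩ := hsurj b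
    rw [hs a', hs b'] at hab
    rw [hab])
  obtain ⟨ω0, hω0⟩ := not_forall.mp hns
  have h1 : ∑ z, e z ≤ ∑ z, h (s z) :=
    Finset.sum_le_sum (fun z _ => by simpa [hs z] using hle (s z))
  have h2 : ∑ z, h (s z) = ∑ ω ∈ Finset.univ.image s, h ω :=
    (Finset.sum_image (fun _ _ _ _ h => hsinj h)).symm
  have h3 : ∑ ω ∈ Finset.univ.image s, h ω < ∑ ω, h ω :=
    Finset.sum_lt_sum_of_subset (Finset.subset_univ _) (Finset.mem_univ ω0)
      (by simpa using hω0) (hpos ω0) (fun _ _ _ => Nat.zero_le _)
  omega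

section ValPlace

variable {K F : Type*} [Field K] [Field F] [Algebra K F]

theorem val_unit_eq_one (v : Place K F) (u : Valuation F ℤᵐ⁰)
    (hv : v.toValuationSubring = u.valuationSubring) (a : (v.toValuationSubring)ˣ) :
    u ((a : v.toValuationSubring) : F) = 1 := by
  have hmem : ∀ x : F, x ∈ v.toValuationSubring ↔ u x ≤ 1 := fun x => by
    rw [hv]; exact Valuation.mem_valuationSubring_iff _ _
  have h1 : u ((a : v.toValuationSubring) : F) ≤ 1 := (hmem _).mp (a : v.toValuationSubring).2
  have h2 : u (((a⁻¹ : (v.toValuationSubring)ˣ) : v.toValuationSubring) : F) ≤ 1 :=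
    (hmem _).mp ((a⁻¹ : (v.toValuationSubring)ˣ) : v.toValuationSubring).2
  have h3 : ((a : v.toValuationSubring) : F) *
      (((a⁻¹ : (v.toValuationSubring)ˣ) : v.toValuationSubring) : F) = 1 :=
    congrArg Subtype.val a.mul_inv
  have h4 := congrArg u h3
  rw [map_mul, map_one] at h4
  exact eq_one_of_one_le_mul_left h1 h2 h4.ge

theorem val_irreducible_lt_one (v : Place K F) (u : Valuation F ℤᵐ⁰)
    (hv : v.toValuationSubring = u.valuationSubring)
    {ϖ : v.toValuationSubring} (hϖ : Irreducible ϖ) : u (ϖ : F) < 1 := by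
  have hmem : ∀ x : F, x ∈ v.toValuationSubring ↔ u x ≤ 1 := fun x => by
    rw [hv]; exact Valuation.mem_valuationSubring_iff _ _
  have hϖ0 : (ϖ : F) ≠ 0 := by
    simpa [ne_eq, ZeroMemClass.coe_eq_zero] using hϖ.ne_zero
  refine lt_of_le_of_ne ((hmem _).mp ϖ.2) fun h1 => hϖ.not_isUnit ?_
  have hinv : (ϖ : F)⁻¹ ∈ v.toValuationSubring := by
    rw [hmem, map_inv₀, h1, inv_one]
  refine IsUnit.of_mul_eq_one ⟨(ϖ : F)⁻¹, hinv⟩ (Subtype.ext ?_)
  exact mul_inv_cancel₀ hϖ0

theorem log_val_irreducible_neg (v : Place K F) (u : Valuation F ℤᵐ⁰)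
    (hv : v.toValuationSubring = u.valuationSubring)
    {ϖ : v.toValuationSubring} (hϖ : Irreducible ϖ) : log (u (ϖ : F)) < 0 := by
  have hϖ0 : (ϖ : F) ≠ 0 := by
    simpa [ne_eq, ZeroMemClass.coe_eq_zero] using hϖ.ne_zero
  have h0 : u (ϖ : F) ≠ 0 := (Valuation.ne_zero_iff _).mpr hϖ0
  rw [← WithZero.log_one, WithZero.log_lt_log h0 one_ne_zero]
  exact val_irreducible_lt_one v u hv hϖ

theorem log_val_eq (v : Place K F) (u : Valuation F ℤᵐ⁰)
    (hv : v.toValuationSubring = u.valuationSubring)
    {ϖ : v.toValuationSubring} (hϖ : Irreducible ϖ) {f : F} (hf : f ≠ 0) :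
    log (u f) = v.ord f * log (u (ϖ : F)) := by
  obtain ⟨a, ha⟩ := v.exists_unit_mul_zpow hf hϖ
  have h5 := congrArg u ha
  rw [map_mul, map_zpow₀, val_unit_eq_one v u hv a, one_mul] at h5
  rw [h5, WithZero.log_zpow, smul_eq_mul]

end ValPlace


section NormArg

variable {F : Type*} [Field F]
variable {A : Type*} [CommRing A] [IsDedekindDomain A] [Algebra A F]
variable (E : Type*) [Field E] [Algebra A E] [IsFractionRing A E] [Algebra E F]
  [IsScalarTower A E F] [FiniteDimensional E F] [Algebra.IsSeparable E F]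
variable (S : Type*) [CommRing S] [IsDedekindDomain S] [Algebra A S] [Algebra S F]
  [IsFractionRing S F] [IsScalarTower A S F] [Module.Finite A S] [IsIntegralClosure S A F]

theorem exists_embedding_aux (y : A) (hy0 : y ≠ 0) [hmax : (Ideal.span {y}).IsMaximal]
    {L : Type*} [Field L] (w : Valuation L ℤᵐ⁰) {X : Type*} [Finite X] (σ : X → F →+* L)
    (hσ : Function.Injective σ)
    (hcard : Nat.card X = Module.finrank E F)
    (hE : ∀ i j (a : E), σ i (algebraMap E F a) = σ j (algebraMap E F a))
    (hwA : ∀ i (a : A), w (σ i (algebraMap A F a)) ≤ 1)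
    (hwy : ∀ i, w (σ i (algebraMap A F y)) < 1)
    (P : HeightOneSpectrum S) (hP : algebraMap A S y ∈ P.asIdeal) :
    ∃ i, (P.valuation F).valuationSubring = (w.comap (σ i)).valuationSubring := by
  classical
  have := Fintype.ofFinite X
  have hcard' : Fintype.card X = Module.finrank E F := by rw [← hcard, Nat.card_eq_fintype_card]
  have hinjAF : Function.Injective (algebraMap A F) := by
    rw [IsScalarTower.algebraMap_eq A E F]
    exact (algebraMap E F).injective.comp (IsFractionRing.injective A E)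
  have : FaithfulSMul A F := (faithfulSMul_iff_algebraMap_injective A F).mpr hinjAF
  have := isTorsionFree_of_tower (F := F) (A := A) S
  have hyF : algebraMap A F y ≠ 0 := fun h => hy0 (hinjAF (h.trans (map_zero _).symm))
  obtain ⟨i0⟩ : Nonempty X := by
    rw [← Fintype.card_pos_iff, hcard']
    exact Module.finrank_pos
  have hne : ∀ i, (w.comap (σ i)).valuationSubring ≠ ⊤ := by
    intro i htop
    have h1 : (algebraMap A F y)⁻¹ ∈ (w.comap (σ i)).valuationSubring := by
      rw [htop]; exact ValuationSubring.mem_top _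
    rw [Valuation.mem_valuationSubring_iff, Valuation.comap_apply, map_inv₀, map_inv₀] at h1
    have h2 : w (σ i (algebraMap A F y)) ≠ 0 := by
      rw [Valuation.ne_zero_iff]
      exact (map_ne_zero (σ i)).mpr hyF
    have h3 : 1 ≤ w (σ i (algebraMap A F y)) := (inv_le_one₀ (zero_lt_iff.mpr h2)).mp h1
    exact absurd (hwy i) (not_lt.mpr h3)
  have hS : ∀ i, ∀ s : S, algebraMap S F s ∈ (w.comap (σ i)).valuationSubring := by
    intro i s
    refine mem_valuationSubring_of_isIntegral (A := A) _ (fun a => ?_)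
      (Algebra.IsIntegral.isIntegral (R := A) s).algebraMap
    rw [Valuation.mem_valuationSubring_iff, Valuation.comap_apply]
    exact hwA i a
  choose Q hQ using fun i =>
    exists_heightOneSpectrum_of_valuationSubring (R := S) _ (hne i) (hS i)
  by_contra hcon
  push Not at hcon
  have hPQ : ∀ i, ¬ P.asIdeal ≤ (Q i).asIdeal := by
    intro i hle
    have h1 : P.asIdeal = (Q i).asIdeal := P.isMaximal.eq_of_le (Q i).isPrime.ne_top hle
    have h2 : P = Q i := HeightOneSpectrum.ext h1
    exact hcon i (by rw [hQ i, h2])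
  have hav : ¬ ((P.asIdeal : Set S) ⊆
      ⋃ i ∈ (↑(Finset.univ : Finset X) : Set X), ((Q i).asIdeal : Set S)) := by
    rw [Ideal.subset_union_prime i0 i0 (fun i _ _ _ => (Q i).isPrime)]
    push Not
    exact fun i _ => hPQ i
  obtain ⟨f, hfP, hfQ⟩ := Set.not_subset.mp hav
  have hfQ' : ∀ i, f ∉ (Q i).asIdeal := by
    intro i hi
    apply hfQ
    simp only [Finset.coe_univ, Set.mem_univ, Set.iUnion_true, Set.mem_iUnion]
    exact ⟨i, hi⟩
  have hdvd : f ∣ algebraMap A S (Algebra.intNorm A S f) :=
    Algebra.dvd_algebraMap_intNorm_self A S f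
  have hNP : algebraMap A S (Algebra.intNorm A S f) ∈ P.asIdeal :=
    Ideal.mem_of_dvd _ hdvd hfP
  have hlo := liesOver_span_of_mem S y P hP
  have hN : Algebra.intNorm A S f ∈ Ideal.span {y} :=
    (Ideal.mem_of_liesOver P.asIdeal (Ideal.span {y}) _).mpr hNP
  obtain ⟨a, ha⟩ := Ideal.mem_span_singleton'.mp hN
  have h1 : w (σ i0 (algebraMap A F (Algebra.intNorm A S f))) < 1 := by
    rw [← ha, map_mul, map_mul, map_mul]
    exact lt_of_le_of_lt (mul_le_of_le_one_left' (hwA i0 a)) (hwy i0)
  have h2 : algebraMap A F (Algebra.intNorm A S f) =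
      algebraMap E F (Algebra.norm E (algebraMap S F f)) := by
    rw [IsScalarTower.algebraMap_apply A E F, Algebra.algebraMap_intNorm (L := F)]
  have h3 : σ i0 (algebraMap A F (Algebra.intNorm A S f)) = ∏ j, σ j (algebraMap S F f) := by
    rw [h2]
    exact norm_eq_prod_of_card σ hσ hcard' hE i0 _
  have h4 : ∀ j, w (σ j (algebraMap S F f)) = 1 := by
    intro j
    have hf0 : algebraMap S F f ≠ 0 := by
      intro h0
      apply hfQ' j
      have : f = 0 := (IsFractionRing.injective S F) (h0.trans (map_zero _).symm)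
      rw [this]; exact zero_mem _
    have hv1 : (Q j).valuation F (algebraMap S F f) = 1 := by
      refine le_antisymm ((Q j).valuation_le_one f) (not_lt.mp fun hlt => hfQ' j ?_)
      exact ((Q j).valuation_lt_one_iff_mem (K := F) f).mp hlt
    have hb : (algebraMap S F f)⁻¹ ∈ (w.comap (σ j)).valuationSubring := by
      rw [hQ j, Valuation.mem_valuationSubring_iff, map_inv₀, hv1, inv_one]
    have ha' := hS j f
    rw [Valuation.mem_valuationSubring_iff, Valuation.comap_apply] at ha' hb
    have h5 : w (σ j (algebraMap S F f)) * w (σ j (algebraMap S F f)⁻¹) = 1 := by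
      rw [← map_mul, ← map_mul, mul_inv_cancel₀ hf0, map_one, map_one]
    exact eq_one_of_one_le_mul_left ha' hb h5.ge
  rw [h3, map_prod, Finset.prod_eq_one (fun j _ => h4 j)] at h1
  exact lt_irrefl _ h1

end NormArg


section Concrete

variable {K F : Type*} [Field K] [Field F] [Algebra K F] [CharZero K]

open scoped IntermediateField.algebraAdjoinAdjoin

omit [CharZero K] in
theorem eq_on_adjoin {L : Type*} [Field L] (y : F) (φ ψ : F →+* L)
    (hK : ∀ a : K, φ (algebraMap K F a) = ψ (algebraMap K F a)) (hy : φ y = ψ y) (a : K⟮y⟯) :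
    φ (algebraMap K⟮y⟯ F a) = ψ (algebraMap K⟮y⟯ F a) := by
  let T : IntermediateField K F := (RingHom.eqLocusField φ ψ).toIntermediateField hK
  have h : K⟮y⟯ ≤ T := by
    rw [adjoin_simple_le_iff]; exact hy
  exact h a.2

theorem exists_place_of_valuationSubring (y : F) (hy : Transcendental K y)
    (hfin : FiniteDimensional K⟮y⟯ F) (O : ValuationSubring F) (hO : O ≠ ⊤)
    (hK : ∀ a : K, algebraMap K F a ∈ O) (hyO : y ∈ O) :
    ∃ v : Place K F, v.toValuationSubring = O := by
  have := isPrincipalIdealRing_adjoin y hy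
  have : CharZero K⟮y⟯ := charZero_of_injective_algebraMap (algebraMap K K⟮y⟯).injective
  have := integralClosure.isDedekindDomain (Algebra.adjoin K {y}) K⟮y⟯ F
  have := integralClosure.isFractionRing_of_finite_extension (A := Algebra.adjoin K {y}) K⟮y⟯ F
  have : Module.Finite (Algebra.adjoin K {y}) (integralClosure (Algebra.adjoin K {y}) F) :=
    IsIntegralClosure.finite (Algebra.adjoin K {y}) K⟮y⟯ F _
  obtain ⟨P, hP⟩ := exists_heightOneSpectrum_of_valuationSubring
    (R := integralClosure (Algebra.adjoin K {y}) F) O hO (fun s =>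
      mem_valuationSubring_of_isIntegral (A := Algebra.adjoin K {y}) O
        (adjoin_le_valuationSubring y O hK hyO)
        (Algebra.IsIntegral.isIntegral (R := Algebra.adjoin K {y}) s).algebraMap)
  exact ⟨Place.ofHeightOneSpectrum (K := K) (F := F) P, hP.symm⟩

theorem exists_embedding (y : F) (hy : Transcendental K y) (hfin : FiniteDimensional K⟮y⟯ F)
    {L : Type*} [Field L] (w : Valuation L ℤᵐ⁰)
    {X : Type*} [Finite X] (σ : X → F →+* L) (hσ : Function.Injective σ)
    (hcard : Nat.card X = Module.finrank K⟮y⟯ F)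
    (hK : ∀ i j (a : K), σ i (algebraMap K F a) = σ j (algebraMap K F a))
    (hy' : ∀ i j, σ i y = σ j y)
    (hwK : ∀ i (a : K), w (σ i (algebraMap K F a)) ≤ 1)
    (hwy : ∀ i, w (σ i y) < 1) (v : Place K F) (hv : 0 < v.ord y) :
    ∃ i, v.toValuationSubring = (w.comap (σ i)).valuationSubring := by
  have := isPrincipalIdealRing_adjoin y hy
  have := isMaximal_span_genAdjoin y hy
  have : CharZero K⟮y⟯ := charZero_of_injective_algebraMap (algebraMap K K⟮y⟯).injective
  have := integralClosure.isDedekindDomain (Algebra.adjoin K {y}) K⟮y⟯ F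
  have := integralClosure.isFractionRing_of_finite_extension (A := Algebra.adjoin K {y}) K⟮y⟯ F
  have : Module.Finite (Algebra.adjoin K {y}) (integralClosure (Algebra.adjoin K {y}) F) :=
    IsIntegralClosure.finite (Algebra.adjoin K {y}) K⟮y⟯ F _
  obtain ⟨P, rfl⟩ := exists_heightOneSpectrum_of_le' (A := Algebra.adjoin K {y})
    (integralClosure (Algebra.adjoin K {y}) F) v
    (adjoin_le_valuationSubring y _ v.algebraMap_mem' (mem_of_ord_nonneg v hv.le))
  have hy1 : algebraMap (Algebra.adjoin K {y}) (integralClosure (Algebra.adjoin K {y}) F)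
      (genAdjoin K y) ≠ 0 := by
    intro h
    have h2 : y = 0 := congrArg (algebraMap (integralClosure (Algebra.adjoin K {y}) F) F) h
    rw [h2] at hy
    exact hy isAlgebraic_zero
  have hP : algebraMap (Algebra.adjoin K {y}) (integralClosure (Algebra.adjoin K {y}) F)
      (genAdjoin K y) ∈ P.asIdeal := (ord_algebraMap_pos_iff (K := K) (F := F) P hy1).mp hv
  exact exists_embedding_aux (F := F) K⟮y⟯ (integralClosure (Algebra.adjoin K {y}) F)
    (genAdjoin K y) (genAdjoin_ne_zero y hy) w σ hσ hcard
    (fun i j a => eq_on_adjoin y (σ i) (σ j) (hK i j) (hy' i j) a)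
    (fun i a => adjoin_le_valuationSubring y (w.comap (σ i)).valuationSubring (hwK i)
      (hwy i).le a)
    hwy P hP

end Concrete


theorem comap_valuationSubring_ne_top {F L : Type*} [Field F] [Field L] (w : Valuation L ℤᵐ⁰)
    (φ : F →+* L) {y : F} (hy0 : y ≠ 0) (h : w (φ y) < 1) :
    (w.comap φ).valuationSubring ≠ ⊤ := by
  intro htop
  have h1 : y⁻¹ ∈ (w.comap φ).valuationSubring := by
    rw [htop]; exact ValuationSubring.mem_top _
  rw [Valuation.mem_valuationSubring_iff, Valuation.comap_apply, map_inv₀, map_inv₀] at h1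
  have h2 : w (φ y) ≠ 0 := by
    rw [Valuation.ne_zero_iff]
    exact (map_ne_zero φ).mpr hy0
  have h3 : 1 ≤ w (φ y) := (inv_le_one₀ (zero_lt_iff.mpr h2)).mp h1
  exact absurd h (not_lt.mpr h3)

variable {K F : Type*} [Field K] [Field F] [Algebra K F] [IsAlgClosed K] [CharZero K]

theorem ord_eq_one_of_embeddings
    (y : F) (hy : Transcendental K y) (hfin : FiniteDimensional K⟮y⟯ F)
    {L : Type*} [Field L] (w : Valuation L ℤᵐ⁰)
    {X : Type*} [Finite X] (σ : X → F →+* L) (hσ : Function.Injective σ)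
    (hcard : Nat.card X = Module.finrank K⟮y⟯ F)
    (hK : ∀ i j (a : K), σ i (algebraMap K F a) = σ j (algebraMap K F a))
    (hy' : ∀ i j, σ i y = σ j y)
    (hwK : ∀ i (a : K), w (σ i (algebraMap K F a)) ≤ 1)
    (hwy : ∀ i, w (σ i y) = exp (-1 : ℤ)) :
    ∀ v : Place K F, 0 < v.ord y → v.ord y = 1 := by
  intro v hv
  have hwy' : ∀ i, w (σ i y) < 1 := fun i => by
    rw [hwy i, ← WithZero.exp_zero, WithZero.exp_lt_exp]; norm_num
  have hy0 : y ≠ 0 := by
    rintro rfl
    exact hy isAlgebraic_zero
  obtain ⟨i, hi⟩ := exists_embedding y hy hfin w σ hσ hcard hK hy' hwK hwy' v hv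
  obtain ⟨ϖ, hϖ⟩ := IsDiscreteValuationRing.exists_irreducible v.toValuationSubring
  have h := log_val_eq v (w.comap (σ i)) hi hϖ hy0
  rw [Valuation.comap_apply, hwy i, log_exp] at h
  have hdvd : v.ord y ∣ 1 := ⟨-log ((w.comap (σ i)) (ϖ : F)), by linarith⟩
  exact Int.eq_one_of_dvd_one hv.le hdvd


theorem card_zeroPlaces_eq_card_orbits
    (y : F) (hy : Transcendental K y) (hfin : FiniteDimensional K⟮y⟯ F)
    {L : Type*} [Field L] (w : Valuation L ℤᵐ⁰)
    {X : Type*} [Finite X] (σ : X → F →+* L) (hσ : Function.Injective σ)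
    (hcard : Nat.card X = Module.finrank K⟮y⟯ F)
    (hK : ∀ i j (a : K), σ i (algebraMap K F a) = σ j (algebraMap K F a))
    (hy' : ∀ i j, σ i y = σ j y)
    (hwK : ∀ i (a : K), w (σ i (algebraMap K F a)) ≤ 1)
    (E : ℕ) (hE : 0 < E) (hwy : ∀ i, w (σ i y) = exp (-(E : ℤ)))
    {G : Type*} [Group G] [MulAction G X] (g : G)
    (hg : ∀ i f, w (σ (g • i) f) = w (σ i f))
    (hdiv : ∀ i f, f ≠ 0 →
      (E : ℤ) ∣ (Function.minimalPeriod (g • ·) i : ℤ) * log (w (σ i f))) :
    Nat.card {v : Place K F // 0 < v.ord y} =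
      Nat.card (MulAction.orbitRel.Quotient (Subgroup.zpowers g) X) := by
  classical
  have hEZ : (0 : ℤ) < (E : ℤ) := by exact_mod_cast hE
  have hwy' : ∀ i, w (σ i y) < 1 := fun i => by
    rw [hwy i, ← WithZero.exp_zero, WithZero.exp_lt_exp]; omega
  have hy0 : y ≠ 0 := by
    rintro rfl
    exact hy isAlgebraic_zero
  have hex : ∀ i, ∃ v : Place K F, v.toValuationSubring = (w.comap (σ i)).valuationSubring :=
    fun i => exists_place_of_valuationSubring y hy hfin _
      (comap_valuationSubring_ne_top w (σ i) hy0 (hwy' i)) (hwK i) (hwy' i).le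
  choose π hπ using hex
  have := Fintype.ofFinite X
  have hperiod : ∀ i : X, Function.minimalPeriod (g • ·) i =
      Nat.card (MulAction.orbit (Subgroup.zpowers g) i) := fun i => by
    have := Fintype.ofFinite (MulAction.orbit (Subgroup.zpowers g) i)
    rw [MulAction.minimalPeriod_eq_card, Nat.card_eq_fintype_card]
  have hkey : ∀ i, 0 < (π i).ord y ∧
      (π i).ord y ≤ (Function.minimalPeriod (g • ·) i : ℤ) := by
    intro i
    obtain ⟨ϖ, hϖ⟩ := IsDiscreteValuationRing.exists_irreducible (π i).toValuationSubring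
    have hϖ0 : (ϖ : F) ≠ 0 := by
      simpa [ne_eq, ZeroMemClass.coe_eq_zero] using hϖ.ne_zero
    have h := log_val_eq (π i) (w.comap (σ i)) (hπ i) hϖ hy0
    have hc := log_val_irreducible_neg (π i) (w.comap (σ i)) (hπ i) hϖ
    rw [Valuation.comap_apply, hwy i, log_exp] at h
    rw [Valuation.comap_apply] at h hc
    set c := log (w (σ i (ϖ : F))) with hcdef
    have hpos : 0 < (π i).ord y := by
      by_contra hle
      have h1 : (π i).ord y ≤ 0 := not_lt.mp hle
      have h2 : 0 ≤ (π i).ord y * c := mul_nonneg_of_nonpos_of_nonpos h1 hc.le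
      omega
    refine ⟨hpos, ?_⟩
    have hd := hdiv i (ϖ : F) hϖ0
    rw [← hcdef] at hd
    have hd2 : (π i).ord y * c ∣ (Function.minimalPeriod (g • ·) i : ℤ) * c := by
      rw [← h]; exact (neg_dvd).mpr hd
    have hd3 : (π i).ord y ∣ (Function.minimalPeriod (g • ·) i : ℤ) :=
      (mul_dvd_mul_iff_right hc.ne).mp hd2
    refine Int.le_of_dvd ?_ hd3
    rw [hperiod i]
    have : Nonempty (MulAction.orbit (Subgroup.zpowers g) i) :=
      (MulAction.nonempty_orbit i).to_subtype
    exact_mod_cast Nat.card_pos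
  -- invariance under the cyclic group
  let H : Subgroup G :=
    { carrier := {h | ∀ i f, w (σ (h • i) f) = w (σ i f)}
      mul_mem' := fun {a b} ha hb i f => by rw [mul_smul, ha, hb]
      one_mem' := fun i f => by rw [one_smul]
      inv_mem' := fun {a} ha i f => by
        have := ha (a⁻¹ • i) f
        rw [smul_inv_smul] at this
        exact this.symm }
  have hH : Subgroup.zpowers g ≤ H := by
    rw [Subgroup.zpowers_le]; exact hg
  have hπinv : ∀ i j, MulAction.orbitRel (Subgroup.zpowers g) X i j → π i = π j := by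
    rintro i j ⟨k, rfl⟩
    apply Place.ext
    rw [hπ, hπ]
    ext f
    rw [Valuation.mem_valuationSubring_iff, Valuation.mem_valuationSubring_iff,
      Valuation.comap_apply, Valuation.comap_apply]
    have : w (σ ((k : G) • j) f) = w (σ j f) := hH k.2 j f
    rw [← this]
    rfl
  have : Finite {v : Place K F // 0 < v.ord y} := (finite_zeroPlaces y hy hfin).to_subtype
  have := Fintype.ofFinite {v : Place K F // 0 < v.ord y}
  have := Fintype.ofFinite (MulAction.orbitRel.Quotient (Subgroup.zpowers g) X)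
  let p : MulAction.orbitRel.Quotient (Subgroup.zpowers g) X → {v : Place K F // 0 < v.ord y} :=
    Quotient.lift (fun i => (⟨π i, (hkey i).1⟩ : {v : Place K F // 0 < v.ord y}))
      (fun i j hij => Subtype.ext (hπinv i j hij))
  have hsurj : Function.Surjective p := by
    rintro ⟨v, hv⟩
    obtain ⟨i, hi⟩ := exists_embedding y hy hfin w σ hσ hcard hK hy' hwK hwy' v hv
    refine ⟨Quotient.mk'' i, Subtype.ext ?_⟩
    apply Place.ext
    exact (hπ i).trans hi.symm
  have hinj : Function.Injective p := by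
    refine injective_of_sum_le p hsurj (fun ω => Nat.card ω.orbit) (fun z => (z.1.ord y).toNat)
      ?_ ?_ ?_
    · intro ω
      induction ω using Quotient.inductionOn' with
      | h i =>
        rw [MulAction.orbitRel.Quotient.orbit_mk]
        have : Nonempty (MulAction.orbit (Subgroup.zpowers g) i) :=
          (MulAction.nonempty_orbit i).to_subtype
        exact Nat.card_pos
    · intro ω
      induction ω using Quotient.inductionOn' with
      | h i =>
        rw [MulAction.orbitRel.Quotient.orbit_mk, ← hperiod i]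
        have := (hkey i).2
        show ((π i).ord y).toNat ≤ _
        omega
    · have h1 : ∑ ω : MulAction.orbitRel.Quotient (Subgroup.zpowers g) X, Nat.card ω.orbit =
          Nat.card X := by
        rw [Nat.card_congr (MulAction.selfEquivSigmaOrbits' (Subgroup.zpowers g) X),
          Nat.card_sigma]
      have h2 : ((∑ z : {v : Place K F // 0 < v.ord y}, (z.1.ord y).toNat : ℕ) : ℤ) =
          (Module.finrank K⟮y⟯ F : ℤ) := by
        rw [← sum_ord_zeroPlaces y hy hfin, Nat.cast_sum, ← finsum_eq_sum_of_fintype]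
        rw [← finsum_set_coe_eq_finsum_mem (f := fun v : Place K F => v.ord y)
          {v : Place K F | 0 < v.ord y}]
        refine finsum_congr fun z => ?_
        exact Int.toNat_of_nonneg z.2.le
      rw [h1, hcard]
      exact le_of_eq (by exact_mod_cast h2.symm)
  exact (Nat.card_eq_of_bijective p ⟨hinj, hsurj⟩).symm

end Fermat.Agent.S24
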