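import Fermat.Agent.S24.ModDefs

set_option autoImplicit false

open UpperHalfPlane ModularForm EisensteinSeries WithZero ModularCurve AlgebraicCurve
open scoped MatrixGroups Manifold Topology

noncomputable section

namespace Fermat.Agent.S24

/-- holomorphic, one-periodic and bounded at infinity -/
structure IsQ (f : ℍ → ℂ) : Prop where
  holo : MDiff f
  per : Function.Periodic (f ∘ ofComplex) 1
  bdd : IsBoundedAtImInfty f

namespace IsQ

variable {f g : ℍ → ℂ}

theorem analytic (hf : IsQ f) : AnalyticAt ℂ (cuspFunction 1 f) 0 :=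
  analyticAt_cuspFunction_zero one_pos hf.per hf.holo hf.bdd

theorem add (hf : IsQ f) (hg : IsQ g) : IsQ (f + g) :=
  ⟨hf.holo.add hg.holo, hf.per.add hg.per, hf.bdd.add hg.bdd⟩

theorem mul (hf : IsQ f) (hg : IsQ g) : IsQ (f * g) :=
  ⟨hf.holo.mul hg.holo, hf.per.mul hg.per, hf.bdd.mul hg.bdd⟩

theorem neg (hf : IsQ f) : IsQ (-f) :=
  ⟨hf.holo.neg, fun x => by simpa using congrArg Neg.neg (hf.per x), hf.bdd.neg⟩

theorem const (c : ℂ) : IsQ (fun _ => c) :=
  ⟨mdifferentiable_const, fun _ => rfl, Filter.const_boundedAtFilter _ c⟩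

theorem zero : IsQ 0 := const 0

theorem one : IsQ 1 := const 1

theorem eq_zero_of_qExpansion (hf : IsQ f) (h : qExpansion 1 f = 0) : f = 0 :=
  (qExpansion_eq_zero_iff one_pos hf.per hf.holo hf.bdd).mp h

end IsQ

theorem qExpansion_const (c : ℂ) : qExpansion 1 (fun _ : ℍ => c) = PowerSeries.C c := by
  have h : (fun _ : ℍ => c) = c • (1 : ℍ → ℂ) := by
    ext; simp
  rw [h, qExpansion_smul IsQ.one.analytic, qExpansion_one]
  ext n
  simp [PowerSeries.coeff_C, PowerSeries.coeff_one]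

theorem isQ_of_modularForm {k : ℤ} (f : ModularForm 𝒮ℒ k) : IsQ f :=
  ⟨f.holo', SlashInvariantFormClass.periodic_comp_ofComplex f
      one_mem_strictPeriods_SL,
    ModularFormClass.bdd_at_infty f⟩

local notation "𝕢" => Function.Periodic.qParam

@[simp] theorem coe_scaleH (d : ℕ) [NeZero d] (τ : ℍ) : ((scaleH d τ : ℍ) : ℂ) = (d : ℂ) * τ := rfl

theorem im_scaleH (d : ℕ) [NeZero d] (τ : ℍ) : (scaleH d τ).im = d * τ.im := by
  change ((d : ℂ) * (τ : ℂ)).im = _
  simp

theorem tendsto_scaleH (d : ℕ) [NeZero d] : Filter.Tendsto (scaleH d) atImInfty atImInfty := by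
  rw [atImInfty, Filter.tendsto_comap_iff]
  have hd : (0 : ℝ) < d := by exact_mod_cast Nat.pos_of_ne_zero (NeZero.ne d)
  have : (im ∘ scaleH d) = fun τ : ℍ => (d : ℝ) * τ.im := by
    ext τ; exact im_scaleH d τ
  rw [this]
  exact Filter.Tendsto.const_mul_atTop hd Filter.tendsto_comap

theorem IsQ.scale {f : ℍ → ℂ} (hf : IsQ f) (d : ℕ) [NeZero d] : IsQ (f ∘ scaleH d) := by
  refine ⟨hf.holo.comp (mdiff_scaleH d), ?_, hf.bdd.comp_tendsto (tendsto_scaleH d)⟩
  intro z
  by_cases hz : 0 < z.im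
  · have hz1 : 0 < (z + 1).im := by simpa using hz
    simp only [Function.comp_apply, ofComplex_apply_of_im_pos hz, ofComplex_apply_of_im_pos hz1]
    have hper := (hf.per.nat_mul d) ((d : ℂ) * z)
    have hdz : 0 < ((d : ℂ) * z).im := by
      have hd : (0 : ℝ) < d := by exact_mod_cast Nat.pos_of_ne_zero (NeZero.ne d)
      simpa using mul_pos hd hz
    have hdz1 : 0 < ((d : ℂ) * z + (d : ℂ) * 1).im := by
      simpa using hdz
    simp only [Function.comp_apply, ofComplex_apply_of_im_pos hdz,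
      ofComplex_apply_of_im_pos hdz1] at hper
    convert hper using 2
    · ext; simp [mul_add]
    · rfl
  · have hz1 : ¬ 0 < (z + 1).im := by simpa using hz
    simp only [Function.comp_apply, ofComplex_apply_of_im_nonpos (not_lt.mp hz),
      ofComplex_apply_of_im_nonpos (not_lt.mp hz1)]

theorem qParam_scaleH (d : ℕ) [NeZero d] (τ : ℍ) :
    𝕢 (1 : ℝ) ((scaleH d τ : ℍ) : ℂ) = (𝕢 (1 : ℝ) (τ : ℂ)) ^ d := by
  rw [Function.Periodic.qParam, Function.Periodic.qParam, coe_scaleH, ← Complex.exp_nat_mul]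
  congr 1
  ring

theorem hasSum_scale {f : ℍ → ℂ} (hf : IsQ f) (d : ℕ) [NeZero d] (τ : ℍ) :
    HasSum (fun m : ℕ ↦ (if d ∣ m then (qExpansion 1 f).coeff (m / d) else 0) •
      𝕢 (1 : ℝ) (τ : ℂ) ^ m) (f (scaleH d τ)) := by
  have hd : 0 < d := Nat.pos_of_ne_zero (NeZero.ne d)
  have h1 := hasSum_qExpansion one_pos hf.per hf.holo hf.bdd (scaleH d τ)
  have hinj : Function.Injective (fun n : ℕ => d * n) := fun a b h =>
    Nat.eq_of_mul_eq_mul_left hd h
  rw [← hinj.hasSum_iff]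
  · have e : ((fun m : ℕ ↦ (if d ∣ m then (qExpansion 1 f).coeff (m / d) else 0) •
        𝕢 (1 : ℝ) (τ : ℂ) ^ m) ∘ fun n : ℕ => d * n) =
        fun m : ℕ ↦ (qExpansion 1 f).coeff m • 𝕢 (1 : ℝ) ((scaleH d τ : ℍ) : ℂ) ^ m := by
      funext n
      simp only [Function.comp_apply, dvd_mul_right, if_true,
        Nat.mul_div_cancel_left _ hd, qParam_scaleH, pow_mul]
    rw [e]
    exact h1
  · intro x hx
    have : ¬ d ∣ x := fun ⟨k, hk⟩ => hx ⟨k, hk.symm⟩
    simp only [this, if_false, zero_smul]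

theorem qExpansion_coeff_unique' {f : ℍ → ℂ} {c : ℕ → ℂ}
    (hfanalytic : AnalyticAt ℂ (cuspFunction 1 f) 0)
    (hf : ∀ τ : ℍ, HasSum (fun m ↦ c m • 𝕢 (1 : ℝ) (τ : ℂ) ^ m) (f τ)) (m : ℕ) :
    c m = (qExpansion 1 f).coeff m := by
  let _ : FunLike (ℍ → ℂ) ℍ ℂ := ⟨fun f => f, fun _ _ h => h⟩
  exact qExpansion_coeff_unique (F := ℍ → ℂ) f one_pos hfanalytic hf m

theorem qExpansion_scale_coeff {f : ℍ → ℂ} (hf : IsQ f) (d : ℕ) [NeZero d] (m : ℕ) :
    (qExpansion 1 (f ∘ scaleH d)).coeff m =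
      if d ∣ m then (qExpansion 1 f).coeff (m / d) else 0 :=
  (qExpansion_coeff_unique' (hf.scale d).analytic (hasSum_scale hf d) m).symm

theorem qExpansion_E₄ : qExpansion 1 E₄ = eisenstein4.map (Int.castRingHom ℂ) := by
  ext m
  rw [E_qExpansion_coeff _ ⟨2, rfl⟩, PowerSeries.coeff_map, eisenstein4, PowerSeries.coeff_mk]
  by_cases hm : m = 0
  · simp [hm]
  · simp only [hm, if_false]
    rw [show bernoulli 4 = -1 / 30 by decide +kernel, ArithmeticFunction.sigma_apply]
    simp only [eq_intCast]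
    push_cast
    ring

theorem tendsto_iteratedDeriv_aux {ι : Type*} {φ : Filter ι} [φ.NeBot] {F : ι → ℂ → ℂ}
    {f : ℂ → ℂ} {U : Set ℂ} (hU : IsOpen U) (hf : TendstoLocallyUniformlyOn F f φ U)
    (hF : ∀ᶠ n in φ, DifferentiableOn ℂ (F n) U) (k : ℕ) :
    TendstoLocallyUniformlyOn (fun n => iteratedDeriv k (F n)) (iteratedDeriv k f) φ U ∧
      ∀ᶠ n in φ, DifferentiableOn ℂ (iteratedDeriv k (F n)) U := by
  induction k with
  | zero => simpa [iteratedDeriv_zero] using ⟨hf, hF⟩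
  | succ k ih =>
    refine ⟨?_, ?_⟩
    · have := ih.1.deriv ih.2 hU
      simpa [iteratedDeriv_succ, Function.comp_def] using this
    · filter_upwards [ih.2] with n hn
      rw [iteratedDeriv_succ]
      exact hn.deriv hU

theorem iteratedDeriv_aeval (p : Polynomial ℤ) (k : ℕ) :
    iteratedDeriv k (fun q : ℂ => Polynomial.aeval q p) 0 = (k.factorial : ℂ) * (p.coeff k : ℂ) := by
  have h : ∀ (k : ℕ) (p : Polynomial ℤ), iteratedDeriv k (fun q : ℂ => Polynomial.aeval q p) =
      fun q : ℂ => Polynomial.aeval q (Polynomial.derivative^[k] p) := by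
    intro k
    induction k with
    | zero => intro p; simp
    | succ k ih =>
      intro p
      rw [iteratedDeriv_succ, ih]
      funext q
      rw [Function.iterate_succ_apply']
      exact Polynomial.deriv_aeval _
  rw [h]
  simp only [Polynomial.aeval_def, Polynomial.eval₂_at_zero]
  rw [Polynomial.coeff_iterate_derivative]
  simp [Nat.descFactorial_self]


/-- the analytic eta product -/
def etaG (q : ℂ) : ℂ := ∏' n : ℕ, (1 - q ^ (n + 1))

/-- partial products as integer polynomials -/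
def etaPoly (s : Finset ℕ) : Polynomial ℤ := ∏ n ∈ s, (1 - Polynomial.X ^ (n + 1))

theorem aeval_etaPoly (s : Finset ℕ) (q : ℂ) :
    Polynomial.aeval q (etaPoly s) = ∏ n ∈ s, (1 - q ^ (n + 1)) := by
  simp [etaPoly, map_prod]

theorem coe_etaPoly (s : Finset ℕ) :
    ((etaPoly s : Polynomial ℤ) : PowerSeries ℤ) = ∏ n ∈ s, (1 - PowerSeries.X ^ (n + 1)) := by
  have := map_prod (Polynomial.coeToPowerSeries.ringHom (R := ℤ))
    (fun n : ℕ => (1 - Polynomial.X ^ (n + 1) : Polynomial ℤ)) s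
  rw [Polynomial.coeToPowerSeries.ringHom_apply] at this
  rw [etaPoly, this]
  refine Finset.prod_congr rfl (fun n _ => ?_)
  rw [Polynomial.coeToPowerSeries.ringHom_apply]
  simp

open scoped PowerSeries.WithPiTopology in
theorem tendsto_coeff_etaPoly (k : ℕ) :
    Filter.Tendsto (fun s : Finset ℕ => (((etaPoly s).coeff k : ℤ) : ℂ)) Filter.atTop
      (𝓝 ((etaProd.coeff k : ℤ) : ℂ)) := by
  have h1 : HasProd (fun n : ℕ => (1 - PowerSeries.X ^ (n + 1) : PowerSeries ℤ)) etaProd :=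
    (PowerSeries.WithPiTopology.multipliable_one_sub_X_pow ℤ).hasProd
  have h2 := ((PowerSeries.WithPiTopology.continuous_coeff ℤ k).tendsto etaProd).comp h1
  have h3 : Continuous (fun n : ℤ => (n : ℂ)) := continuous_of_discreteTopology
  have h4 := (h3.tendsto _).comp h2
  refine h4.congr (fun s => ?_)
  simp only [Function.comp_apply]
  rw [← coe_etaPoly, Polynomial.coeff_coe]

theorem iteratedDeriv_etaG (k : ℕ) :
    iteratedDeriv k etaG 0 = (k.factorial : ℂ) * ((etaProd.coeff k : ℤ) : ℂ) := by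
  have h1 := multipliableLocallyUniformlyOn_one_sub_pow.hasProdLocallyUniformlyOn
  rw [hasProdLocallyUniformlyOn_iff_tendstoLocallyUniformlyOn] at h1
  have h2 := (tendsto_iteratedDeriv_aux Metric.isOpen_ball h1 (.of_forall fun s => by
    simpa [Finset.prod_fn] using
      DifferentiableOn.finsetProd (fun _ _ ↦ by fun_prop)) k).1
  have h3 := h2.tendsto_at (a := (0 : ℂ)) (by simp)
  have h4 : ∀ s : Finset ℕ, iteratedDeriv k (fun q : ℂ => ∏ n ∈ s, (1 - q ^ (n + 1))) 0 =
      (k.factorial : ℂ) * (((etaPoly s).coeff k : ℤ) : ℂ) := by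
    intro s
    rw [← iteratedDeriv_aeval]
    congr 1
    funext q
    rw [aeval_etaPoly]
  have h5 := (tendsto_coeff_etaPoly k).const_mul (k.factorial : ℂ)
  refine tendsto_nhds_unique ?_ h5
  refine Filter.Tendsto.congr (fun s => ?_) h3
  rw [← h4]


/-- Taylor series at `0` -/
def taylorPS (Φ : ℂ → ℂ) : PowerSeries ℂ :=
  .mk fun m ↦ (↑m.factorial)⁻¹ * iteratedDeriv m Φ 0

theorem taylorPS_coeff (Φ : ℂ → ℂ) (m : ℕ) :
    (taylorPS Φ).coeff m = (↑m.factorial)⁻¹ * iteratedDeriv m Φ 0 := by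
  simp [taylorPS]

theorem taylorPS_mul {Φ Ψ : ℂ → ℂ} (hf : AnalyticAt ℂ Φ 0) (hg : AnalyticAt ℂ Ψ 0) :
    taylorPS (Φ * Ψ) = taylorPS Φ * taylorPS Ψ := by
  ext
  simp only [taylorPS_coeff,
    iteratedDeriv_mul hf.contDiffAt hg.contDiffAt, Finset.mul_sum, PowerSeries.coeff_mul,
    Finset.Nat.sum_antidiagonal_eq_sum_range_succ_mk, Nat.succ_eq_add_one]
  refine Finset.sum_congr rfl fun i hi ↦ ?_
  rw [Nat.cast_choose _ (by grind)]
  field_simp [Nat.factorial_ne_zero]

theorem taylorPS_aeval (p : Polynomial ℤ) :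
    taylorPS (fun q : ℂ => Polynomial.aeval q p) =
      (p : PowerSeries ℤ).map (Int.castRingHom ℂ) := by
  ext m
  rw [taylorPS_coeff, iteratedDeriv_aeval, PowerSeries.coeff_map, Polynomial.coeff_coe]
  have : (m.factorial : ℂ) ≠ 0 := by exact_mod_cast Nat.factorial_ne_zero m
  field_simp
  simp

theorem taylorPS_pow {Φ : ℂ → ℂ} (hf : AnalyticAt ℂ Φ 0) (n : ℕ) :
    taylorPS (Φ ^ n) = taylorPS Φ ^ n := by
  induction n with
  | zero =>
    have := taylorPS_aeval 1
    have e : (Φ ^ 0) = fun q : ℂ => Polynomial.aeval q (1 : Polynomial ℤ) := by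
      funext q; simp
    rw [e, this]; simp
  | succ n ih =>
    rw [pow_succ, pow_succ, taylorPS_mul (hf.pow n) hf, ih]

theorem analyticAt_etaG : AnalyticAt ℂ etaG 0 :=
  differentiableOn_tprod_one_sub_pow.analyticAt (Metric.ball_mem_nhds 0 one_pos)

theorem taylorPS_etaG : taylorPS etaG = etaProd.map (Int.castRingHom ℂ) := by
  ext m
  rw [taylorPS_coeff, iteratedDeriv_etaG, PowerSeries.coeff_map]
  have : (m.factorial : ℂ) ≠ 0 := by exact_mod_cast Nat.factorial_ne_zero m
  field_simp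
  simp

theorem qExpansion_discriminant :
    qExpansion 1 discriminant =
      (PowerSeries.X * dedekindEtaUnit).map (Int.castRingHom ℂ) := by
  have h1 : qExpansion 1 discriminant = taylorPS (cuspFunction 1 discriminant) := rfl
  have h2 : cuspFunction 1 discriminant =ᶠ[𝓝 0] ((fun q : ℂ => q) * etaG ^ 24) := by
    filter_upwards [Metric.ball_mem_nhds (0 : ℂ) one_pos] with q hq
    rw [discriminant_cuspFunction_eqOn hq]
    simp only [Pi.mul_apply, Pi.pow_apply, etaG]
    rw [(multipliable_one_sub_pow (by simpa using hq)).tprod_pow 24]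
  have h3 : taylorPS (cuspFunction 1 discriminant) = taylorPS ((fun q : ℂ => q) * etaG ^ 24) := by
    ext m
    rw [taylorPS_coeff, taylorPS_coeff, h2.iteratedDeriv_eq m]
  have h4 : taylorPS (fun q : ℂ => q) = PowerSeries.X := by
    have := taylorPS_aeval Polynomial.X
    simpa using this
  rw [h1, h3, taylorPS_mul (Φ := fun q : ℂ => q) analyticAt_id (analyticAt_etaG.pow 24), taylorPS_pow analyticAt_etaG,
    taylorPS_etaG, h4, dedekindEtaUnit]
  simp

end Fermat.Agent.S24
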