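import Fermat.Agent.S24.Degree
import Fermat.Agent.S24.Embed

set_option autoImplicit false

open UpperHalfPlane ModularForm EisensteinSeries WithZero ModularCurve AlgebraicCurve
open IntermediateField
open scoped MatrixGroups Manifold

noncomputable section

namespace Fermat.Agent.S24

theorem adjoin_sub_const {K F : Type*} [Field K] [Field F] [Algebra K F] (x : F) (c : K) :
    K⟮x - algebraMap K F c⟯ = K⟮x⟯ := by
  apply le_antisymm
  · rw [adjoin_simple_le_iff]
    exact sub_mem (mem_adjoin_simple_self K x) (IntermediateField.algebraMap_mem _ c)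
  · rw [adjoin_simple_le_iff]
    have := add_mem (mem_adjoin_simple_self K (x - algebraMap K F c))
      (IntermediateField.algebraMap_mem K⟮x - algebraMap K F c⟯ c)
    rwa [sub_add_cancel] at this

theorem transcendental_sub_const {K F : Type*} [Field K] [Field F] [Algebra K F] (x : F) (c : K)
    (hx : Transcendental K x) : Transcendental K (x - algebraMap K F c) := by
  intro h
  apply hx
  have := h.add (isAlgebraic_algebraMap (A := F) c)
  rwa [sub_add_cancel] at this

theorem sigma_apply (N : ℕ) [NeZero N] (q : QN N) (θ : FN N) :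
    sigma N q θ = merAct q.out (iota N θ) := rfl

theorem sigma_algebraMap (N : ℕ) [NeZero N] (q : QN N) (a : Kb) :
    sigma N q (algebraMap Kb (FN N) a) = algebraMap ℂ Mer (kappa a) := by
  rw [sigma_apply, iota_algebraMap, merAct_const]

theorem sigma_jN_sub (N : ℕ) [NeZero N] (q : QN N) (c : Kb) :
    sigma N q (jN N - algebraMap Kb (FN N) c) =
      algebraMap Hol Mer (jH - algebraMap ℂ Hol (kappa c)) := by
  rw [RingHom.map_sub, sigma_algebraMap, sigma_apply, iota_jN, merAct_algebraMap, holAct_jH,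
    RingHom.map_sub, ← IsScalarTower.algebraMap_apply ℂ Hol Mer]

theorem finiteDimensional_sub (N : ℕ) [NeZero N] (c : Kb) :
    FiniteDimensional Kb⟮jN N - algebraMap Kb (FN N) c⟯ (FN N) := by
  rw [adjoin_sub_const]
  exact finiteDimensional_FN N

theorem finrank_sub (N : ℕ) [NeZero N] (c : Kb) :
    Module.finrank Kb⟮jN N - algebraMap Kb (FN N) c⟯ (FN N) = Nat.card (QN N) := by
  rw [adjoin_sub_const]
  exact finrank_FN N

theorem ord_jN_sub_eq_one (N : ℕ) [NeZero N] (c : Kb) (h0 : c ≠ 0) (h1 : c ≠ 1728)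
    (v : Place Kb (FN N)) (hv : 0 < v.ord (jN N - algebraMap Kb (FN N) c)) :
    v.ord (jN N - algebraMap Kb (FN N) c) = 1 := by
  obtain ⟨τ, hτ⟩ := exists_jH_eq (kappa c)
  have hk0 : kappa c ≠ 0 := (map_ne_zero kappa).mpr h0
  have hk1 : kappa c ≠ 1728 := by
    intro h
    apply h1
    apply kappa.injective
    rw [h, map_ofNat]
  have hval := holVal_jH_sub τ (by rw [hτ]; exact hk0) (by rw [hτ]; exact hk1)
  rw [hτ] at hval
  refine ord_eq_one_of_embeddings (jN N - algebraMap Kb (FN N) c)
    (transcendental_sub_const _ _ (transcendental_jN N)) (finiteDimensional_sub N c)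
    (ordAt τ) (sigma N) (sigma_injective N) (finrank_sub N c).symm ?_ ?_ ?_ ?_ v hv
  · intro i j a
    rw [sigma_algebraMap, sigma_algebraMap]
  · intro i j
    rw [sigma_jN_sub, sigma_jN_sub]
  · intro i a
    rw [sigma_algebraMap]
    exact ordAt_const _ _
  · intro i
    rw [sigma_jN_sub, ordAt_algebraMap, hval]

theorem card_zeros_aux (N : ℕ) [NeZero N] (c : Kb) (τ : ℍ) (E : ℕ) (hE : 0 < E) (g : SL(2, ℤ))
    (hfix : g • τ = τ)
    (hval : holVal τ (jH - algebraMap ℂ Hol (kappa c)) = exp (-(E : ℤ)))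
    (hdiv : ∀ (h : ℕ) (x : Mer), x ≠ 0 → merAct (g ^ h) x = x →
      (E : ℤ) ∣ (h : ℤ) * log (ordAt τ x)) :
    Nat.card {v : Place Kb (FN N) // 0 < v.ord (jN N - algebraMap Kb (FN N) c)} =
      Nat.card (MulAction.orbitRel.Quotient (Subgroup.zpowers g) (QN N)) := by
  refine card_zeroPlaces_eq_card_orbits (jN N - algebraMap Kb (FN N) c)
    (transcendental_sub_const _ _ (transcendental_jN N)) (finiteDimensional_sub N c)
    (ordAt τ) (sigma N) (sigma_injective N) (finrank_sub N c).symm ?_ ?_ ?_ E hE ?_ g ?_ ?_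
  · intro i j a
    rw [sigma_algebraMap, sigma_algebraMap]
  · intro i j
    rw [sigma_jN_sub, sigma_jN_sub]
  · intro i a
    rw [sigma_algebraMap]
    exact ordAt_const _ _
  · intro i
    rw [sigma_jN_sub, ordAt_algebraMap, hval]
  · intro i f
    rw [sigma_smul, ordAt_merAct]
    congr 2
    rw [inv_smul_eq_iff, hfix]
  · intro i f hf
    apply hdiv
    · exact (map_ne_zero _).mpr hf
    · rw [← sigma_smul]
      have := Function.iterate_minimalPeriod (f := (g • · : QN N → QN N)) (x := i)
      rw [smul_iterate] at this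
      have h2 : g ^ Function.minimalPeriod (fun x : QN N => g • x) i • i = i := this
      rw [h2]

theorem card_zeros_jN_sub_1728 (N : ℕ) [NeZero N] :
    Nat.card {v : Place Kb (FN N) // 0 < v.ord (jN N - algebraMap Kb (FN N) 1728)} =
      Nat.card (MulAction.orbitRel.Quotient (Subgroup.zpowers ModularGroup.S) (QN N)) := by
  refine card_zeros_aux N 1728 I 2 (by norm_num) ModularGroup.S S_smul_I ?_
    two_dvd_of_merAct_S_pow
  rw [map_ofNat, holVal_jH_sub_I]
  rfl

theorem card_zeros_jN (N : ℕ) [NeZero N] :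
    Nat.card {v : Place Kb (FN N) // 0 < v.ord (jN N - algebraMap Kb (FN N) 0)} =
      Nat.card (MulAction.orbitRel.Quotient
        (Subgroup.zpowers (ModularGroup.S * ModularGroup.T)) (QN N)) := by
  refine card_zeros_aux N 0 rho 3 (by norm_num) (ModularGroup.S * ModularGroup.T) ST_smul_rho ?_
    three_dvd_of_merAct_ST_pow
  rw [map_zero, map_zero, sub_zero, holVal_jH_rho]
  rfl

end Fermat.Agent.S24
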