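import Fermat.Agent.S24.JFun

set_option autoImplicit false

open UpperHalfPlane ModularForm EisensteinSeries WithZero Filter Topology Function
open scoped MatrixGroups Manifold Real

noncomputable section

namespace Fermat.Agent.S24.Cusp

/-- the local parameter at infinity -/
def qN (N : ℕ) (τ : ℍ) : ℂ := Periodic.qParam (N : ℝ) (τ : ℂ)

theorem qN_ne_zero (N : ℕ) (τ : ℍ) : qN N τ ≠ 0 := Periodic.qParam_ne_zero _

theorem tendsto_qN (N : ℕ) [NeZero N] : Tendsto (qN N) atImInfty (𝓝 0) :=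
  UpperHalfPlane.qParam_tendsto_atImInfty
    (by exact_mod_cast Nat.pos_of_ne_zero (NeZero.ne N))

/-- `f` has order `n` at infinity with leading coefficient `c` -/
def HasLead (N : ℕ) (f : ℍ → ℂ) (n : ℕ) (c : ℂ) : Prop :=
  c ≠ 0 ∧ Tendsto (fun τ => f τ / qN N τ ^ n) atImInfty (𝓝 c)

theorem HasLead.mul {N : ℕ} {f g : ℍ → ℂ} {n m : ℕ} {c d : ℂ}
    (hf : HasLead N f n c) (hg : HasLead N g m d) : HasLead N (f * g) (n + m) (c * d) := by
  refine ⟨mul_ne_zero hf.1 hg.1, (hf.2.mul hg.2).congr fun τ => ?_⟩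
  simp only [Pi.mul_apply, pow_add]
  field_simp

theorem HasLead.tendsto_zero {N : ℕ} [NeZero N] {f : ℍ → ℂ} {n k : ℕ} {c : ℂ}
    (hf : HasLead N f n c) (hk : k < n) :
    Tendsto (fun τ => f τ / qN N τ ^ k) atImInfty (𝓝 0) := by
  have h1 : Tendsto (fun τ => qN N τ ^ (n - k)) atImInfty (𝓝 0) := by
    have := (tendsto_qN N).pow (n - k)
    rwa [zero_pow (by omega)] at this
  have h2 := hf.2.mul h1
  rw [mul_zero] at h2
  refine h2.congr fun τ => ?_
  have hq := qN_ne_zero N τ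
  have : qN N τ ^ n = qN N τ ^ k * qN N τ ^ (n - k) := by
    rw [← pow_add]; congr 1; omega
  rw [this]
  field_simp

theorem HasLead.le {N : ℕ} [NeZero N] {f : ℍ → ℂ} {n m : ℕ} {c d : ℂ}
    (hf : HasLead N f n c) (hg : HasLead N f m d) : n ≤ m := by
  by_contra h
  push Not at h
  have := tendsto_nhds_unique (hf.tendsto_zero h) hg.2
  exact hg.1 this.symm

theorem HasLead.unique {N : ℕ} [NeZero N] {f : ℍ → ℂ} {n m : ℕ} {c d : ℂ}
    (hf : HasLead N f n c) (hg : HasLead N f m d) : n = m ∧ c = d := by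
  have h : n = m := le_antisymm (hf.le hg) (hg.le hf)
  subst h
  exact ⟨rfl, tendsto_nhds_unique hf.2 hg.2⟩

/-- holomorphic functions, periodic of period `N`, bounded at infinity -/
def HolB (N : ℕ) : Subalgebra ℂ (ℍ → ℂ) where
  carrier := {f | MDiff f ∧ Periodic (f ∘ ofComplex) (((N : ℝ) : ℂ)) ∧ IsBoundedAtImInfty f}
  mul_mem' := fun hf hg => ⟨by exact MDifferentiable.mul hf.1 hg.1, hf.2.1.mul hg.2.1,
    hf.2.2.mul hg.2.2⟩
  add_mem' := fun hf hg => ⟨by exact MDifferentiable.add hf.1 hg.1, hf.2.1.add hg.2.1,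
    hf.2.2.add hg.2.2⟩
  algebraMap_mem' := fun c => ⟨by exact mdifferentiable_const, fun _ => rfl,
    const_boundedAtFilter _ c⟩

theorem HolB_le (N : ℕ) : HolB N ≤ Hol := fun _ hf => hf.1

/-- the inclusion into `Hol` -/
def toHol (N : ℕ) : HolB N →ₐ[ℂ] Hol := Subalgebra.inclusion (HolB_le N)

theorem toHol_injective (N : ℕ) : Function.Injective (toHol N) :=
  Subalgebra.inclusion_injective _

instance (N : ℕ) : IsDomain (HolB N) :=
  Function.Injective.isDomain (toHol N).toRingHom (toHol_injective N)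

/-- the fraction field -/
abbrev MerB (N : ℕ) : Type := FractionRing (HolB N)

/-- underlying function -/
def fn {N : ℕ} (f : HolB N) : ℍ → ℂ := (f : ℍ → ℂ)

theorem fn_mul {N : ℕ} (f g : HolB N) : fn (f * g) = fn f * fn g := rfl
theorem fn_add {N : ℕ} (f g : HolB N) : fn (f + g) = fn f + fn g := rfl
theorem fn_one {N : ℕ} : fn (1 : HolB N) = 1 := rfl
theorem fn_zero {N : ℕ} : fn (0 : HolB N) = 0 := rfl
theorem fn_toHol {N : ℕ} (f : HolB N) : ((toHol N f : Hol) : ℍ → ℂ) = fn f := rfl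

theorem fn_injective {N : ℕ} : Function.Injective (fn (N := N)) := fun _ _ h =>
  Subtype.ext h

theorem exists_hasLead (N : ℕ) [NeZero N] (f : HolB N) (hf : f ≠ 0) :
    ∃ n c, HasLead N (fn f) n c := by
  have hN : (0 : ℝ) < N := by exact_mod_cast Nat.pos_of_ne_zero (NeZero.ne N)
  have hper : Periodic (fn f ∘ ofComplex) (((N : ℝ) : ℂ)) := f.2.2.1
  have hbd : IsBoundedAtImInfty (fn f) := f.2.2.2
  have hhol : MDiff (fn f) := f.2.1
  have han := UpperHalfPlane.analyticAt_cuspFunction_zero hN hper hhol hbd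
  have hne : ¬ ∀ᶠ z in 𝓝 (0 : ℂ), cuspFunction (N : ℝ) (fn f) z = 0 := by
    intro h0
    apply hf
    apply fn_injective
    rw [fn_zero, ← UpperHalfPlane.qExpansion_eq_zero_iff hN hper hhol hbd]
    ext m
    rw [UpperHalfPlane.qExpansion_coeff]
    have : iteratedDeriv m (cuspFunction (N : ℝ) (fn f)) 0 = 0 := by
      have h1 : cuspFunction (N : ℝ) (fn f) =ᶠ[𝓝 0] fun _ => (0 : ℂ) := h0
      rw [h1.iteratedDeriv_eq m]
      simp
    rw [this]; simp
  obtain ⟨n, g, hg, hg0, hev⟩ := han.exists_eventuallyEq_pow_smul_nonzero_iff.mpr hne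
  refine ⟨n, g 0, hg0, ?_⟩
  have h1 : Tendsto (fun τ => g (qN N τ)) atImInfty (𝓝 (g 0)) :=
    hg.continuousAt.tendsto.comp (tendsto_qN N)
  refine h1.congr' ?_
  filter_upwards [(tendsto_qN N).eventually hev] with τ hτ
  have h2 : cuspFunction (N : ℝ) (fn f) (qN N τ) = fn f τ :=
    UpperHalfPlane.eq_cuspFunction τ hN.ne' hper
  rw [← h2, hτ]
  have hq := qN_ne_zero N τ
  simp only [sub_zero, smul_eq_mul]
  field_simp

theorem HasLead.ne_zero {N : ℕ} {f : HolB N} {n : ℕ} {c : ℂ} (h : HasLead N (fn f) n c) :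
    f ≠ 0 := by
  rintro rfl
  have h2 : Tendsto (fun _ : ℍ => (0 : ℂ)) atImInfty (𝓝 c) :=
    h.2.congr fun τ => by simp [fn_zero]
  exact h.1 (tendsto_nhds_unique h2 tendsto_const_nhds)

open Classical in
/-- order at infinity -/
def ordB (N : ℕ) [NeZero N] (f : HolB N) : ℕ :=
  if h : f = 0 then 0 else (exists_hasLead N f h).choose

theorem hasLead_ordB (N : ℕ) [NeZero N] (f : HolB N) (hf : f ≠ 0) :
    ∃ c, HasLead N (fn f) (ordB N f) c := by
  unfold ordB
  rw [dif_neg hf]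
  exact (exists_hasLead N f hf).choose_spec

theorem ordB_eq {N : ℕ} [NeZero N] {f : HolB N} {n : ℕ} {c : ℂ} (h : HasLead N (fn f) n c) :
    ordB N f = n := by
  obtain ⟨d, hd⟩ := hasLead_ordB N f h.ne_zero
  exact (hd.unique h).1

theorem hasLead_one (N : ℕ) : HasLead N (fn (1 : HolB N)) 0 1 :=
  ⟨one_ne_zero, by simp [fn_one]⟩

theorem hasLead_const (N : ℕ) (c : ℂ) (hc : c ≠ 0) :
    HasLead N (fn (algebraMap ℂ (HolB N) c)) 0 c :=
  ⟨hc, by
    have : ∀ τ, fn (algebraMap ℂ (HolB N) c) τ = c := fun _ => rfl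
    simp [this]⟩

theorem ordB_mul (N : ℕ) [NeZero N] {f g : HolB N} (hf : f ≠ 0) (hg : g ≠ 0) :
    ordB N (f * g) = ordB N f + ordB N g := by
  obtain ⟨c, hc⟩ := hasLead_ordB N f hf
  obtain ⟨d, hd⟩ := hasLead_ordB N g hg
  exact ordB_eq (f := f * g) (hc.mul hd)

theorem ordB_add (N : ℕ) [NeZero N] {f g : HolB N} (hf : f ≠ 0) (hg : g ≠ 0)
    (hfg : f + g ≠ 0) : ordB N f ≤ ordB N (f + g) ∨ ordB N g ≤ ordB N (f + g) := by
  obtain ⟨c, hc⟩ := hasLead_ordB N f hf
  obtain ⟨d, hd⟩ := hasLead_ordB N g hg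
  obtain ⟨e, he⟩ := hasLead_ordB N (f + g) hfg
  by_contra h
  push Not at h
  have h1 := (hc.tendsto_zero h.1).add (hd.tendsto_zero h.2)
  rw [add_zero] at h1
  have h2 : Tendsto (fun τ => fn (f + g) τ / qN N τ ^ ordB N (f + g)) atImInfty (𝓝 0) :=
    h1.congr fun τ => by rw [fn_add, Pi.add_apply, add_div]
  exact he.1 (tendsto_nhds_unique he.2 h2)

open Classical in
/-- the valuation at infinity on `HolB N` -/
def valB (N : ℕ) [NeZero N] : Valuation (HolB N) ℤᵐ⁰ where
  toFun f := if f = 0 then 0 else exp (-(ordB N f : ℤ))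
  map_zero' := by simp
  map_one' := by
    rw [if_neg one_ne_zero, ordB_eq (hasLead_one N)]
    simp
  map_mul' f g := by
    by_cases hf : f = 0
    · simp [hf]
    by_cases hg : g = 0
    · simp [hg]
    rw [if_neg hf, if_neg hg, if_neg (mul_ne_zero hf hg), ordB_mul N hf hg, ← exp_add]
    congr 1
    push_cast
    ring
  map_add_le_max' f g := by
    by_cases hf : f = 0
    · simp [hf]
    by_cases hg : g = 0
    · simp [hg]
    by_cases hfg : f + g = 0
    · simp [hfg]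
    rw [if_neg hf, if_neg hg, if_neg hfg]
    rcases ordB_add N hf hg hfg with h | h
    · exact le_max_of_le_left (exp_le_exp.mpr (by omega))
    · exact le_max_of_le_right (exp_le_exp.mpr (by omega))

theorem valB_apply (N : ℕ) [NeZero N] {f : HolB N} (hf : f ≠ 0) :
    valB N f = exp (-(ordB N f : ℤ)) := if_neg hf

theorem valB_eq_zero_iff (N : ℕ) [NeZero N] (f : HolB N) : valB N f = 0 ↔ f = 0 := by
  constructor
  · intro h
    by_contra hf
    rw [valB_apply N hf] at h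
    exact exp_ne_zero h
  · rintro rfl
    exact map_zero _

theorem valB_supp (N : ℕ) [NeZero N] : nonZeroDivisors (HolB N) ≤ (valB N).supp.primeCompl := by
  intro f hf hmem
  exact nonZeroDivisors.ne_zero hf ((valB_eq_zero_iff N f).mp hmem)

/-- the valuation at infinity on `MerB N` -/
def wB (N : ℕ) [NeZero N] : Valuation (MerB N) ℤᵐ⁰ :=
  (valB N).extendToLocalization (valB_supp N) (MerB N)

theorem wB_algebraMap (N : ℕ) [NeZero N] (f : HolB N) :
    wB N (algebraMap (HolB N) (MerB N) f) = valB N f :=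
  Valuation.extendToLocalization_apply_map_apply _ _ _ _

/-- the ring hom `HolB N → Mer` -/
def embHol (N : ℕ) : HolB N →+* Mer := (algebraMap Hol Mer).comp (toHol N).toRingHom

theorem embHol_injective (N : ℕ) : Function.Injective (embHol N) :=
  (IsFractionRing.injective Hol Mer).comp (toHol_injective N)

/-- the embedding `MerB N → Mer` -/
def emb (N : ℕ) : MerB N →+* Mer := IsFractionRing.lift (embHol_injective N)

theorem emb_algebraMap (N : ℕ) (f : HolB N) :
    emb N (algebraMap (HolB N) (MerB N) f) = algebraMap Hol Mer (toHol N f) :=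
  IsFractionRing.lift_algebraMap _ _

theorem emb_injective (N : ℕ) : Function.Injective (emb N) := (emb N).injective

theorem tendsto_T_zpow_smul (k : ℤ) :
    Tendsto (fun τ : ℍ => ModularGroup.T ^ k • τ) atImInfty atImInfty := by
  rw [atImInfty, tendsto_comap_iff]
  have : (im ∘ fun τ : ℍ => ModularGroup.T ^ k • τ) = im := by
    ext τ
    exact ModularGroup.im_T_zpow_smul τ k
  rw [this]
  exact tendsto_comap

theorem periodic_iff (N : ℕ) (f : ℍ → ℂ) :
    Periodic (f ∘ ofComplex) (((N : ℝ) : ℂ)) ↔ ∀ τ : ℍ, f (ModularGroup.T ^ (N : ℤ) • τ) = f τ := by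
  constructor
  · intro h τ
    have h1 := h (τ : ℂ)
    simp only [comp_apply, ofComplex_apply] at h1
    rw [← h1]
    congr 1
    have him : 0 < ((τ : ℂ) + ((N : ℝ) : ℂ)).im := by simpa using τ.im_pos
    rw [ofComplex_apply_of_im_pos him]
    ext
    rw [ModularGroup.coe_T_zpow_smul_eq]
    simp
  · intro h w
    by_cases hw : 0 < w.im
    · have him : 0 < (w + ((N : ℝ) : ℂ)).im := by simpa using hw
      simp only [comp_apply, ofComplex_apply_of_im_pos him, ofComplex_apply_of_im_pos hw]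
      rw [← h ⟨w, hw⟩]
      congr 1
      ext
      rw [ModularGroup.coe_T_zpow_smul_eq]
      simp
    · have hw' : w.im ≤ 0 := not_lt.mp hw
      have him : (w + ((N : ℝ) : ℂ)).im ≤ 0 := by simpa using hw'
      simp only [comp_apply, ofComplex_apply_of_im_nonpos him, ofComplex_apply_of_im_nonpos hw']

/-- the root of unity `exp (2 π i k / N)` -/
def zetaK (N : ℕ) (k : ℤ) : ℂ := Complex.exp (2 * π * Complex.I * k / N)

theorem zetaK_ne_zero (N : ℕ) (k : ℤ) : zetaK N k ≠ 0 := Complex.exp_ne_zero _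

theorem qN_T_zpow_smul (N : ℕ) (k : ℤ) (τ : ℍ) :
    qN N (ModularGroup.T ^ k • τ) = qN N τ * zetaK N k := by
  unfold qN zetaK Periodic.qParam
  rw [ModularGroup.coe_T_zpow_smul_eq, ← Complex.exp_add]
  congr 1
  push_cast
  ring

/-- translation by `T ^ k` -/
def shiftB (N : ℕ) (k : ℤ) (f : HolB N) : HolB N :=
  ⟨fun τ => fn f ((ModularGroup.T ^ k)⁻¹ • τ), (holAct (ModularGroup.T ^ k) (toHol N f)).2, by
    rw [periodic_iff]
    intro τ
    have h := (periodic_iff N (fn f)).mp f.2.2.1 ((ModularGroup.T ^ k)⁻¹ • τ)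
    rw [← h, ← mul_smul, ← mul_smul, ← zpow_neg, ← zpow_add, ← zpow_add, add_comm], by
    have h := f.2.2.2.comp_tendsto (tendsto_T_zpow_smul (-k))
    rw [zpow_neg] at h
    exact h⟩

theorem toHol_shiftB (N : ℕ) (k : ℤ) (f : HolB N) :
    toHol N (shiftB N k f) = holAct (ModularGroup.T ^ k) (toHol N f) := rfl

theorem fn_shiftB (N : ℕ) (k : ℤ) (f : HolB N) (τ : ℍ) :
    fn (shiftB N k f) τ = fn f (ModularGroup.T ^ (-k) • τ) := by
  rw [zpow_neg]; rfl

theorem HasLead.shift {N : ℕ} {f : HolB N} {n : ℕ} {c : ℂ} (h : HasLead N (fn f) n c) (k : ℤ) :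
    HasLead N (fn (shiftB N k f)) n (c * zetaK N (-k) ^ n) := by
  refine ⟨mul_ne_zero h.1 (pow_ne_zero _ (zetaK_ne_zero _ _)), ?_⟩
  have h1 := (h.2.comp (tendsto_T_zpow_smul (-k))).mul_const (zetaK N (-k) ^ n)
  refine h1.congr fun τ => ?_
  simp only [comp_apply]
  rw [fn_shiftB, qN_T_zpow_smul, mul_pow]
  have h2 := qN_ne_zero N τ
  have h3 := zetaK_ne_zero N (-k)
  field_simp

theorem shiftB_ne_zero {N : ℕ} {f : HolB N} (hf : f ≠ 0) (k : ℤ) : shiftB N k f ≠ 0 := by
  intro h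
  apply hf
  apply toHol_injective
  have h1 := congrArg (toHol N) h
  rw [toHol_shiftB, map_zero] at h1
  rw [map_zero]
  exact (holAct (ModularGroup.T ^ k)).injective (by rw [h1, map_zero])

theorem valB_shiftB (N : ℕ) [NeZero N] (k : ℤ) (f : HolB N) :
    valB N (shiftB N k f) = valB N f := by
  by_cases hf : f = 0
  · subst hf
    have : shiftB N k (0 : HolB N) = 0 := rfl
    rw [this]
  · obtain ⟨c, hc⟩ := hasLead_ordB N f hf
    rw [valB_apply N hf, valB_apply N (shiftB_ne_zero hf k), ordB_eq (hc.shift k)]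

theorem exists_div (N : ℕ) (x : MerB N) : ∃ a b : HolB N, b ≠ 0 ∧
    x = algebraMap (HolB N) (MerB N) a / algebraMap (HolB N) (MerB N) b := by
  obtain ⟨a, b, hb, h⟩ := IsFractionRing.div_surjective (A := HolB N) x
  exact ⟨a, b, nonZeroDivisors.ne_zero hb, h.symm⟩

theorem merAct_emb_div (N : ℕ) (k : ℤ) (a b : HolB N) :
    merAct (ModularGroup.T ^ k)
      (emb N (algebraMap (HolB N) (MerB N) a / algebraMap (HolB N) (MerB N) b)) =
    emb N (algebraMap (HolB N) (MerB N) (shiftB N k a) /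
      algebraMap (HolB N) (MerB N) (shiftB N k b)) := by
  rw [map_div₀, map_div₀, map_div₀, emb_algebraMap, emb_algebraMap, emb_algebraMap,
    emb_algebraMap, merAct_algebraMap, merAct_algebraMap, toHol_shiftB, toHol_shiftB]

theorem wB_eq_of_merAct (N : ℕ) [NeZero N] (k : ℤ) (x x' : MerB N)
    (h : emb N x' = merAct (ModularGroup.T ^ k) (emb N x)) : wB N x' = wB N x := by
  obtain ⟨a, b, hb, rfl⟩ := exists_div N x
  rw [merAct_emb_div] at h
  rw [emb_injective N h, map_div₀, map_div₀, wB_algebraMap, wB_algebraMap, wB_algebraMap,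
    wB_algebraMap, valB_shiftB, valB_shiftB]

theorem algebraMap_ne_zero {N : ℕ} {a : HolB N} (ha : a ≠ 0) :
    algebraMap (HolB N) (MerB N) a ≠ 0 := by
  intro h
  exact ha (IsFractionRing.injective (HolB N) (MerB N) (by rw [h, map_zero]))

theorem dvd_of_merAct (N : ℕ) [NeZero N] (k : ℤ) (x : MerB N) (hx : x ≠ 0)
    (h : merAct (ModularGroup.T ^ k) (emb N x) = emb N x) : (N : ℤ) ∣ k * log (wB N x) := by
  obtain ⟨a, b, hb, rfl⟩ := exists_div N x
  have ha : a ≠ 0 := by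
    rintro rfl
    simp at hx
  rw [merAct_emb_div] at h
  have h1 := emb_injective N h
  rw [div_eq_div_iff (algebraMap_ne_zero (shiftB_ne_zero hb k)) (algebraMap_ne_zero hb),
    ← map_mul, ← map_mul] at h1
  have h2 : shiftB N k a * b = a * shiftB N k b := IsFractionRing.injective (HolB N) (MerB N) h1
  obtain ⟨c, hc⟩ := hasLead_ordB N a ha
  obtain ⟨d, hd⟩ := hasLead_ordB N b hb
  have l1 : HasLead N (fn (shiftB N k a * b)) _ _ := (hc.shift k).mul hd
  have l2 : HasLead N (fn (a * shiftB N k b)) _ _ := hc.mul (hd.shift k)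
  rw [h2] at l1
  have h3 := (l1.unique l2).2
  have h4 : zetaK N (-k) ^ ordB N a = zetaK N (-k) ^ ordB N b := by
    have hc0 := hc.1
    have hd0 := hd.1
    have : c * d * zetaK N (-k) ^ ordB N a = c * d * zetaK N (-k) ^ ordB N b := by
      linear_combination h3
    exact mul_left_cancel₀ (mul_ne_zero hc0 hd0) this
  unfold zetaK at h4
  rw [← Complex.exp_nat_mul, ← Complex.exp_nat_mul, Complex.exp_eq_exp_iff_exists_int] at h4
  obtain ⟨m, hm⟩ := h4
  have hN : (N : ℂ) ≠ 0 := by exact_mod_cast NeZero.ne N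
  have hpi : (2 * π * Complex.I : ℂ) ≠ 0 := Complex.two_pi_I_ne_zero
  have h5 : ((ordB N a : ℂ)) * ((-k : ℤ) : ℂ) = (ordB N b : ℂ) * ((-k : ℤ) : ℂ) + m * N := by
    field_simp at hm
    linear_combination hm
  have h6 : (ordB N a : ℤ) * (-k) = (ordB N b : ℤ) * (-k) + m * N := by exact_mod_cast h5
  have hw : wB N (algebraMap (HolB N) (MerB N) a / algebraMap (HolB N) (MerB N) b) =
      exp ((ordB N b : ℤ) - ordB N a) := by
    rw [map_div₀, wB_algebraMap, wB_algebraMap, valB_apply N ha, valB_apply N hb,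
      div_eq_mul_inv, ← exp_neg, ← exp_add]
    congr 1
    ring
  rw [hw, log_exp]
  exact ⟨m, by linear_combination h6⟩

theorem conj_T_pow_mem (N : ℕ) (g : SL(2, ℤ)) :
    g * ModularGroup.T ^ (N : ℤ) * g⁻¹ ∈ CongruenceSubgroup.Gamma0 N := by
  have h1 : ModularGroup.T ^ (N : ℤ) ∈ CongruenceSubgroup.Gamma N :=
    CongruenceSubgroup.ModularGroup_T_pow_mem_Gamma N N dvd_rfl
  have h2 := (CongruenceSubgroup.Gamma_normal N).conj_mem _ h1 g
  rw [CongruenceSubgroup.Gamma_mem] at h2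
  rw [CongruenceSubgroup.Gamma0_mem]
  exact h2.2.2.1

theorem slash_T_zpow_apply (k : ℤ) (n : ℤ) (F : ℍ → ℂ) (τ : ℍ) :
    (F ∣[k] (ModularGroup.T ^ n)) τ = F (ModularGroup.T ^ n • τ) := by
  rw [SL_slash_apply]
  have : denom ((ModularGroup.T ^ n : SL(2, ℤ)) : GL (Fin 2) ℝ) τ = 1 := by
    have h1 : ((ModularGroup.T ^ n : SL(2, ℤ)) 1 0 : ℤ) = 0 := by
      rw [ModularGroup.coe_T_zpow]; rfl
    have h2 : ((ModularGroup.T ^ n : SL(2, ℤ)) 1 1 : ℤ) = 1 := by
      rw [ModularGroup.coe_T_zpow]; rfl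
    rw [denom]
    simp only [Matrix.SpecialLinearGroup.coe_GL_coe_matrix, Matrix.SpecialLinearGroup.map_apply_coe,
      Matrix.map_apply, RingHom.mapMatrix_apply, h1, h2]
    simp
  rw [this, one_zpow, mul_one]

theorem slash_eq_of_mem (N : ℕ) {k : ℤ} (A : ModularForm (CongruenceSubgroup.Gamma0 N) k)
    {γ : SL(2, ℤ)} (hγ : γ ∈ CongruenceSubgroup.Gamma0 N) : (A : ℍ → ℂ) ∣[k] γ = A := by
  rw [SL_slash]
  exact SlashInvariantForm.slash_action_eqn A _ ⟨γ, hγ, rfl⟩

/-- the slash of a modular form of level `Γ₀(N)` by an element of `SL(2,ℤ)` -/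
def slashB (N : ℕ) [NeZero N] {k : ℤ} (A : ModularForm (CongruenceSubgroup.Gamma0 N) k)
    (g : SL(2, ℤ)) : HolB N :=
  ⟨(A : ℍ → ℂ) ∣[k] g, by
    rw [SL_slash]
    exact (ModularFormClass.holo A).slash k _, by
    rw [periodic_iff]
    intro τ
    rw [← slash_T_zpow_apply k (N : ℤ) ((A : ℍ → ℂ) ∣[k] g) τ, ← SlashAction.slash_mul]
    have h1 : g * ModularGroup.T ^ (N : ℤ) = (g * ModularGroup.T ^ (N : ℤ) * g⁻¹) * g := by
      group
    rw [h1, SlashAction.slash_mul, slash_eq_of_mem N A (conj_T_pow_mem N g)],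
    ModularFormClass.bdd_at_infty_slash A g⟩

theorem fn_slashB (N : ℕ) [NeZero N] {k : ℤ} (A : ModularForm (CongruenceSubgroup.Gamma0 N) k)
    (g : SL(2, ℤ)) (τ : ℍ) : fn (slashB N A g) τ = A (g • τ) * denom g τ ^ (-k) := by
  show ((A : ℍ → ℂ) ∣[k] g) τ = _
  rw [SL_slash_apply]

theorem slashB_ne_zero (N : ℕ) [NeZero N] {k : ℤ}
    {A : ModularForm (CongruenceSubgroup.Gamma0 N) k} (hA : A ≠ 0) (g : SL(2, ℤ)) :
    slashB N A g ≠ 0 := by
  intro h
  apply hA
  ext τ
  have h1 := congrFun (congrArg fn h) (g⁻¹ • τ)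
  rw [fn_slashB, fn_zero, smul_inv_smul] at h1
  exact (mul_eq_zero.mp h1).resolve_right (zpow_ne_zero _ (denom_ne_zero _ _))

/-- a level one modular form as an element of `HolB N` -/
def levelOneB (N : ℕ) {k : ℤ} {F : Type*} [FunLike F ℍ ℂ] [ModularFormClass F 𝒮ℒ k] (f : F) :
    HolB N :=
  ⟨f, ModularFormClass.holo f, by
    have h := (SlashInvariantFormClass.periodic_comp_ofComplex f
      one_mem_strictPeriods_SL).nat_mul N
    simpa using h, ModularFormClass.bdd_at_infty f⟩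

/-- `E₄` in `HolB N` -/
def E4B (N : ℕ) : HolB N := levelOneB N E₄

/-- `Δ` in `HolB N` -/
def DeltaB (N : ℕ) : HolB N := levelOneB N CuspForm.discriminant

theorem toHol_E4B (N : ℕ) : toHol N (E4B N) = E4H := rfl

theorem toHol_DeltaB (N : ℕ) : toHol N (DeltaB N) = DeltaH := rfl

theorem hasLead_E4B (N : ℕ) : HasLead N (fn (E4B N)) 0 1 :=
  ⟨one_ne_zero, by
    have : ∀ τ, fn (E4B N) τ = E₄ τ := fun _ => rfl
    simpa [this] using JFun.tendsto_E₄⟩

theorem qN_pow (N : ℕ) [NeZero N] (τ : ℍ) : qN N τ ^ N = Periodic.qParam 1 (τ : ℂ) := by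
  unfold qN Periodic.qParam
  rw [← Complex.exp_nat_mul]
  congr 1
  have hN : (N : ℂ) ≠ 0 := by exact_mod_cast NeZero.ne N
  push_cast
  field_simp

theorem hasLead_DeltaB (N : ℕ) [NeZero N] : HasLead N (fn (DeltaB N)) N 1 :=
  ⟨one_ne_zero, by
    refine tendsto_atImInfty_tprod_one_sub_eta_q_pow.congr fun τ => ?_
    have : fn (DeltaB N) τ = discriminant τ := rfl
    rw [this, qN_pow, discriminant_eq_q_prod]
    have h := Periodic.qParam_ne_zero (h := 1) (τ : ℂ)
    field_simp⟩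

theorem valB_E4B (N : ℕ) [NeZero N] : valB N (E4B N) = 1 := by
  rw [valB_apply N (hasLead_E4B N).ne_zero, ordB_eq (hasLead_E4B N)]
  simp

theorem valB_DeltaB (N : ℕ) [NeZero N] : valB N (DeltaB N) = exp (-(N : ℤ)) := by
  rw [valB_apply N (hasLead_DeltaB N).ne_zero, ordB_eq (hasLead_DeltaB N)]

/-- `j` in `MerB N` -/
def jB (N : ℕ) : MerB N :=
  algebraMap (HolB N) (MerB N) (E4B N) ^ 3 / algebraMap (HolB N) (MerB N) (DeltaB N)

theorem DeltaH_ne_zero : DeltaH ≠ 0 := by
  intro h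
  have := congrFun (congrArg Subtype.val h) I
  exact discriminant_ne_zero I this

theorem emb_jB (N : ℕ) : emb N (jB N) = algebraMap Hol Mer jH := by
  unfold jB
  rw [map_div₀, map_pow, emb_algebraMap, emb_algebraMap, toHol_E4B, toHol_DeltaB, ← map_pow,
    ← jH_mul_DeltaH, map_mul, mul_div_assoc, div_self, mul_one]
  intro h
  exact DeltaH_ne_zero (IsFractionRing.injective Hol Mer (by rw [h, map_zero]))

theorem wB_jB (N : ℕ) [NeZero N] : wB N (jB N) = exp (N : ℤ) := by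
  unfold jB
  rw [map_div₀, map_pow, wB_algebraMap, wB_algebraMap, valB_E4B, valB_DeltaB, one_pow,
    one_div, ← exp_neg, neg_neg]

theorem emb_const (N : ℕ) (c : ℂ) :
    emb N (algebraMap (HolB N) (MerB N) (algebraMap ℂ (HolB N) c)) = algebraMap ℂ Mer c := by
  rw [emb_algebraMap, AlgHom.commutes, ← IsScalarTower.algebraMap_apply]

theorem wB_const_le (N : ℕ) [NeZero N] (c : ℂ) :
    wB N (algebraMap (HolB N) (MerB N) (algebraMap ℂ (HolB N) c)) ≤ 1 := by
  rw [wB_algebraMap]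
  by_cases hc : c = 0
  · subst hc
    simp
  · rw [valB_apply N (hasLead_const N c hc).ne_zero, ordB_eq (hasLead_const N c hc)]
    simp

/-- quotients of modular forms, acted on by `SL(2,ℤ)`, lie in `MerB N` -/
theorem merAct_mem_range (N : ℕ) [NeZero N] {k : ℤ}
    (A B : ModularForm (CongruenceSubgroup.Gamma0 N) k) (hB : B ≠ 0) (g : SL(2, ℤ)) (x : Mer)
    (hx : x * algebraMap Hol Mer ⟨B, B.holo'⟩ = algebraMap Hol Mer ⟨A, A.holo'⟩) :
    merAct g x ∈ (emb N).range := by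
  refine ⟨algebraMap (HolB N) (MerB N) (slashB N A g⁻¹) /
    algebraMap (HolB N) (MerB N) (slashB N B g⁻¹), ?_⟩
  have h1 := congrArg (merAct g) hx
  rw [map_mul, merAct_algebraMap, merAct_algebraMap] at h1
  have hB' : algebraMap Hol Mer (toHol N (slashB N B g⁻¹)) ≠ 0 := by
    intro h
    have h2 : toHol N (slashB N B g⁻¹) = 0 :=
      IsFractionRing.injective Hol Mer (by rw [h, map_zero])
    exact slashB_ne_zero N hB g⁻¹ (toHol_injective N (by rw [h2, map_zero]))
  have hB'' : algebraMap Hol Mer (holAct g ⟨B, B.holo'⟩) ≠ 0 := by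
    intro h
    have h2 : holAct g ⟨B, B.holo'⟩ = 0 :=
      IsFractionRing.injective Hol Mer (by rw [h, map_zero])
    have h3 : (⟨B, B.holo'⟩ : Hol) = 0 := (holAct g).injective (by rw [h2, map_zero])
    apply hB
    ext τ
    exact congrFun (congrArg Subtype.val h3) τ
  rw [map_div₀, emb_algebraMap, emb_algebraMap, div_eq_iff hB']
  have h2 : holAct g ⟨A, A.holo'⟩ * toHol N (slashB N B g⁻¹) =
      holAct g ⟨B, B.holo'⟩ * toHol N (slashB N A g⁻¹) := by
    ext τ
    show A (g⁻¹ • τ) * fn (slashB N B g⁻¹) τ = B (g⁻¹ • τ) * fn (slashB N A g⁻¹) τ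
    rw [fn_slashB, fn_slashB]
    ring
  have h3 := congrArg (algebraMap Hol Mer) h2
  rw [map_mul, map_mul, ← h1] at h3
  have h4 : algebraMap Hol Mer (holAct g ⟨B, B.holo'⟩) *
      (merAct g x * algebraMap Hol Mer (toHol N (slashB N B g⁻¹))) =
      algebraMap Hol Mer (holAct g ⟨B, B.holo'⟩) *
        algebraMap Hol Mer (toHol N (slashB N A g⁻¹)) := by
    linear_combination h3
  exact (mul_left_cancel₀ hB'' h4).symm

end Fermat.Agent.S24.Cusp
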