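import Fermat.Agent.S24.Degree
import Fermat.Agent.S24.Embed
import Fermat.Agent.S24.CuspCore

set_option autoImplicit false

open UpperHalfPlane ModularForm EisensteinSeries WithZero ModularCurve AlgebraicCurve
open IntermediateField
open scoped MatrixGroups Manifold

noncomputable section

namespace Fermat.Agent.S24

namespace Cusp

theorem sigma_mem_range (N : ℕ) [NeZero N] (q : QN N) (θ : FN N) :
    sigma N q θ ∈ (emb N).range := by
  obtain ⟨m, A, B, hB, h⟩ := exists_quot N θ
  exact merAct_mem_range N A B hB q.out (iota N θ) h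

/-- `MerB N` is isomorphic to its image in `Mer` -/
def embEquiv (N : ℕ) : MerB N ≃+* (emb N).range :=
  RingEquiv.ofBijective (emb N).rangeRestrict
    ⟨fun _ _ h => emb_injective N (congrArg Subtype.val h), (emb N).rangeRestrict_surjective⟩

/-- the conjugate embeddings with values in `MerB N` -/
def sigmaB (N : ℕ) [NeZero N] (q : QN N) : FN N →+* MerB N :=
  (embEquiv N).symm.toRingHom.comp ((sigma N q).codRestrict (emb N).range (sigma_mem_range N q))

theorem emb_sigmaB (N : ℕ) [NeZero N] (q : QN N) (θ : FN N) :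
    emb N (sigmaB N q θ) = sigma N q θ := by
  have h : embEquiv N (sigmaB N q θ) =
      (sigma N q).codRestrict (emb N).range (sigma_mem_range N q) θ :=
    (embEquiv N).apply_symm_apply _
  exact congrArg Subtype.val h

theorem sigmaB_injective (N : ℕ) [NeZero N] : Function.Injective (sigmaB N) := by
  intro i j h
  apply sigma_injective N
  ext θ
  rw [← emb_sigmaB, ← emb_sigmaB, h]

theorem sigmaB_algebraMap (N : ℕ) [NeZero N] (q : QN N) (a : Kb) :
    sigmaB N q (algebraMap Kb (FN N) a) =
      algebraMap (HolB N) (MerB N) (algebraMap ℂ (HolB N) (kappa a)) := by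
  apply emb_injective N
  rw [emb_sigmaB, emb_const]
  show merAct q.out (iota N (algebraMap Kb (FN N) a)) = _
  rw [iota_algebraMap, merAct_const]

theorem jHd_one : jHd 1 = jH := by
  ext τ
  show (jH : ℍ → ℂ) (scaleH 1 τ) = (jH : ℍ → ℂ) τ
  have : scaleH 1 τ = τ := by
    apply UpperHalfPlane.ext
    simp [scaleH]
  rw [this]

theorem sigmaB_jN (N : ℕ) [NeZero N] (q : QN N) : sigmaB N q (jN N) = jB N := by
  apply emb_injective N
  rw [emb_sigmaB, emb_jB]
  show merAct q.out (iota N (jF N 1 (one_dvd N))) = _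
  rw [iota_jF, merAct_algebraMap, jHd_one, holAct_jH]

theorem adjoin_inv (N : ℕ) : Kb⟮(jN N)⁻¹⟯ = Kb⟮jN N⟯ := by
  apply le_antisymm
  · rw [adjoin_simple_le_iff]
    exact inv_mem (mem_adjoin_simple_self Kb (jN N))
  · rw [adjoin_simple_le_iff]
    have := inv_mem (mem_adjoin_simple_self Kb (jN N)⁻¹)
    rwa [inv_inv] at this

end Cusp

open Cusp in
theorem card_poles_jN (N : ℕ) [NeZero N] :
    Nat.card {v : Place Kb (FN N) // v.ord (jN N) < 0} =
      Nat.card (MulAction.orbitRel.Quotient (Subgroup.zpowers ModularGroup.T) (QN N)) := by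
  have hy : Transcendental Kb (jN N)⁻¹ := fun h =>
    transcendental_jN N (by simpa using h.inv)
  have hfin : FiniteDimensional Kb⟮(jN N)⁻¹⟯ (FN N) := by
    rw [adjoin_inv]; exact finiteDimensional_FN N
  have hcard : Nat.card (QN N) = Module.finrank Kb⟮(jN N)⁻¹⟯ (FN N) := by
    rw [adjoin_inv]; exact (finrank_FN N).symm
  have : Finite (QN N) := by
    apply Nat.finite_of_card_ne_zero
    rw [hcard]
    exact (Module.finrank_pos).ne'
  have key := card_zeroPlaces_eq_card_orbits (K := Kb) (F := FN N) (jN N)⁻¹ hy hfin (wB N)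
    (sigmaB N) (sigmaB_injective N) hcard
    (fun i j a => by rw [sigmaB_algebraMap, sigmaB_algebraMap])
    (fun i j => by rw [map_inv₀, map_inv₀, sigmaB_jN, sigmaB_jN])
    (fun i a => by rw [sigmaB_algebraMap]; exact wB_const_le N _)
    N (Nat.pos_of_ne_zero (NeZero.ne N))
    (fun i => by rw [map_inv₀, map_inv₀, sigmaB_jN, wB_jB, ← exp_neg])
    ModularGroup.T
    (fun i f => by
      apply wB_eq_of_merAct N 1
      rw [emb_sigmaB, emb_sigmaB, sigma_smul, zpow_one])
    (fun i f hf => by
      apply dvd_of_merAct N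
      · exact (map_ne_zero _).mpr hf
      · rw [emb_sigmaB, zpow_natCast, ← sigma_smul]
        congr 2
        have := Function.iterate_minimalPeriod (f := (ModularGroup.T • · : QN N → QN N)) (x := i)
        rwa [smul_iterate] at this)
  exact (Nat.card_congr (Equiv.subtypeEquivRight fun v => by rw [Place.ord_inv]; omega)).trans key

end Fermat.Agent.S24
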