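import Mathlib
import Fermat.Prelude.Def_AlgebraicCurve_CanonicalDivisor
import Fermat.Agent.S24.PlacesCore

set_option autoImplicit false
set_option linter.unusedSectionVars false

open AlgebraicCurve IntermediateField

namespace Fermat.Agent.S24

variable {K F : Type*} [Field K] [Field F] [Algebra K F] [IsAlgClosed K] [CharZero K]

open scoped IntermediateField.algebraAdjoinAdjoin

theorem finite_residueField_of_mem (y : F) (hy : Transcendental K y)
    (hfin : FiniteDimensional K⟮y⟯ F) (v : Place K F) (hv : y ∈ v.toValuationSubring) :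
    Module.Finite K v.ResidueField := by
  have := isPrincipalIdealRing_adjoin y hy
  have := finiteType_adjoin (K := K) y
  have : CharZero K⟮y⟯ := charZero_of_injective_algebraMap (algebraMap K K⟮y⟯).injective
  have := integralClosure.isDedekindDomain (Algebra.adjoin K {y}) K⟮y⟯ F
  have := integralClosure.isFractionRing_of_finite_extension (A := Algebra.adjoin K {y}) K⟮y⟯ F
  have : Module.Finite (Algebra.adjoin K {y}) (integralClosure (Algebra.adjoin K {y}) F) :=
    IsIntegralClosure.finite (Algebra.adjoin K {y}) K⟮y⟯ F _
  have : Algebra.FiniteType K (integralClosure (Algebra.adjoin K {y}) F) :=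
    Algebra.FiniteType.trans (S := Algebra.adjoin K {y}) inferInstance inferInstance
  obtain ⟨w, rfl⟩ := exists_heightOneSpectrum_of_le' (A := Algebra.adjoin K {y})
    (integralClosure (Algebra.adjoin K {y}) F) v
    (adjoin_le_valuationSubring y _ v.algebraMap_mem' hv)
  exact finite_residueField_ofHeightOneSpectrum w

theorem adjoin_inv_eq (y : F) : K⟮y⁻¹⟯ = K⟮y⟯ := by
  apply le_antisymm
  · rw [adjoin_simple_le_iff]
    exact inv_mem (mem_adjoin_simple_self K y)
  · rw [adjoin_simple_le_iff]
    have := inv_mem (mem_adjoin_simple_self K y⁻¹)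
    rwa [inv_inv] at this

theorem transcendental_inv (y : F) (hy : Transcendental K y) : Transcendental K y⁻¹ := by
  intro h
  have := h.inv
  rw [inv_inv] at this
  exact hy this

theorem finiteDimensional_adjoin_inv (y : F) (hfin : FiniteDimensional K⟮y⟯ F) :
    FiniteDimensional K⟮y⁻¹⟯ F := by
  rw [adjoin_inv_eq]
  exact hfin

theorem finite_residueField (y : F) (hy : Transcendental K y)
    (hfin : FiniteDimensional K⟮y⟯ F) (v : Place K F) : Module.Finite K v.ResidueField := by
  rcases v.toValuationSubring.mem_or_inv_mem y with h | h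
  · exact finite_residueField_of_mem y hy hfin v h
  · exact finite_residueField_of_mem y⁻¹ (transcendental_inv y hy)
      (finiteDimensional_adjoin_inv y hfin) v h

theorem finite_zeroPlaces (y : F) (hy : Transcendental K y)
    (hfin : FiniteDimensional K⟮y⟯ F) : {v : Place K F | 0 < v.ord y}.Finite := by
  have := isPrincipalIdealRing_adjoin y hy
  have := isMaximal_span_genAdjoin y hy
  have : CharZero K⟮y⟯ := charZero_of_injective_algebraMap (algebraMap K K⟮y⟯).injective
  have := integralClosure.isDedekindDomain (Algebra.adjoin K {y}) K⟮y⟯ F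
  have := integralClosure.isFractionRing_of_finite_extension (A := Algebra.adjoin K {y}) K⟮y⟯ F
  have : Module.Finite (Algebra.adjoin K {y}) (integralClosure (Algebra.adjoin K {y}) F) :=
    IsIntegralClosure.finite (Algebra.adjoin K {y}) K⟮y⟯ F _
  exact finite_zeroPlaces_aux (K := K) (F := F) (integralClosure (Algebra.adjoin K {y}) F)
    (genAdjoin K y) (genAdjoin_ne_zero y hy)
    (fun v hv => adjoin_le_valuationSubring y _ v.algebraMap_mem' (mem_of_ord_nonneg v hv.le))

theorem sum_ord_zeroPlaces (y : F) (hy : Transcendental K y)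
    (hfin : FiniteDimensional K⟮y⟯ F) :
    ∑ᶠ v ∈ {v : Place K F | 0 < v.ord y}, v.ord y = (Module.finrank K⟮y⟯ F : ℤ) := by
  have := isPrincipalIdealRing_adjoin y hy
  have := isMaximal_span_genAdjoin y hy
  have := finiteType_adjoin (K := K) y
  have : CharZero K⟮y⟯ := charZero_of_injective_algebraMap (algebraMap K K⟮y⟯).injective
  have := integralClosure.isDedekindDomain (Algebra.adjoin K {y}) K⟮y⟯ F
  have := integralClosure.isFractionRing_of_finite_extension (A := Algebra.adjoin K {y}) K⟮y⟯ F
  have : Module.Finite (Algebra.adjoin K {y}) (integralClosure (Algebra.adjoin K {y}) F) :=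
    IsIntegralClosure.finite (Algebra.adjoin K {y}) K⟮y⟯ F _
  exact sum_ord_zeroPlaces_aux (K := K) (F := F) (integralClosure (Algebra.adjoin K {y}) F)
    K⟮y⟯ (genAdjoin K y) (genAdjoin_ne_zero y hy)
    (fun v hv => adjoin_le_valuationSubring y _ v.algebraMap_mem' (mem_of_ord_nonneg v hv.le))

end Fermat.Agent.S24
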