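import Fermat.Agent.S24.Places
import Fermat.Agent.S24.DiffCore

set_option autoImplicit false
set_option linter.unusedSectionVars false
set_option linter.style.haveILetI false

open AlgebraicCurve IntermediateField KaehlerDifferential Polynomial

namespace Fermat.Agent.S24.Diff

variable {K F : Type*} [Field K] [Field F] [Algebra K F]

section Ord

variable (v : Place K F)

theorem ord_algebraMap (a : K) : v.ord (algebraMap K F a) = 0 := by
  rcases eq_or_ne a 0 with rfl | ha
  · simp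
  · have hu : IsUnit (algebraMap K v.toValuationSubring a) := (IsUnit.mk0 a ha).map _
    have := v.ord_coe_unit hu.unit
    simpa using this

theorem mem_of_ord_nonneg {y : F} (h : 0 ≤ v.ord y) : y ∈ v.toValuationSubring := by
  rcases eq_or_ne y 0 with rfl | hy
  · exact zero_mem _
  obtain ⟨ϖ, hϖ⟩ := IsDiscreteValuationRing.exists_irreducible v.toValuationSubring
  obtain ⟨u, hu⟩ := v.exists_unit_mul_zpow hy hϖ
  obtain ⟨k, hk⟩ := Int.eq_ofNat_of_zero_le h
  rw [hu, hk, zpow_natCast]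
  exact mul_mem (Subtype.mem _) (pow_mem (Subtype.mem _) _)

theorem ord_nonneg_of_mem {y : F} (h : y ∈ v.toValuationSubring) : 0 ≤ v.ord y := by
  rcases eq_or_ne y 0 with rfl | hy
  · simp
  obtain ⟨ϖ, hϖ⟩ := IsDiscreteValuationRing.exists_irreducible v.toValuationSubring
  obtain ⟨u, hu⟩ := v.exists_unit_mul_zpow hy hϖ
  by_contra hneg
  push Not at hneg
  obtain ⟨k, hk⟩ := Int.eq_ofNat_of_zero_le (by omega : 0 ≤ -v.ord y - 1)
  have hϖ0 : (ϖ : F) ≠ 0 := by
    simpa [ne_eq, ZeroMemClass.coe_eq_zero] using hϖ.ne_zero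
  have h1 : y * (ϖ : F) ^ (k + 1) = ((u : v.toValuationSubring) : F) := by
    have h2 : v.ord y = -((k + 1 : ℕ) : ℤ) := by push_cast; omega
    rw [h2, zpow_neg, zpow_natCast] at hu
    rw [hu]
    field_simp
  have h3 : (⟨y, h⟩ : v.toValuationSubring) * ϖ ^ (k + 1) = u := Subtype.ext h1
  have h4 : IsUnit ((⟨y, h⟩ : v.toValuationSubring) * ϖ ^ (k + 1)) := h3 ▸ u.isUnit
  have h5 : IsUnit (ϖ ^ (k + 1)) := isUnit_of_mul_isUnit_right h4
  exact hϖ.not_isUnit ((isUnit_pow_succ_iff).mp h5)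

theorem mem_iff_ord_nonneg (y : F) : y ∈ v.toValuationSubring ↔ 0 ≤ v.ord y :=
  ⟨ord_nonneg_of_mem v, mem_of_ord_nonneg v⟩

theorem exists_unit_of_ord_eq_zero {y : F} (hy : y ≠ 0) (h : v.ord y = 0) :
    ∃ u : (v.toValuationSubring)ˣ, y = ((u : v.toValuationSubring) : F) := by
  obtain ⟨ϖ, hϖ⟩ := IsDiscreteValuationRing.exists_irreducible v.toValuationSubring
  obtain ⟨u, hu⟩ := v.exists_unit_mul_zpow hy hϖ
  exact ⟨u, by rw [hu, h, zpow_zero, mul_one]⟩

theorem exists_dCoord_eq :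
    ∃ ϖ : v.toValuationSubring, Irreducible ϖ ∧ v.dCoord = D K F (ϖ : F) :=
  ⟨(IsDiscreteValuationRing.exists_irreducible v.toValuationSubring).choose,
    (IsDiscreteValuationRing.exists_irreducible v.toValuationSubring).choose_spec, rfl⟩

end Ord

section Local

variable [IsAlgClosed K] [CharZero K]

theorem exists_residue (v : Place K F) (hres : Module.Finite K v.ResidueField)
    {ϖ : v.toValuationSubring} (hϖ : Irreducible ϖ) (y : v.toValuationSubring) :
    ∃ a : K, ∃ y₁ : v.toValuationSubring, y = algebraMap K v.toValuationSubring a + ϖ * y₁ := by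
  have hbij : Function.Bijective (algebraMap K v.ResidueField) :=
    IsAlgClosed.algebraMap_bijective_of_isIntegral
  obtain ⟨a, ha⟩ := hbij.2 (IsLocalRing.residue _ y)
  have h1 : IsLocalRing.residue _ (y - algebraMap K v.toValuationSubring a) = 0 := by
    rw [map_sub, ← ha]
    exact sub_self _
  rw [IsLocalRing.residue_eq_zero_iff, hϖ.maximalIdeal_eq, Ideal.mem_span_singleton] at h1
  obtain ⟨y₁, hy₁⟩ := h1
  exact ⟨a, y₁, by rw [← hy₁]; ring⟩

theorem transcendental_of_ord_ne_zero (v : Place K F) {t : F} (ht : v.ord t ≠ 0) :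
    Transcendental K t := by
  apply transcendental_of_notMem_range
  rintro ⟨a, rfl⟩
  exact ht (ord_algebraMap v a)

/-- Lemma D: the derivation `d/dϖ` preserves the valuation ring. -/
theorem derivation_mem (v : Place K F) (hres : Module.Finite K v.ResidueField)
    {ϖ : v.toValuationSubring} (hϖ : Irreducible ϖ)
    (halg : Algebra.IsAlgebraic K⟮(ϖ : F)⟯ F)
    (δ : Derivation K F F) (hδ : δ (ϖ : F) = 1) {y : F} (hy : y ∈ v.toValuationSubring) :
    δ y ∈ v.toValuationSubring := by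
  let O := v.toValuationSubring
  let N : Submodule O F := LinearMap.range (Algebra.linearMap O F)
  let d : Derivation K O (F ⧸ N) := N.mkQ.compDer (δ.compAlgebraMap O)
  have hd : ∀ z : O, d z = N.mkQ (δ (z : F)) := fun z => rfl
  have hdt : d ϖ = 0 := by
    rw [hd, hδ, Submodule.mkQ_apply, Submodule.Quotient.mk_eq_zero]
    exact ⟨1, rfl⟩
  have ht0 : ϖ ∈ nonZeroDivisors O := mem_nonZeroDivisors_of_ne_zero hϖ.ne_zero
  have hK : ∀ a : K, ϖ ∣ algebraMap K O a → a = 0 := by
    intro a hdvd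
    by_contra ha
    have hu : IsUnit (algebraMap K O a) := (IsUnit.mk0 a ha).map _
    exact hϖ.not_isUnit (isUnit_of_dvd_unit hdvd hu)
  let g : O →ₐ[K] F := IsScalarTower.toAlgHom K O F
  have hg : ∀ z : O, g z = (z : F) := fun z => rfl
  have hginj : Function.Injective g := Subtype.val_injective
  have htr : Transcendental K ϖ := by
    have h1 : Transcendental K (ϖ : F) :=
      transcendental_of_ord_ne_zero v (by rw [v.ord_coe_irreducible hϖ]; exact one_ne_zero)
    intro h2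
    exact h1 (h2.algHom g)
  obtain ⟨P₀, hP₀, hP₀'⟩ := exists_ev_eq_zero (ϖ : F) halg y
  have hrel : ∃ P : K[X][X], P ≠ 0 ∧ ev ϖ (⟨y, hy⟩ : O) P = 0 := by
    refine ⟨P₀, hP₀, hginj ?_⟩
    rw [map_ev, map_zero]
    exact hP₀'
  obtain ⟨P, hP, hP'⟩ := exists_ev_derivative_ne_zero ϖ (⟨y, hy⟩ : O) htr hrel
  obtain ⟨m, u, hu⟩ := IsDiscreteValuationRing.eq_unit_mul_pow_irreducible hP' hϖ
  have h0 : d (⟨y, hy⟩ : O) = 0 := by
    refine d_eq_zero ϖ ht0 hK (exists_residue v hres hϖ) d hdt _ P hP m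
      ((u⁻¹ : Oˣ) : O) ?_
    rw [hu, ← mul_assoc, Units.inv_mul, one_mul]
  rw [hd, Submodule.mkQ_apply, Submodule.Quotient.mk_eq_zero] at h0
  obtain ⟨z, hz⟩ := h0
  rw [← hz]
  exact z.2

theorem ord_derivation (v : Place K F) (hres : Module.Finite K v.ResidueField)
    {ϖ : v.toValuationSubring} (hϖ : Irreducible ϖ)
    (halg : Algebra.IsAlgebraic K⟮(ϖ : F)⟯ F)
    (δ : Derivation K F F) (hδ : δ (ϖ : F) = 1) {z : F} (hz : v.ord z ≠ 0) :
    δ z ≠ 0 ∧ v.ord (δ z) = v.ord z - 1 := by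
  have hz0 : z ≠ 0 := by
    rintro rfl
    exact hz v.ord_zero
  obtain ⟨u, hu⟩ := v.exists_unit_mul_zpow hz0 hϖ
  set n : ℤ := v.ord z with hn
  let O := v.toValuationSubring
  have hϖ0 : (ϖ : F) ≠ 0 := by
    simpa [ne_eq, ZeroMemClass.coe_eq_zero] using hϖ.ne_zero
  have hδu : δ ((u : O) : F) ∈ O := derivation_mem v hres hϖ halg δ hδ (u : O).2
  let w : O := ϖ * ⟨_, hδu⟩ + algebraMap K O (n : K) * u
  have hnu : IsUnit (algebraMap K O (n : K) * u) :=
    ((IsUnit.mk0 (n : K) (Int.cast_ne_zero.mpr hz)).map _).mul u.isUnit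
  have hw : IsUnit w := by
    by_contra h
    have h1 : w ∈ IsLocalRing.maximalIdeal O := (IsLocalRing.mem_maximalIdeal _).mpr h
    have h2 : ϖ * ⟨_, hδu⟩ ∈ IsLocalRing.maximalIdeal O :=
      Ideal.mul_mem_right _ _ ((IsLocalRing.mem_maximalIdeal _).mpr hϖ.not_isUnit)
    have h3 : algebraMap K O (n : K) * u ∈ IsLocalRing.maximalIdeal O := by
      have := Ideal.sub_mem _ h1 h2
      simpa [w] using this
    exact ((IsLocalRing.mem_maximalIdeal _).mp h3) hnu
  have hkey : δ z = ((hw.unit : O) : F) * (ϖ : F) ^ (n - 1) := by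
    rw [hu, Derivation.leibniz, Derivation.leibniz_zpow, hδ, IsUnit.unit_spec]
    have h4 : (ϖ : F) ^ n = (ϖ : F) * (ϖ : F) ^ (n - 1) := by
      rw [← zpow_one_add₀ hϖ0]; congr 1; ring
    simp only [smul_eq_mul, mul_one, zsmul_eq_mul, w, h4]
    push_cast
    have h5 : ((algebraMap K O (n : K) : O) : F) = (n : F) := by
      rw [v.coe_algebraMap, map_intCast]
    rw [h5]
    ring
  constructor
  · rw [hkey]
    refine mul_ne_zero ?_ (zpow_ne_zero _ hϖ0)
    simpa [ne_eq, ZeroMemClass.coe_eq_zero] using hw.ne_zero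
  · rw [hkey, v.ord_unit_smul_zpow hw.unit hϖ]

/-- The local package at a place. -/
theorem local_package (x : F) (hx : Transcendental K x) (hfin : FiniteDimensional K⟮x⟯ F)
    (v : Place K F) :
    v.DCoordGenerates ∧ Nontrivial Ω[F⁄K] ∧
      ∀ z : F, v.ord z ≠ 0 → v.differentialCoeff (D K F z) ≠ 0 ∧
        v.ordDifferential (D K F z) = v.ord z - 1 := by
  obtain ⟨ϖ, hϖ, hd⟩ := exists_dCoord_eq v
  have hres := finite_residueField x hx hfin v
  have htr : Transcendental K (ϖ : F) :=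
    transcendental_of_ord_ne_zero v (by rw [v.ord_coe_irreducible hϖ]; exact one_ne_zero)
  have hfin' : FiniteDimensional K⟮(ϖ : F)⟯ F :=
    finiteDimensional_adjoin_of_transcendental x hfin _ htr
  have halg : Algebra.IsAlgebraic K⟮(ϖ : F)⟯ F := inferInstance
  obtain ⟨e, he⟩ := exists_kaehler_equiv (ϖ : F) htr halg
  let δ : Derivation K F F := e.toLinearMap.compDer (D K F)
  have hδ : ∀ y, δ y = e (D K F y) := fun y => rfl
  have hδϖ : δ (ϖ : F) = 1 := he
  have hrep : ∀ ω : Ω[F⁄K], ω = e ω • v.dCoord := by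
    intro ω
    apply e.injective
    rw [map_smul, hd, he, smul_eq_mul, mul_one]
  have hgen : v.DCoordGenerates := ⟨by
    rw [eq_top_iff]
    intro ω _
    rw [hrep ω]
    exact Submodule.smul_mem _ _ (Submodule.mem_span_singleton_self _)⟩
  have hnt : Nontrivial Ω[F⁄K] := e.toEquiv.nontrivial
  refine ⟨hgen, hnt, fun z hz => ?_⟩
  have hcoeff : v.differentialCoeff (D K F z) = δ z :=
    v.differentialCoeff_unique (hrep _)
  obtain ⟨h1, h2⟩ := ord_derivation v hres hϖ halg δ hδϖ hz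
  exact ⟨by rw [hcoeff]; exact h1, by rw [Place.ordDifferential, hcoeff]; exact h2⟩

end Local

end Fermat.Agent.S24.Diff
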