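import Mathlib

set_option autoImplicit false

open UpperHalfPlane ModularForm EisensteinSeries WithZero
open scoped MatrixGroups Manifold

noncomputable section

namespace Fermat.Agent.S24

/-- holomorphic functions on the upper half plane -/
def Hol : Subalgebra ℂ (ℍ → ℂ) where
  carrier := {f | MDiff f}
  mul_mem' := fun {f g} hf hg => by exact MDifferentiable.mul hf hg
  add_mem' := fun {f g} hf hg => by exact MDifferentiable.add hf hg
  algebraMap_mem' := fun c => by exact mdifferentiable_const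

theorem mem_Hol {f : ℍ → ℂ} : f ∈ Hol ↔ MDiff f := Iff.rfl

instance : IsDomain Hol := by
  haveI : NoZeroDivisors Hol := ⟨fun {a b} h => by
    have h' : (a : ℍ → ℂ) * (b : ℍ → ℂ) = 0 := congrArg Subtype.val h
    rcases (UpperHalfPlane.mul_eq_zero_iff a.2 b.2).mp h' with h1 | h1
    · exact Or.inl (Subtype.ext h1)
    · exact Or.inr (Subtype.ext h1)⟩
  haveI : Nontrivial Hol := ⟨⟨0, 1, fun h => by
    have := congrFun (congrArg Subtype.val h) I
    simp at this⟩⟩
  exact NoZeroDivisors.to_isDomain _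

/-- field of meromorphic functions on the upper half plane -/
abbrev Mer : Type := FractionRing Hol

/-- order of vanishing at `τ` -/
def holOrd (τ : ℍ) (f : Hol) : WithTop ℤ := meromorphicOrderAt ((f : ℍ → ℂ) ∘ ofComplex) (τ : ℂ)

end Fermat.Agent.S24

noncomputable section

namespace Fermat.Agent.S24

theorem mdiff_SL_smul (g : SL(2, ℤ)) : MDiff (fun τ : ℍ => g • τ) :=
  UpperHalfPlane.mdifferentiable_smul (g := (g : GL (Fin 2) ℝ)) (by simp)

/-- `n ↦ exp (-n)`, `⊤ ↦ 0` -/
def expNeg : WithTop ℤ → ℤᵐ⁰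
  | ⊤ => 0
  | (n : ℤ) => exp (-n)

@[simp] theorem expNeg_top : expNeg ⊤ = 0 := rfl
@[simp] theorem expNeg_coe (n : ℤ) : expNeg (n : WithTop ℤ) = exp (-n) := rfl

theorem expNeg_add (a b : WithTop ℤ) : expNeg (a + b) = expNeg a * expNeg b := by
  induction a using WithTop.recTopCoe with
  | top => simp
  | coe a =>
    induction b using WithTop.recTopCoe with
    | top => simp
    | coe b =>
      rw [← WithTop.coe_add, expNeg_coe, expNeg_coe, expNeg_coe, ← exp_add]
      congr 1; ring

theorem expNeg_anti {a b : WithTop ℤ} (h : a ≤ b) : expNeg b ≤ expNeg a := by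
  induction b using WithTop.recTopCoe with
  | top => simp
  | coe b =>
    induction a using WithTop.recTopCoe with
    | top => simp at h
    | coe a =>
      rw [expNeg_coe, expNeg_coe, exp_le_exp]
      have : a ≤ b := by exact_mod_cast h
      omega

theorem expNeg_eq_zero_iff {a : WithTop ℤ} : expNeg a = 0 ↔ a = ⊤ := by
  induction a using WithTop.recTopCoe with
  | top => simp
  | coe a => simp

theorem meromorphicAt_hol (τ : ℍ) (f : Hol) :
    MeromorphicAt ((f : ℍ → ℂ) ∘ ofComplex) (τ : ℂ) := by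
  have h := (UpperHalfPlane.mdifferentiable_iff.mp f.2)
  exact (h.analyticAt (isOpen_upperHalfPlaneSet.mem_nhds τ.im_pos)).meromorphicAt

theorem holOrd_eq_top_iff (τ : ℍ) (f : Hol) : holOrd τ f = ⊤ ↔ f = 0 := by
  constructor
  · intro h
    rw [holOrd, meromorphicOrderAt_eq_top_iff] at h
    apply Subtype.ext
    apply UpperHalfPlane.eq_zero_of_frequently f.2 (τ := τ)
    apply Filter.Eventually.frequently
    rw [eventually_nhdsWithin_iff] at h ⊢
    rw [← isOpenEmbedding_coe.map_nhds_eq, Filter.eventually_map] at h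
    filter_upwards [h] with a ha hne
    have h1 : (a : ℂ) ∈ ({(τ : ℂ)}ᶜ : Set ℂ) := by
      intro h2
      exact hne (UpperHalfPlane.ext h2)
    have := ha h1
    simpa using this
  · rintro rfl
    rw [holOrd, meromorphicOrderAt_eq_top_iff]
    exact Filter.Eventually.of_forall fun z => rfl

/-- the valuation on `Hol` given by the order of vanishing at `τ` -/
def holVal (τ : ℍ) : Valuation Hol ℤᵐ⁰ where
  toFun f := expNeg (holOrd τ f)
  map_zero' := by
    rw [(holOrd_eq_top_iff τ 0).mpr rfl]; rfl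
  map_one' := by
    have : holOrd τ 1 = 0 := by
      have h1 : (((1 : Hol) : ℍ → ℂ) ∘ ofComplex) = fun _ => (1 : ℂ) := rfl
      rw [holOrd, h1, meromorphicOrderAt_const]
      simp
    rw [this]; rfl
  map_mul' f g := by
    have : holOrd τ (f * g) = holOrd τ f + holOrd τ g :=
      meromorphicOrderAt_mul (meromorphicAt_hol τ f) (meromorphicAt_hol τ g)
    rw [this, expNeg_add]
  map_add_le_max' f g := by
    have h : min (holOrd τ f) (holOrd τ g) ≤ holOrd τ (f + g) :=
      meromorphicOrderAt_add (meromorphicAt_hol τ f) (meromorphicAt_hol τ g)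
    rcases le_total (holOrd τ f) (holOrd τ g) with h1 | h1
    · rw [min_eq_left h1] at h
      exact le_max_of_le_left (expNeg_anti h)
    · rw [min_eq_right h1] at h
      exact le_max_of_le_right (expNeg_anti h)

theorem holVal_apply (τ : ℍ) (f : Hol) : holVal τ f = expNeg (holOrd τ f) := rfl

theorem holVal_supp (τ : ℍ) : nonZeroDivisors Hol ≤ (holVal τ).supp.primeCompl := by
  intro f hf hmem
  have h0 : holVal τ f = 0 := hmem
  rw [holVal_apply, expNeg_eq_zero_iff, holOrd_eq_top_iff] at h0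
  exact nonZeroDivisors.ne_zero hf h0

/-- the valuation on `Mer` given by the order at `τ` -/
def ordAt (τ : ℍ) : Valuation Mer ℤᵐ⁰ :=
  (holVal τ).extendToLocalization (holVal_supp τ) Mer

/-- precomposition with a holomorphic self map of the upper half plane -/
def holComp (φ : ℍ → ℍ) (hφ : MDiff φ) : Hol →ₐ[ℂ] Hol where
  toFun f := ⟨fun τ => (f : ℍ → ℂ) (φ τ), MDifferentiable.comp f.2 hφ⟩
  map_one' := rfl
  map_mul' _ _ := rfl
  map_zero' := rfl
  map_add' _ _ := rfl
  commutes' _ := rfl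

/-- left action of `SL(2,ℤ)` on `Hol`: `(g f)(τ) = f (g⁻¹ τ)` -/
def holAct (g : SL(2, ℤ)) : Hol ≃+* Hol where
  toFun := holComp (fun τ => g⁻¹ • τ) (mdiff_SL_smul g⁻¹)
  invFun := holComp (fun τ => g • τ) (mdiff_SL_smul g)
  left_inv f := by
    ext τ
    simp [holComp]
  right_inv f := by
    ext τ
    simp [holComp]
  map_mul' _ _ := rfl
  map_add' _ _ := rfl

@[simp] theorem holAct_apply (g : SL(2, ℤ)) (f : Hol) (τ : ℍ) :
    (holAct g f : ℍ → ℂ) τ = (f : ℍ → ℂ) (g⁻¹ • τ) := rfl

/-- left action of `SL(2,ℤ)` on `Mer` -/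
def merAct (g : SL(2, ℤ)) : Mer ≃+* Mer :=
  IsFractionRing.ringEquivOfRingEquiv (holAct g)

/-- the `j` function as a holomorphic function -/
def jH : Hol :=
  ⟨fun τ => E₄ τ ^ 3 / discriminant τ, by
    have h4 : MDiff (E₄ : ℍ → ℂ) := E₄.holo'
    have hd : MDiff (discriminant : ℍ → ℂ) := CuspForm.discriminant.holo'
    show MDiff (fun τ : ℍ => E₄ τ ^ 3 / discriminant τ)
    rw [UpperHalfPlane.mdifferentiable_iff] at h4 hd ⊢
    have : ((fun τ : ℍ => E₄ τ ^ 3 / discriminant τ) ∘ ofComplex)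
        = fun z => ((E₄ : ℍ → ℂ) ∘ ofComplex) z ^ 3 / ((discriminant : ℍ → ℂ) ∘ ofComplex) z := rfl
    rw [this]
    exact (h4.pow 3).div hd (fun z _ => discriminant_ne_zero _)⟩

/-- multiplication by a positive natural number on the upper half plane -/
def scaleH (d : ℕ) [NeZero d] (τ : ℍ) : ℍ :=
  ⟨(d : ℂ) * τ, by
    have hd : (0 : ℝ) < d := by exact_mod_cast Nat.pos_of_ne_zero (NeZero.ne d)
    have : ((d : ℂ) * (τ : ℂ)).im = d * τ.im := by simp
    rw [this]; exact mul_pos hd τ.im_pos⟩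

theorem mdiff_scaleH (d : ℕ) [NeZero d] : MDiff (scaleH d) := by
  have hd : (0 : ℝ) < d := by exact_mod_cast Nat.pos_of_ne_zero (NeZero.ne d)
  have hdet : (!![(d : ℝ), 0; 0, 1] : Matrix (Fin 2) (Fin 2) ℝ).det ≠ 0 := by
    simp [Matrix.det_fin_two, hd.ne']
  let g : GL (Fin 2) ℝ := Matrix.GeneralLinearGroup.mkOfDetNeZero !![(d : ℝ), 0; 0, 1] hdet
  have hg : 0 < g.det.val := by
    simp [g, Matrix.GeneralLinearGroup.mkOfDetNeZero, Matrix.det_fin_two, hd]
  have : scaleH d = fun τ : ℍ => g • τ := by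
    funext τ
    apply UpperHalfPlane.ext
    rw [UpperHalfPlane.coe_smul_of_det_pos hg]
    simp [scaleH, g, num, denom, Matrix.GeneralLinearGroup.mkOfDetNeZero]
  rw [this]
  exact UpperHalfPlane.mdifferentiable_smul hg

/-- `τ ↦ j(dτ)` -/
def jHd (d : ℕ) [NeZero d] : Hol := holComp (scaleH d) (mdiff_scaleH d) jH

end Fermat.Agent.S24
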