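import Mathlib

set_option autoImplicit false

open UpperHalfPlane ModularForm EisensteinSeries Derivative Filter Topology
open scoped MatrixGroups Manifold Real

namespace Fermat.Agent.S24.JFun

local notation "𝕢" => Function.Periodic.qParam
local notation "Δ" => ModularForm.discriminant

lemma hasDerivAt_qParam_one (z : ℂ) :
    HasDerivAt (𝕢 1) (2 * π * Complex.I * 𝕢 1 z) z := by
  have h : HasDerivAt (fun w : ℂ => 2 * π * Complex.I * w / (1 : ℝ)) (2 * π * Complex.I) z := by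
    simpa using ((hasDerivAt_id z).const_mul (2 * π * Complex.I))
  have h2 := h.cexp
  have h3 : (fun w : ℂ => Complex.exp (2 * π * Complex.I * w / (1 : ℝ))) = 𝕢 1 := by
    ext w; rfl
  rw [h3] at h2
  have h4 : 2 * π * Complex.I * 𝕢 1 z
      = Complex.exp (2 * π * Complex.I * z / (1 : ℝ)) * (2 * π * Complex.I) := by
    rw [mul_comm]; rfl
  rw [h4]
  exact h2

/-- `D f = q * F'(q)` for the cusp function `F` of a level one form. -/
lemma D_eq_q_mul_deriv_cuspFunction {k : ℤ} (f : ModularForm 𝒮ℒ k) (τ : ℍ) :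
    D f τ = 𝕢 1 τ * deriv (cuspFunction 1 f) (𝕢 1 τ) := by
  have hq : ‖𝕢 1 (τ : ℂ)‖ < 1 := Function.Periodic.norm_qParam_lt_one one_pos τ.im_pos
  have hF : HasDerivAt (cuspFunction 1 f) (deriv (cuspFunction 1 f) (𝕢 1 τ)) (𝕢 1 τ) :=
    (ModularFormClass.differentiableAt_cuspFunction f one_pos one_mem_strictPeriods_SL
      hq).hasDerivAt
  have hcomp := hF.comp (τ : ℂ) (hasDerivAt_qParam_one τ)
  have heq : ((f : ℍ → ℂ) ∘ ofComplex) =ᶠ[𝓝 (τ : ℂ)] (cuspFunction 1 f ∘ 𝕢 1) := by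
    filter_upwards [isOpen_upperHalfPlaneSet.mem_nhds τ.im_pos] with w hw
    have := SlashInvariantFormClass.eq_cuspFunction f (ofComplex w) one_mem_strictPeriods_SL
      one_ne_zero
    simp only [Function.comp_apply]
    rw [← this, ofComplex_apply_of_im_pos hw]
  have hd : deriv ((f : ℍ → ℂ) ∘ ofComplex) τ =
      deriv (cuspFunction 1 f) (𝕢 1 τ) * (2 * π * Complex.I * 𝕢 1 τ) :=
    (hcomp.congr_of_eventuallyEq heq).deriv
  rw [normalizedDerivOfComplex, hd]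
  have : (2 * (π : ℂ) * Complex.I) ≠ 0 := Complex.two_pi_I_ne_zero
  field_simp

lemma D_isZeroAtImInfty {k : ℤ} (f : ModularForm 𝒮ℒ k) : IsZeroAtImInfty (D f) := by
  have hA := ModularFormClass.analyticAt_cuspFunction_zero f one_pos one_mem_strictPeriods_SL
  have hcont : ContinuousAt (fun q : ℂ => q * deriv (cuspFunction 1 f) q) 0 :=
    continuousAt_id.mul hA.deriv.continuousAt
  have h0 : Tendsto (fun q : ℂ => q * deriv (cuspFunction 1 f) q) (𝓝 0) (𝓝 0) := by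
    simpa using hcont.tendsto
  have := h0.comp (qParam_tendsto_atImInfty one_pos)
  refine this.congr fun τ => ?_
  simp [D_eq_q_mul_deriv_cuspFunction f τ]

lemma slash_eq_self {k : ℤ} (f : ModularForm 𝒮ℒ k) (γ : SL(2, ℤ)) :
    (f : ℍ → ℂ) ∣[k] γ = f := by
  have hγ : (γ : GL (Fin 2) ℝ) ∈ 𝒮ℒ := ⟨γ, rfl⟩
  rw [SL_slash, SlashInvariantForm.slash_action_eqn _ _ hγ]

/-- The anomaly of `D` under the slash action. -/
lemma D_slash {k : ℤ} (f : ModularForm 𝒮ℒ k) (γ : SL(2, ℤ)) (z : ℍ) :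
    (D f ∣[k + 2] γ) z = D f z +
      (k : ℂ) * (2 * π * Complex.I)⁻¹ * (γ 1 0 / denom γ z) * f z := by
  have h := congrFun (normalizedDerivOfComplex_SL_slash (k := k) (F := f)
    (ModularFormClass.holo f) (γ := γ)) z
  rw [slash_eq_self f γ] at h
  simp only [Pi.sub_apply] at h
  rw [h]
  ring

/-- The first Rankin-Cohen bracket of `E₄` and `E₆` (up to a scalar). -/
noncomputable def bracketFun (z : ℍ) : ℂ := 3 * D E₄ z * E₆ z - 2 * E₄ z * D E₆ z

lemma bracketFun_slash (γ : SL(2, ℤ)) : bracketFun ∣[(12 : ℤ)] γ = bracketFun := by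
  ext z
  have h4 := D_slash E₄ γ z
  have h6 := D_slash E₆ γ z
  have e4 := congrFun (slash_eq_self E₄ γ) z
  have e6 := congrFun (slash_eq_self E₆ γ) z
  rw [SL_slash_apply] at h4 h6 e4 e6 ⊢
  have hd : denom γ z ≠ 0 := denom_ne_zero γ z
  set d := denom γ z with hd_def
  simp only [bracketFun]
  have z12a : d ^ (-(12 : ℤ)) = d ^ (-((4 : ℤ) + 2)) * d ^ (-(6 : ℤ)) := by
    rw [← zpow_add₀ hd]; norm_num
  have z12b : d ^ (-(12 : ℤ)) = d ^ (-(4 : ℤ)) * d ^ (-((6 : ℤ) + 2)) := by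
    rw [← zpow_add₀ hd]; norm_num
  calc (3 * D E₄ (γ • z) * E₆ (γ • z) - 2 * E₄ (γ • z) * D E₆ (γ • z)) * d ^ (-(12 : ℤ))
      = 3 * (D E₄ (γ • z) * d ^ (-((4 : ℤ) + 2))) * (E₆ (γ • z) * d ^ (-(6 : ℤ)))
        - 2 * (E₄ (γ • z) * d ^ (-(4 : ℤ))) * (D E₆ (γ • z) * d ^ (-((6 : ℤ) + 2))) := by
        rw [sub_mul, z12a]
        nth_rewrite 2 [← z12a]
        rw [z12b]
        ring
    _ = _ := by
        rw [h4, h6, e4, e6]
        push_cast
        ring

lemma tendsto_coeff_zero {k : ℤ} (f : ModularForm 𝒮ℒ k) :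
    Tendsto f atImInfty (𝓝 ((qExpansion 1 f).coeff 0)) := by
  have hA := ModularFormClass.analyticAt_cuspFunction_zero f one_pos one_mem_strictPeriods_SL
  have h0 : (qExpansion 1 f).coeff 0 = cuspFunction 1 f 0 := by
    simp [qExpansion_coeff]
  rw [h0]
  have := hA.continuousAt.tendsto.comp (qParam_tendsto_atImInfty one_pos)
  refine this.congr fun τ => ?_
  simpa using SlashInvariantFormClass.eq_cuspFunction f τ one_mem_strictPeriods_SL one_ne_zero

lemma tendsto_E₄ : Tendsto E₄ atImInfty (𝓝 1) := by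
  have := tendsto_coeff_zero E₄
  rwa [E_qExpansion_coeff_zero _ ⟨2, rfl⟩] at this

lemma tendsto_E₆ : Tendsto E₆ atImInfty (𝓝 1) := by
  have := tendsto_coeff_zero E₆
  rwa [E_qExpansion_coeff_zero _ ⟨3, rfl⟩] at this

lemma bracketFun_isZeroAtImInfty : IsZeroAtImInfty bracketFun := by
  have h1 : Tendsto (D E₄) atImInfty (𝓝 0) := D_isZeroAtImInfty E₄
  have h2 : Tendsto (D E₆) atImInfty (𝓝 0) := D_isZeroAtImInfty E₆
  have := ((h1.const_mul 3).mul tendsto_E₆).sub ((tendsto_E₄.const_mul 2).mul h2)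
  have h3 : Tendsto (fun x => 3 * D E₄ x * E₆ x - 2 * E₄ x * D E₆ x) atImInfty (𝓝 0) := by
    simpa using this
  exact h3

lemma bracketFun_mdiff : MDiff bracketFun := by
  have h4 : MDiff (E₄ : ℍ → ℂ) := ModularFormClass.holo E₄
  have h6 : MDiff (E₆ : ℍ → ℂ) := ModularFormClass.holo E₆
  have d4 := normalizedDerivOfComplex_mdifferentiable h4
  have d6 := normalizedDerivOfComplex_mdifferentiable h6
  exact ((mdifferentiable_const.mul d4).mul h6).sub ((mdifferentiable_const.mul h4).mul d6)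

/-- The bracket as a cusp form of weight 12. -/
noncomputable def bracketForm : CuspForm 𝒮ℒ 12 where
  toFun := bracketFun
  slash_action_eq' := fun _ ⟨γ, hγ⟩ ↦ hγ ▸ bracketFun_slash γ
  holo' := bracketFun_mdiff
  zero_at_cusps' hc := by
    rw [Subgroup.IsArithmetic.isCusp_iff_isCusp_SL2Z] at hc
    rw [OnePoint.isZeroAt_iff_forall_SL2Z hc]
    intro γ _
    rw [bracketFun_slash]
    exact bracketFun_isZeroAtImInfty

lemma exists_bracket_eq : ∃ c : ℂ, ∀ z : ℍ, bracketFun z = c * Δ z := by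
  obtain ⟨c, hc⟩ := CuspForm.exists_smul_discriminant_of_weight_eq_twelve bracketForm
  refine ⟨c, fun z => ?_⟩
  have := congrArg (fun f : CuspForm 𝒮ℒ 12 => f z) hc
  exact this.symm

/-- The `j`-function on the upper half plane. -/
noncomputable def jFun (z : ℍ) : ℂ := E₄ z ^ 3 / Δ z

lemma mdiff_E₄ : MDiff (E₄ : ℍ → ℂ) := ModularFormClass.holo E₄
lemma mdiff_E₆ : MDiff (E₆ : ℍ → ℂ) := ModularFormClass.holo E₆
lemma mdiff_Δ : MDiff (Δ : ℍ → ℂ) := CuspForm.discriminant.holo'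

lemma jFun_mdiff : MDiff jFun :=
  (mdiff_E₄.pow 3).div mdiff_Δ discriminant_ne_zero

lemma jFun_mul_Δ (z : ℍ) : jFun z * Δ z = E₄ z ^ 3 := by
  rw [jFun, div_mul_cancel₀ _ (discriminant_ne_zero z)]

lemma Δ_eq (z : ℍ) : 1728 * Δ z = E₄ z ^ 3 - E₆ z ^ 2 := by
  rw [discriminant_eq_E₄_cube_sub_E₆_sq z]; ring

lemma jFun_sub_1728 (z : ℍ) : jFun z - 1728 = E₆ z ^ 2 / Δ z := by
  have h := discriminant_ne_zero z
  rw [jFun, eq_div_iff h, sub_mul, div_mul_cancel₀ _ h, Δ_eq]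
  ring

lemma D_Δ (z : ℍ) : 1728 * D Δ z = 3 * E₄ z ^ 2 * D E₄ z - 2 * E₆ z * D E₆ z := by
  have hfun : (Δ : ℍ → ℂ) = (1 / 1728 : ℂ) • ((E₄ : ℍ → ℂ) ^ 3 - (E₆ : ℍ → ℂ) ^ 2) := by
    ext w
    simp only [Pi.smul_apply, Pi.sub_apply, Pi.pow_apply, smul_eq_mul]
    rw [discriminant_eq_E₄_cube_sub_E₆_sq w]; ring
  rw [hfun, normalizedDerivOfComplex_smul _ _ ((mdiff_E₄.pow 3).sub (mdiff_E₆.pow 2)),
    normalizedDerivOfComplex_sub _ _ (mdiff_E₄.pow 3) (mdiff_E₆.pow 2),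
    normalizedDerivOfComplex_pow _ _ mdiff_E₄, normalizedDerivOfComplex_pow _ _ mdiff_E₆]
  simp only [Pi.smul_apply, Pi.sub_apply, Pi.mul_apply, Pi.pow_apply, smul_eq_mul]
  norm_num
  ring

lemma D_jFun_mul (z : ℍ) : D jFun z * Δ z + jFun z * D Δ z = 3 * E₄ z ^ 2 * D E₄ z := by
  have hfun : jFun * (Δ : ℍ → ℂ) = (E₄ : ℍ → ℂ) ^ 3 := by
    ext w; simpa using jFun_mul_Δ w
  have h : D (jFun * (Δ : ℍ → ℂ)) z = D ((E₄ : ℍ → ℂ) ^ 3) z := by rw [hfun]
  rw [normalizedDerivOfComplex_mul _ _ jFun_mdiff mdiff_Δ,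
    normalizedDerivOfComplex_pow _ _ mdiff_E₄] at h
  simpa using h

lemma D_jFun_eq (z : ℍ) : 1728 * Δ z ^ 2 * D jFun z = - (E₄ z ^ 2 * E₆ z * bracketFun z) := by
  have h1 := D_jFun_mul z
  have h2 := D_Δ z
  have h3 := Δ_eq z
  have h4 := jFun_mul_Δ z
  simp only [bracketFun]
  have e1 : 1728 * (D jFun z * Δ z) * Δ z = 1728 * (3 * E₄ z ^ 2 * D E₄ z) * Δ z
      - (jFun z * Δ z) * (1728 * D Δ z) := by
    rw [← h1]; ring
  rw [h4, h2] at e1
  have e2 : 1728 * (3 * E₄ z ^ 2 * D E₄ z) * Δ z = (3 * E₄ z ^ 2 * D E₄ z) * (1728 * Δ z) := by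
    ring
  rw [e2, h3] at e1
  linear_combination e1

lemma deriv_eq_D (f : ℍ → ℂ) (z : ℍ) :
    deriv (f ∘ ofComplex) z = 2 * π * Complex.I * D f z := by
  have : (2 * (π : ℂ) * Complex.I) ≠ 0 := Complex.two_pi_I_ne_zero
  rw [normalizedDerivOfComplex]
  field_simp

lemma deriv_ne_zero_iff (f : ℍ → ℂ) (z : ℍ) :
    deriv (f ∘ ofComplex) z ≠ 0 ↔ D f z ≠ 0 := by
  have : (2 * (π : ℂ) * Complex.I) ≠ 0 := Complex.two_pi_I_ne_zero
  rw [deriv_eq_D]
  simp [this]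

lemma tendsto_Δ : Tendsto Δ atImInfty (𝓝 0) := discriminant_isZeroAtImInfty

lemma bracketFun_ne_zero (z : ℍ) : bracketFun z ≠ 0 := by
  obtain ⟨c, hc⟩ := exists_bracket_eq
  have hc0 : c ≠ 0 := by
    rintro rfl
    have hD : ∀ z, D jFun z = 0 := by
      intro z
      have h := D_jFun_eq z
      rw [hc z] at h
      have hΔ := discriminant_ne_zero z
      simpa [hΔ] using h
    have hconst : ∀ w : ℍ, jFun w = jFun I := by
      intro w
      have h := isOpen_upperHalfPlaneSet.is_const_of_deriv_eq_zero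
        (convex_halfSpace_im_gt 0).isPreconnected
        (UpperHalfPlane.mdifferentiable_iff.mp jFun_mdiff) (fun x hx => by
          have := deriv_eq_D jFun ⟨x, hx⟩
          rw [hD, mul_zero] at this
          exact this) w.im_pos I.im_pos
      simp only [Function.comp_apply, ofComplex_apply] at h
      exact h
    have h1 : Tendsto (fun z => E₄ z ^ 3) atImInfty (𝓝 1) := by simpa using tendsto_E₄.pow 3
    have h2 : Tendsto (fun z => jFun I * Δ z) atImInfty (𝓝 0) := by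
      simpa using tendsto_Δ.const_mul (jFun I)
    have h3 : (fun z => E₄ z ^ 3) = fun z => jFun I * Δ z := by
      ext w
      rw [← hconst w, jFun_mul_Δ]
    rw [h3] at h1
    exact one_ne_zero (tendsto_nhds_unique h1 h2)
  rw [hc z]
  exact mul_ne_zero hc0 (discriminant_ne_zero z)

lemma D_E₄_ne_zero {z : ℍ} (h : E₄ z = 0) : D E₄ z ≠ 0 := by
  intro h'
  apply bracketFun_ne_zero z
  simp [bracketFun, h, h']

lemma D_E₆_ne_zero {z : ℍ} (h : E₆ z = 0) : D E₆ z ≠ 0 := by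
  intro h'
  apply bracketFun_ne_zero z
  simp [bracketFun, h, h']

lemma D_jFun_ne_zero {z : ℍ} (h4 : E₄ z ≠ 0) (h6 : E₆ z ≠ 0) : D jFun z ≠ 0 := by
  intro h'
  have h := D_jFun_eq z
  rw [h', mul_zero, eq_comm, neg_eq_zero] at h
  exact mul_ne_zero (mul_ne_zero (pow_ne_zero 2 h4) h6) (bracketFun_ne_zero z) h

lemma jFun_eq_zero_iff (z : ℍ) : jFun z = 0 ↔ E₄ z = 0 := by
  simp [jFun, discriminant_ne_zero z]

lemma jFun_eq_1728_iff (z : ℍ) : jFun z = 1728 ↔ E₆ z = 0 := by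
  rw [← sub_eq_zero, jFun_sub_1728]
  simp [discriminant_ne_zero z]

lemma jFun_smul (γ : SL(2, ℤ)) (z : ℍ) : jFun (γ • z) = jFun z := by
  have e4 := congrFun (slash_eq_self E₄ γ) z
  have eΔ : ((Δ : ℍ → ℂ) ∣[(12 : ℤ)] γ) z = Δ z := by
    have hγ : (γ : GL (Fin 2) ℝ) ∈ 𝒮ℒ := ⟨γ, rfl⟩
    have := SlashInvariantForm.slash_action_eqn CuspForm.discriminant _ hγ
    rw [SL_slash]
    exact congrFun this z
  rw [SL_slash_apply] at e4 eΔ
  have hd : denom γ z ≠ 0 := denom_ne_zero γ z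
  set d := denom γ z with hd_def
  have h4 : E₄ (γ • z) = E₄ z * d ^ (4 : ℤ) := by
    rw [← e4, mul_assoc, ← zpow_add₀ hd]; simp
  have h12 : Δ (γ • z) = Δ z * d ^ (12 : ℤ) := by
    rw [← eΔ, mul_assoc, ← zpow_add₀ hd]; simp
  rw [jFun, jFun, h4, h12, mul_pow, ← zpow_natCast (d ^ (4 : ℤ)) 3, ← zpow_mul]
  norm_num
  rw [mul_div_mul_right _ _ (pow_ne_zero 12 hd)]

lemma eq_zero_of_fixed {k : ℤ} (f : ModularForm 𝒮ℒ k) (γ : SL(2, ℤ)) (z : ℍ)
    (hz : γ • z = z) (hd : denom γ z ^ k ≠ 1) : f z = 0 := by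
  have e := congrFun (slash_eq_self f γ) z
  rw [SL_slash_apply, hz] at e
  have hd0 : denom γ z ≠ 0 := denom_ne_zero γ z
  have h1 : f z * denom γ z ^ k = f z := by
    calc f z * denom γ z ^ k = (f z * denom γ z ^ (-k)) * denom γ z ^ k := by rw [e]
      _ = f z := by rw [mul_assoc, ← zpow_add₀ hd0]; simp
  by_contra hf
  apply hd
  have : f z * denom γ z ^ k = f z * 1 := by rw [h1, mul_one]
  exact mul_left_cancel₀ hf this

lemma E₆_I : E₆ I = 0 := by
  apply eq_zero_of_fixed E₆ ModularGroup.S I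
  · rw [modular_S_smul, UpperHalfPlane.ext_iff]
    norm_num
  · rw [ModularGroup.denom_S]
    have : ((I : ℍ) : ℂ) ^ (6 : ℤ) = -1 := by
      have h6 : ((I : ℍ) : ℂ) ^ (6 : ℤ) = (Complex.I ^ 2) ^ 3 := by
        rw [← pow_mul]; norm_cast
      rw [h6, Complex.I_sq]; norm_num
    rw [this]; norm_num

lemma E₄_eq_zero_of {z : ℍ} (hz : (z : ℂ) ^ 2 + z + 1 = 0) : E₄ z = 0 := by
  have hz1 : (z : ℂ) + 1 ≠ 0 := by
    intro h
    have : (z : ℂ) ^ 2 + z + 1 = (z : ℂ) ^ 2 := by linear_combination h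
    rw [this] at hz
    exact z.ne_zero (pow_eq_zero_iff (two_ne_zero)|>.mp hz)
  have hden : denom ((ModularGroup.S * ModularGroup.T : SL(2, ℤ)) : GL (Fin 2) ℝ) z
      = (z : ℂ) + 1 := by
    simp [denom, ModularGroup.S, ModularGroup.T, Matrix.mul_apply, Fin.sum_univ_two]
  apply eq_zero_of_fixed E₄ (ModularGroup.S * ModularGroup.T) z
  · rw [UpperHalfPlane.ext_iff, coe_specialLinearGroup_apply]
    simp [ModularGroup.S, ModularGroup.T]
    rw [div_eq_iff hz1]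
    linear_combination -hz
  · rw [hden]
    intro h
    have h4 : ((z : ℂ) + 1) ^ 4 = 1 := by exact_mod_cast h
    have h5 : ((z : ℂ) + 1) ^ 4 = -(z : ℂ) - 1 := by
      linear_combination ((z : ℂ) ^ 2 + 3 * z + 2) * hz
    rw [h5] at h4
    have h6 : (z : ℂ) = -2 := by linear_combination -h4
    rw [h6] at hz
    norm_num at hz

/-- Inverse of a nowhere vanishing level one form. -/
noncomputable def invForm (f : ModularForm 𝒮ℒ 12) (hf : ∀ z, f z ≠ 0)
    (hlim : Tendsto f atImInfty (𝓝 1)) : ModularForm 𝒮ℒ (-12) where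
  toFun := fun z => (f z)⁻¹
  slash_action_eq' := by
    rintro _ ⟨γ, rfl⟩
    ext z
    have e := congrFun (slash_eq_self f γ) z
    have : ((fun z => (f z)⁻¹) ∣[(-12 : ℤ)] γ) z = (f z)⁻¹ := by
      rw [SL_slash_apply] at e ⊢
      rw [← e, mul_inv, zpow_neg, zpow_neg, inv_inv]
    exact this
  holo' := by
    have h1 : MDiff (fun _ : ℍ => (1 : ℂ)) := mdifferentiable_const
    have h2 := h1.div (ModularFormClass.holo f) hf
    have h3 : (fun z => (f z)⁻¹) = (fun _ : ℍ => (1 : ℂ)) / (f : ℍ → ℂ) := by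
      ext z; simp
    have h4 : MDiff (fun z => (f z)⁻¹) := by rw [h3]; exact h2
    exact h4
  bdd_at_cusps' hc := by
    rw [Subgroup.IsArithmetic.isCusp_iff_isCusp_SL2Z] at hc
    rw [OnePoint.isBoundedAt_iff_forall_SL2Z hc]
    intro γ _
    have hs : ((fun z => (f z)⁻¹) ∣[(-12 : ℤ)] γ) = fun z => (f z)⁻¹ := by
      ext z
      have e := congrFun (slash_eq_self f γ) z
      rw [SL_slash_apply] at e ⊢
      rw [← e, mul_inv, zpow_neg, zpow_neg, inv_inv]
    have h2 : Tendsto (fun z => (f z)⁻¹) atImInfty (𝓝 1) := by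
      simpa using hlim.inv₀ one_ne_zero
    show IsBoundedAtImInfty ((fun z => (f z)⁻¹) ∣[(-12 : ℤ)] γ)
    rw [hs]
    exact h2.isBigO_one ℝ

lemma exists_jFun_eq (c : ℂ) : ∃ τ : ℍ, jFun τ = c := by
  by_contra hcon
  push Not at hcon
  have h12 : (12 : ℤ) = 4 + 4 + 4 := by norm_num
  let E43 : ModularForm 𝒮ℒ 12 := ModularForm.mcast h12.symm ((E₄.mul E₄).mul E₄)
  let Δ' : ModularForm 𝒮ℒ 12 := CuspForm.discriminant
  let f : ModularForm 𝒮ℒ 12 := E43 - c • Δ'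
  have hfz : ∀ z, f z = E₄ z ^ 3 - c * Δ z := by
    intro z
    show E₄ z * E₄ z * E₄ z - c * Δ z = _
    ring
  have hf : ∀ z, f z ≠ 0 := by
    intro z h
    apply hcon z
    rw [hfz, sub_eq_zero] at h
    rw [jFun, h, mul_div_cancel_right₀ _ (discriminant_ne_zero z)]
  have hlim : Tendsto f atImInfty (𝓝 1) := by
    have h1 : Tendsto (fun z => E₄ z ^ 3 - c * Δ z) atImInfty (𝓝 1) := by
      simpa using (tendsto_E₄.pow 3).sub (tendsto_Δ.const_mul c)
    exact h1.congr fun z => (hfz z).symm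
  have h0 := ModularFormClass.levelOne_neg_weight_eq_zero (by norm_num) (invForm f hf hlim)
  have h1 : (f I)⁻¹ = 0 := congrFun h0 I
  exact hf I (inv_eq_zero.mp h1)

end Fermat.Agent.S24.JFun
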