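import Fermat.Agent.S24.Mer
import Fermat.Agent.S24.JFunCore

set_option autoImplicit false

open UpperHalfPlane ModularForm EisensteinSeries WithZero
open scoped MatrixGroups Manifold

noncomputable section

namespace Fermat.Agent.S24

theorem jH_apply (τ : ℍ) : (jH : ℍ → ℂ) τ = E₄ τ ^ 3 / discriminant τ := rfl

theorem jH_eq_jFun : (jH : ℍ → ℂ) = JFun.jFun := rfl

/-- `E₄` as an element of `Hol` -/
def E4H : Hol := ⟨E₄, JFun.mdiff_E₄⟩

/-- `E₆` as an element of `Hol` -/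
def E6H : Hol := ⟨E₆, JFun.mdiff_E₆⟩

/-- `Δ` as an element of `Hol` -/
def DeltaH : Hol := ⟨discriminant, JFun.mdiff_Δ⟩

theorem jH_mul_DeltaH : jH * DeltaH = E4H ^ 3 := by
  ext τ
  exact JFun.jFun_mul_Δ τ

theorem jH_sub_mul_DeltaH : (jH - algebraMap ℂ Hol 1728) * DeltaH = E6H ^ 2 := by
  ext τ
  show (JFun.jFun τ - 1728) * discriminant τ = E₆ τ ^ 2
  rw [JFun.jFun_sub_1728, div_mul_cancel₀ _ (discriminant_ne_zero τ)]

theorem holVal_DeltaH (τ : ℍ) : holVal τ DeltaH = 1 :=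
  (holVal_eq_one_iff τ DeltaH).mpr (discriminant_ne_zero τ)

theorem holAct_jH (g : SL(2, ℤ)) : holAct g jH = jH := by
  ext τ
  exact JFun.jFun_smul g⁻¹ τ

theorem exists_jH_eq (c : ℂ) : ∃ τ : ℍ, (jH : ℍ → ℂ) τ = c :=
  JFun.exists_jFun_eq c

theorem jH_I : (jH : ℍ → ℂ) I = 1728 :=
  (JFun.jFun_eq_1728_iff I).mpr JFun.E₆_I

theorem E₄_rho : E₄ rho = 0 := JFun.E₄_eq_zero_of MerAux.rho_quad

theorem jH_rho : (jH : ℍ → ℂ) rho = 0 :=
  (JFun.jFun_eq_zero_iff rho).mpr E₄_rho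

theorem holVal_jH_sub (τ : ℍ) (h0 : (jH : ℍ → ℂ) τ ≠ 0) (h1 : (jH : ℍ → ℂ) τ ≠ 1728) :
    holVal τ (jH - algebraMap ℂ Hol ((jH : ℍ → ℂ) τ)) = exp (-1 : ℤ) := by
  apply holVal_eq_exp_neg_one
  · show JFun.jFun τ - JFun.jFun τ = 0
    exact sub_self _
  · have h4 : E₄ τ ≠ 0 := fun h => h0 ((JFun.jFun_eq_zero_iff τ).mpr h)
    have h6 : E₆ τ ≠ 0 := fun h => h1 ((JFun.jFun_eq_1728_iff τ).mpr h)
    have hD := (JFun.deriv_ne_zero_iff JFun.jFun τ).mpr (JFun.D_jFun_ne_zero h4 h6)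
    have hfun : (((jH - algebraMap ℂ Hol ((jH : ℍ → ℂ) τ) : Hol) : ℍ → ℂ) ∘ ofComplex)
        = fun z => (JFun.jFun ∘ ofComplex) z - JFun.jFun τ := by
      ext z; rfl
    rw [hfun, deriv_sub_const]
    exact hD

theorem holVal_E6H_I : holVal I E6H = exp (-1 : ℤ) :=
  holVal_eq_exp_neg_one I E6H JFun.E₆_I
    ((JFun.deriv_ne_zero_iff E₆ I).mpr (JFun.D_E₆_ne_zero JFun.E₆_I))

theorem holVal_E4H_rho : holVal rho E4H = exp (-1 : ℤ) :=
  holVal_eq_exp_neg_one rho E4H E₄_rho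
    ((JFun.deriv_ne_zero_iff E₄ rho).mpr (JFun.D_E₄_ne_zero E₄_rho))

theorem holVal_jH_sub_I : holVal I (jH - algebraMap ℂ Hol 1728) = exp (-2 : ℤ) := by
  have h := congrArg (holVal I) jH_sub_mul_DeltaH
  rw [map_mul, holVal_DeltaH, mul_one, map_pow, holVal_E6H_I, ← exp_nsmul] at h
  rw [h]; norm_num

theorem holVal_jH_rho : holVal rho jH = exp (-3 : ℤ) := by
  have h := congrArg (holVal rho) jH_mul_DeltaH
  rw [map_mul, holVal_DeltaH, mul_one, map_pow, holVal_E4H_rho, ← exp_nsmul] at h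
  rw [h]; norm_num

end Fermat.Agent.S24
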