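import Fermat.Agent.S24.Quot
import Fermat.Agent.S24.JFun

set_option autoImplicit false

open UpperHalfPlane ModularForm EisensteinSeries WithZero ModularCurve AlgebraicCurve
open IntermediateField Filter Topology
open scoped MatrixGroups Manifold Real

noncomputable section

namespace Fermat.Agent.S24

local notation "𝕢" => Function.Periodic.qParam

open Matrix.SpecialLinearGroup in
theorem jFun_GL_smul (g : SL(2, ℤ)) (τ : ℍ) : JFun.jFun (mapGL ℝ g • τ) = JFun.jFun τ :=
  JFun.jFun_smul g τ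

open Matrix.SpecialLinearGroup in
theorem holAct_jHd (N d : ℕ) [NeZero N] [NeZero d] (hd : d ∣ N) {g : SL(2, ℤ)}
    (hg : g ∈ CongruenceSubgroup.Gamma0 N) : holAct g (jHd d) = jHd d := by
  ext τ
  show JFun.jFun (scaleH d (g⁻¹ • τ)) = JFun.jFun (scaleH d τ)
  have hg' : g⁻¹ ∈ CongruenceSubgroup.Gamma0 N := inv_mem hg
  have hg2 := CongruenceSubgroup.Gamma0_mem.mp hg'
  have hg3 : (N : ℤ) ∣ g⁻¹ 1 0 := (ZMod.intCast_zmod_eq_zero_iff_dvd _ _).mp hg2
  have hg4 : (d : ℤ) ∣ g⁻¹ 1 0 := (Int.natCast_dvd_natCast.mpr hd).trans hg3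
  obtain ⟨g', hg'⟩ := IntStruct.exists_comm (NeZero.ne d) g⁻¹ hg4
  have h1 : scaleH d (g⁻¹ • τ) = mapGL ℝ g' • scaleH d τ := by
    rw [← heckeDiagMatrix_smul, ← heckeDiagMatrix_smul]
    show heckeDiagMatrix d • (mapGL ℝ g⁻¹ • τ) = _
    rw [← mul_smul, hg', mul_smul]
  rw [h1, jFun_GL_smul]

theorem merAct_iota_of_mem (N : ℕ) [NeZero N] {g : SL(2, ℤ)}
    (hg : g ∈ CongruenceSubgroup.Gamma0 N) (θ : FN N) :
    merAct g (iota N θ) = iota N θ := by
  have hθ : θ ∈ IntermediateField.adjoin Kb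
      {x : FN N | ∃ (d : ℕ) (_ : NeZero d) (hd : d ∣ N), x = jF N d hd} := by
    rw [adjoin_jF]; trivial
  induction hθ using IntermediateField.adjoin_induction with
  | mem x hx =>
    obtain ⟨d, hd0, hd, rfl⟩ := hx
    rw [iota_jF, merAct_algebraMap, holAct_jHd N d hd hg]
  | algebraMap a => rw [iota_algebraMap, merAct_const]
  | add x y _ _ hx hy => rw [map_add, map_add, hx, hy]
  | inv x _ hx => rw [map_inv₀, map_inv₀, hx]
  | mul x y _ _ hx hy => rw [map_mul, map_mul, hx, hy]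

theorem tendsto_jFun_mul_q :
    Tendsto (fun z : ℍ => JFun.jFun z * 𝕢 1 z) atImInfty (𝓝 1) := by
  have h1 : Tendsto (fun z : ℍ => E₄ z ^ 3 / ∏' n, (1 - eta_q n z) ^ 24) atImInfty (𝓝 1) := by
    have h := (JFun.tendsto_E₄.pow 3).div tendsto_atImInfty_tprod_one_sub_eta_q_pow one_ne_zero
    rw [one_pow, div_one] at h
    exact h
  refine h1.congr fun z => ?_
  have hq : 𝕢 1 (z : ℂ) ≠ 0 := Complex.exp_ne_zero _
  have hΔ := discriminant_ne_zero z
  rw [JFun.jFun, discriminant_eq_q_prod] at *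
  have hp : (∏' n, (1 - eta_q n z) ^ 24) ≠ 0 := right_ne_zero_of_mul hΔ
  field_simp

theorem norm_qParam_one (z : ℍ) : ‖𝕢 1 (z : ℂ)‖ = Real.exp (-2 * π * z.im) := by
  simp [Function.Periodic.qParam, Complex.norm_exp]

theorem im_upperTriangularGL_smul {a b d : ℝ} (had : a * d ≠ 0) (ha : 0 < a) (hd : 0 < d)
    (τ : ℍ) : (upperTriangularGL a b d had • τ).im = a / d * τ.im := by
  have hdet : ((upperTriangularGL a b d had).det : ℝ) = a * d := by
    rw [Matrix.GeneralLinearGroup.val_det_apply, val_upperTriangularGL, Matrix.det_fin_two_of]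
    ring
  have hden : UpperHalfPlane.denom (upperTriangularGL a b d had) τ = d := by
    simp [UpperHalfPlane.denom]
  rw [UpperHalfPlane.im_smul_eq_div_normSq, hden, hdet, abs_of_pos (by positivity)]
  simp only [Complex.normSq_ofReal]
  field_simp

open Matrix.SpecialLinearGroup in
theorem mem_Gamma0_of_holAct (N : ℕ) [NeZero N] {g : SL(2, ℤ)}
    (h : holAct g (jHd N) = jHd N) : g ∈ CongruenceSubgroup.Gamma0 N := by
  have hN := NeZero.ne N
  obtain ⟨g', a, b, d, had, ha, hd, h1, h2, h3⟩ := IntStruct.exists_factor hN g⁻¹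
  have ha' : (0 : ℝ) < a := by exact_mod_cast ha
  have hd' : (0 : ℝ) < d := by exact_mod_cast hd
  have hN' : (0 : ℝ) < N := by exact_mod_cast Nat.pos_of_ne_zero hN
  set U := upperTriangularGL a b d had with hU
  have hV : heckeDiagMatrix N = upperTriangularGL N 0 1 (by rw [mul_one]; exact hN'.ne') := by
    simp [heckeDiagMatrix, hN]
  have hJ : ∀ τ : ℍ, JFun.jFun (U • τ) = JFun.jFun (heckeDiagMatrix N • τ) := by
    intro τ
    have e' : JFun.jFun (scaleH N (g⁻¹ • τ)) = JFun.jFun (scaleH N τ) :=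
      congrFun (congrArg Subtype.val h) τ
    rw [← heckeDiagMatrix_smul, ← heckeDiagMatrix_smul] at e'
    have e2 : heckeDiagMatrix N • (g⁻¹ • τ) = mapGL ℝ g' • (U • τ) := by
      show heckeDiagMatrix N • (mapGL ℝ g⁻¹ • τ) = _
      rw [← mul_smul, h3, mul_smul]
    rw [e2, jFun_GL_smul] at e'
    exact e'
  have t1 : Tendsto (fun τ : ℍ => JFun.jFun (U • τ) * 𝕢 1 ((U • τ : ℍ) : ℂ)) atImInfty (𝓝 1) :=
    tendsto_jFun_mul_q.comp (tendsto_smul_atImInfty (by simp [U]))
  have t2 : Tendsto (fun τ : ℍ => JFun.jFun (heckeDiagMatrix N • τ) *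
      𝕢 1 ((heckeDiagMatrix N • τ : ℍ) : ℂ)) atImInfty (𝓝 1) :=
    tendsto_jFun_mul_q.comp (tendsto_smul_atImInfty (by simp [hN]))
  have t3 := (t1.div t2 one_ne_zero).norm
  rw [div_one, norm_one] at t3
  have t4 : Tendsto (fun τ : ℍ => Real.exp (2 * π * (N - a / d) * τ.im)) atImInfty (𝓝 1) := by
    refine t3.congr' ?_
    filter_upwards [t2.eventually_ne one_ne_zero] with τ hτ
    have hJ0 : JFun.jFun (heckeDiagMatrix N • τ) ≠ 0 := left_ne_zero_of_mul hτ
    simp only [Pi.div_apply]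
    rw [hJ τ, mul_div_mul_left _ _ hJ0, norm_div, norm_qParam_one, norm_qParam_one, ← Real.exp_sub,
      hU, im_upperTriangularGL_smul had ha' hd', hV,
      im_upperTriangularGL_smul _ hN' one_pos]
    congr 1
    ring
  have hd1 : d = 1 := by
    by_contra hne
    have hd2 : (2 : ℤ) ≤ d := by omega
    have hd2' : (2 : ℝ) ≤ d := by exact_mod_cast hd2
    have hadN : (a : ℝ) * d = N := by exact_mod_cast h1
    have hc : 0 < 2 * π * ((N : ℝ) - a / d) := by
      have : (a : ℝ) / d < N := by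
        rw [div_lt_iff₀ hd', ← hadN]
        nlinarith
      have hpi := Real.pi_pos
      have : 0 < (N : ℝ) - a / d := by linarith
      positivity
    have t5 : Tendsto (fun τ : ℍ => Real.exp (2 * π * (N - a / d) * τ.im)) atImInfty atTop :=
      Real.tendsto_exp_atTop.comp ((tendsto_comap (f := UpperHalfPlane.im)).const_mul_atTop hc)
    exact not_tendsto_nhds_of_tendsto_atTop t5 1 t4
  have hg' : g⁻¹ ∈ CongruenceSubgroup.Gamma0 N := by
    rw [CongruenceSubgroup.Gamma0_mem]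
    exact (ZMod.intCast_zmod_eq_zero_iff_dvd _ _).mpr (h2 hd1)
  simpa using inv_mem hg'

theorem mem_Gamma0_of_merAct (N : ℕ) [NeZero N] {g : SL(2, ℤ)}
    (h : merAct g (iota N (jF N N dvd_rfl)) = iota N (jF N N dvd_rfl)) :
    g ∈ CongruenceSubgroup.Gamma0 N := by
  rw [iota_jF, merAct_algebraMap] at h
  exact mem_Gamma0_of_holAct N (IsFractionRing.injective Hol Mer h)

end Fermat.Agent.S24
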