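import Fermat.Agent.S24.DegreeA
import Fermat.Prelude.Thm_ModularForm_sturm_bound_Gamma0
import Fermat.Prelude.Thm_CongruenceSubgroup_one_mem_strictPeriods_Gamma0

set_option autoImplicit false

open UpperHalfPlane ModularForm EisensteinSeries WithZero ModularCurve AlgebraicCurve
open IntermediateField Filter Topology
open scoped MatrixGroups Manifold Real

noncomputable section

namespace Fermat.Agent.S24

/-- the first `B + 1` coefficients of the `q`-expansion -/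
def coeffMap (N : ℕ) [NeZero N] (k : ℤ) (B : ℕ) :
    ModularForm (CongruenceSubgroup.Gamma0 N : Subgroup (GL (Fin 2) ℝ)) k →ₗ[ℂ] (Fin (B + 1) → ℂ) where
  toFun f := fun n => (qExpansion 1 f).coeff n
  map_add' f g := by
    ext n
    have := ModularForm.qExpansion_add one_pos (CongruenceSubgroup.one_mem_strictPeriods_Gamma0 N) f g
    simp only [Pi.add_apply]
    rw [← map_add, ← this]
    rfl
  map_smul' c f := by
    ext n
    have := ModularForm.qExpansion_smul one_pos (CongruenceSubgroup.one_mem_strictPeriods_Gamma0 N) c f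
    simp only [Pi.smul_apply, RingHom.id_apply]
    rw [← PowerSeries.coeff_smul, ← this]
    rfl

theorem coeffMap_injective (N : ℕ) [NeZero N] (M : ℕ) :
    Function.Injective (coeffMap N (12 * M) (M * Nat.card (QN N))) := by
  rw [← LinearMap.ker_eq_bot, LinearMap.ker_eq_bot']
  intro f hf
  apply ModularForm.sturm_bound_Gamma0 N f
  intro n hn
  have hidx : (CongruenceSubgroup.Gamma0 N).index = Nat.card (QN N) := rfl
  have hb : ((12 * (M : ℤ)) * ((CongruenceSubgroup.Gamma0 N).index : ℤ)).toNat / 12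
      = M * Nat.card (QN N) := by
    rw [hidx]
    have : (12 * (M : ℤ)) * (Nat.card (QN N) : ℤ) = ((12 * (M * Nat.card (QN N)) : ℕ) : ℤ) := by
      push_cast; ring
    rw [this, Int.toNat_natCast, Nat.mul_div_cancel_left _ (by norm_num)]
  rw [hb] at hn
  exact congrFun hf ⟨n, Nat.lt_succ_of_le hn⟩

/-- `mfHol` as a linear map -/
def mfHolₗ (Γ : Subgroup (GL (Fin 2) ℝ)) [Γ.HasDetOne] (k : ℤ) : ModularForm Γ k →ₗ[ℂ] Hol where
  toFun := mfHol
  map_add' _ _ := rfl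
  map_smul' _ _ := rfl

theorem not_linearIndependent_of_isMFH (N : ℕ) [NeZero N] (M : ℕ) {ι : Type*} [Fintype ι]
    (h : ι → Hol) (hh : ∀ i, IsMFH (CongruenceSubgroup.Gamma0 N) (12 * M) (h i))
    (hcard : M * Nat.card (QN N) + 1 < Fintype.card ι) : ¬ LinearIndependent ℂ h := by
  intro hli
  choose F hF using hh
  have h1 : h = mfHolₗ _ (12 * M) ∘ F := by
    ext1 i; exact (hF i).symm
  rw [h1] at hli
  have h2 : LinearIndependent ℂ F := hli.of_comp
  have h3 := h2.map' _ (LinearMap.ker_eq_bot.mpr (coeffMap_injective N M))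
  have h4 := h3.fintype_card_le_finrank
  rw [Module.finrank_fin_fun] at h4
  omega

theorem IsMFH.pow {Γ : Subgroup (GL (Fin 2) ℝ)} [Γ.HasDetPlusMinusOne] {k : ℤ} {f : Hol}
    (hf : IsMFH Γ k f) (n : ℕ) : IsMFH Γ (n * k) (f ^ n) := by
  obtain ⟨F, rfl⟩ := hf
  refine ⟨F.pow n, ?_⟩
  ext τ
  show (F.pow n) τ = (F τ) ^ n
  rw [ModularForm.coe_pow]; rfl

theorem scaleH_one (τ : ℍ) : scaleH 1 τ = τ := by
  ext
  show ((1 : ℕ) : ℂ) * (τ : ℂ) = τ
  simp

theorem jHd_one : jHd 1 = jH := by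
  ext τ
  show (jH : ℍ → ℂ) (scaleH 1 τ) = (jH : ℍ → ℂ) τ
  rw [scaleH_one]

theorem IsMFH.of_levelOne (N : ℕ) [NeZero N] {k : ℤ} (F : ModularForm 𝒮ℒ k) :
    IsMFH (CongruenceSubgroup.Gamma0 N) k (mfHol F) := by
  refine ⟨raiseLevel N 1 (one_dvd N) F, ?_⟩
  ext τ
  show raiseLevel N 1 (one_dvd N) F τ = F τ
  rw [raiseLevel_apply, scaleH_one]
  simp

theorem card_QN_pos (N : ℕ) [NeZero N] : 0 < Nat.card (QN N) := by
  have : Finite (QN N) := Subgroup.finite_quotient_of_finiteIndex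
  exact Nat.card_pos

/-- the family of modular forms used in the dimension count -/
def famH (A B : Hol) (s p : ℕ) (i : Fin (s + 1) × Fin (p + 1)) : Hol :=
  E4H ^ (3 * (i.1 : ℕ)) * DeltaH ^ (s - (i.1 : ℕ)) * (A ^ (i.2 : ℕ) * B ^ (p - (i.2 : ℕ)))

theorem isMFH_famH (N : ℕ) [NeZero N] (m : ℕ) {A B : Hol}
    (hA : IsMFH (CongruenceSubgroup.Gamma0 N) (12 * m) A)
    (hB : IsMFH (CongruenceSubgroup.Gamma0 N) (12 * m) B) (s p : ℕ)
    (i : Fin (s + 1) × Fin (p + 1)) :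
    IsMFH (CongruenceSubgroup.Gamma0 N) (12 * ((s + m * p : ℕ) : ℤ)) (famH A B s p i) := by
  have h4 : IsMFH (CongruenceSubgroup.Gamma0 N) 4 E4H := IsMFH.of_levelOne N E₄
  have hΔ : IsMFH (CongruenceSubgroup.Gamma0 N) 12 DeltaH :=
    IsMFH.of_levelOne N (CuspForm.discriminant : ModularForm 𝒮ℒ 12)
  have h := ((h4.pow (3 * (i.1 : ℕ))).mul (hΔ.pow (s - (i.1 : ℕ)))).mul
    ((hA.pow (i.2 : ℕ)).mul (hB.pow (p - (i.2 : ℕ))))
  have h1 : (i.1 : ℕ) ≤ s := Nat.lt_succ_iff.mp i.1.2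
  have h2 : (i.2 : ℕ) ≤ p := Nat.lt_succ_iff.mp i.2.2
  have e : ((3 * (i.1 : ℕ) : ℕ) : ℤ) * 4 + ((s - (i.1 : ℕ) : ℕ) : ℤ) * 12 +
      (((i.2 : ℕ) : ℤ) * (12 * m) + ((p - (i.2 : ℕ) : ℕ) : ℤ) * (12 * m))
      = 12 * ((s + m * p : ℕ) : ℤ) := by
    push_cast [Nat.cast_sub h1, Nat.cast_sub h2]
    ring
  rw [e] at h
  exact h

theorem algebraMap_famH {A B : Hol} {x : Mer}
    (hx : x * algebraMap Hol Mer B = algebraMap Hol Mer A) (s p : ℕ)
    (i : Fin (s + 1) × Fin (p + 1)) :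
    algebraMap Hol Mer (famH A B s p i) = algebraMap Hol Mer (DeltaH ^ s * B ^ p) *
      (algebraMap Hol Mer jH ^ (i.1 : ℕ) * x ^ (i.2 : ℕ)) := by
  have h1 : (i.1 : ℕ) ≤ s := Nat.lt_succ_iff.mp i.1.2
  have h2 : (i.2 : ℕ) ≤ p := Nat.lt_succ_iff.mp i.2.2
  have e1 : E4H ^ (3 * (i.1 : ℕ)) * DeltaH ^ (s - (i.1 : ℕ)) = jH ^ (i.1 : ℕ) * DeltaH ^ s := by
    rw [pow_mul, ← jH_mul_DeltaH, mul_pow, mul_assoc, ← pow_add, Nat.add_sub_cancel' h1]
  have e2 : algebraMap Hol Mer (A ^ (i.2 : ℕ) * B ^ (p - (i.2 : ℕ)))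
      = x ^ (i.2 : ℕ) * algebraMap Hol Mer (B ^ p) := by
    rw [map_mul, map_pow, ← hx, mul_pow, map_pow, mul_assoc, ← pow_add, Nat.add_sub_cancel' h2,
      map_pow]
  rw [famH, map_mul, e1, e2, map_mul, map_mul, map_pow]
  ring

theorem not_linearIndependent_pow (N : ℕ) [NeZero N] (θ : FN N) :
    ∃ s : ℕ, ¬ LinearIndependent ℂ (fun i : Fin (s + 1) × Fin (Nat.card (QN N) + 1) =>
      algebraMap Hol Mer jH ^ (i.1 : ℕ) * iota N θ ^ (i.2 : ℕ)) := by
  obtain ⟨m, A, B, hA, hB, hB0, hx⟩ := isQuot_iota N θ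
  set p := Nat.card (QN N) with hp
  have hp0 : 0 < p := card_QN_pos N
  refine ⟨m * p ^ 2, fun hli => ?_⟩
  set s := m * p ^ 2 with hs
  have hD : algebraMap Hol Mer (DeltaH ^ s * B ^ p) ≠ 0 := by
    have hΔ0 : DeltaH ≠ 0 := by
      intro h
      exact discriminant_ne_zero I (congrFun (congrArg Subtype.val h) I)
    have : DeltaH ^ s * B ^ p ≠ 0 := mul_ne_zero (pow_ne_zero _ hΔ0) (pow_ne_zero _ hB0)
    simpa using (IsFractionRing.injective Hol Mer).ne this
  have h1 := hli.map' (LinearMap.mulLeft ℂ (algebraMap Hol Mer (DeltaH ^ s * B ^ p)))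
    (LinearMap.ker_eq_bot.mpr (mul_right_injective₀ hD))
  have h2 : (LinearMap.mulLeft ℂ (algebraMap Hol Mer (DeltaH ^ s * B ^ p))) ∘
      (fun i : Fin (s + 1) × Fin (p + 1) =>
        algebraMap Hol Mer jH ^ (i.1 : ℕ) * iota N θ ^ (i.2 : ℕ))
      = (IsScalarTower.toAlgHom ℂ Hol Mer).toLinearMap ∘ famH A B s p := by
    ext1 i
    exact (algebraMap_famH hx s p i).symm
  rw [h2] at h1
  refine not_linearIndependent_of_isMFH N (s + m * p) (famH A B s p)
    (isMFH_famH N m hA hB s p) ?_ h1.of_comp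
  rw [Fintype.card_prod, Fintype.card_fin, Fintype.card_fin, ← hp, hs]
  nlinarith

theorem iota_jN (N : ℕ) [NeZero N] : iota N (jN N) = algebraMap Hol Mer jH := by
  rw [jN, iota_jF, jHd_one]

theorem not_linearIndependent_FN (N : ℕ) [NeZero N] (θ : FN N) :
    ∃ s : ℕ, ¬ LinearIndependent Kb (fun i : Fin (s + 1) × Fin (Nat.card (QN N) + 1) =>
      jN N ^ (i.1 : ℕ) * θ ^ (i.2 : ℕ)) := by
  obtain ⟨s, hs⟩ := not_linearIndependent_pow N θ
  refine ⟨s, fun hli => hs ?_⟩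
  have h1 := (linearIndependent_equiv finProdFinEquiv.symm).mpr hli
  have h2 := iota_linearIndependent N _ _ h1
  have h3 := (linearIndependent_equiv finProdFinEquiv).mpr h2
  convert h3 using 1
  ext1 i
  simp only [Function.comp_apply, Equiv.symm_apply_apply, map_mul, map_pow, iota_jN]

open Polynomial in
theorem exists_poly_of_not_linearIndependent (N : ℕ) (θ : FN N) (s p : ℕ)
    (hs : ¬ LinearIndependent Kb (fun i : Fin (s + 1) × Fin (p + 1) =>
      jN N ^ (i.1 : ℕ) * θ ^ (i.2 : ℕ))) :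
    ∃ R : Polynomial Kb⟮jN N⟯, R ≠ 0 ∧ R.natDegree ≤ p ∧ Polynomial.aeval θ R = 0 := by
  rw [Fintype.not_linearIndependent_iff] at hs
  obtain ⟨d, hd, ⟨i₀, hi₀⟩⟩ := hs
  let γ : Kb⟮jN N⟯ := AdjoinSimple.gen Kb (jN N)
  let P : Fin (p + 1) → Polynomial Kb := fun b => ∑ a : Fin (s + 1), C (d (a, b)) * X ^ (a : ℕ)
  let R : Polynomial Kb⟮jN N⟯ := ∑ b : Fin (p + 1), C (aeval γ (P b)) * X ^ (b : ℕ)
  have hcoeffP : ∀ (b : Fin (p + 1)) (a : Fin (s + 1)), (P b).coeff a = d (a, b) := by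
    intro b a
    simp only [P, finsetSum_coeff, coeff_C_mul_X_pow]
    rw [Finset.sum_eq_single a]
    · simp
    · intro a' _ ha'
      rw [if_neg]
      intro h
      exact ha' (Fin.ext h.symm)
    · simp
  have hcoeffR : ∀ b : Fin (p + 1), R.coeff b = aeval γ (P b) := by
    intro b
    simp only [R, finsetSum_coeff, coeff_C_mul_X_pow]
    rw [Finset.sum_eq_single b]
    · simp
    · intro b' _ hb'
      rw [if_neg]
      intro h
      exact hb' (Fin.ext h.symm)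
    · simp
  have hγ : ∀ Q : Polynomial Kb, algebraMap Kb⟮jN N⟯ (FN N) (aeval γ Q) = aeval (jN N) Q := by
    intro Q
    rw [← aeval_algebraMap_apply, AdjoinSimple.algebraMap_gen]
  refine ⟨R, ?_, ?_, ?_⟩
  · intro hR
    have h1 : aeval γ (P i₀.2) = 0 := by rw [← hcoeffR, hR]; simp
    have h2 : aeval (jN N) (P i₀.2) = 0 := by rw [← hγ, h1, map_zero]
    have h3 : P i₀.2 = 0 := (transcendental_iff.mp (transcendental_jN N)) _ h2
    apply hi₀
    have := hcoeffP i₀.2 i₀.1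
    rw [h3] at this
    simpa using this.symm
  · apply natDegree_sum_le_of_forall_le
    intro b _
    exact (natDegree_C_mul_X_pow_le _ _).trans (Nat.lt_succ_iff.mp b.2)
  · have e1 : aeval θ R = ∑ b : Fin (p + 1), aeval (jN N) (P b) * θ ^ (b : ℕ) := by
      simp only [R, map_sum, map_mul, aeval_C, map_pow, aeval_X]
      refine Finset.sum_congr rfl fun b _ => ?_
      rw [hγ]
    rw [e1, ← hd, Fintype.sum_prod_type_right]
    refine Finset.sum_congr rfl fun b _ => ?_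
    simp only [P, map_sum, map_mul, aeval_C, map_pow, aeval_X]
    rw [Finset.sum_mul]
    refine Finset.sum_congr rfl fun a _ => ?_
    rw [Algebra.smul_def]
    ring

theorem exists_poly_FN (N : ℕ) [NeZero N] (θ : FN N) :
    ∃ R : Polynomial Kb⟮jN N⟯, R ≠ 0 ∧ R.natDegree ≤ Nat.card (QN N) ∧
      Polynomial.aeval θ R = 0 := by
  obtain ⟨s, hs⟩ := not_linearIndependent_FN N θ
  exact exists_poly_of_not_linearIndependent N θ s _ hs

end Fermat.Agent.S24
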