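import Fermat.Agent.S24.Places
import Fermat.Agent.S24.DiffGlobal

set_option autoImplicit false
set_option linter.unusedSectionVars false

open AlgebraicCurve IntermediateField KaehlerDifferential

namespace Fermat.Agent.S24

open Fermat.Agent.S24.Diff

variable {K F : Type*} [Field K] [Field F] [Algebra K F] [IsAlgClosed K] [CharZero K]

theorem exists_kaehler_ne_zero
    (x : F) (hx : Transcendental K x) (hfin : FiniteDimensional K⟮x⟯ F) :
    ∃ ω : Ω[F⁄K], ω ≠ 0 := by
  obtain ⟨e, he⟩ := exists_kaehler_equiv x hx inferInstance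
  refine ⟨D K F x, fun h => ?_⟩
  rw [h, map_zero] at he
  exact zero_ne_one he

theorem degree_canonicalDivisorOf
    [HasCanonicalDivisor (K := K) (F := F)]
    (x : F) (hx : Transcendental K x) (hfin : FiniteDimensional K⟮x⟯ F)
    (c₀ c₁ : K) (hc : c₀ ≠ c₁)
    (hgen : ∀ c : K, c ≠ c₀ → c ≠ c₁ → ∀ v : Place K F,
      0 < v.ord (x - algebraMap K F c) → v.ord (x - algebraMap K F c) = 1)
    {ω : Ω[F⁄K]} (hω : ω ≠ 0) :
    Divisor.degree (canonicalDivisorOf hω) =
      (Module.finrank K⟮x⟯ F : ℤ)
        - Nat.card {v : Place K F // 0 < v.ord (x - algebraMap K F c₀)}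
        - Nat.card {v : Place K F // 0 < v.ord (x - algebraMap K F c₁)}
        - Nat.card {v : Place K F // v.ord x < 0} := by
  obtain ⟨e, he⟩ := exists_kaehler_equiv x hx inferInstance
  have hf : e ω ≠ 0 := fun h => hω (e.map_eq_zero_iff.mp h)
  have hrep : ω = e ω • D K F x := by
    apply e.injective
    rw [map_smul, he, smul_eq_mul, mul_one]
  have hDx : D K F x ≠ 0 := by
    intro h
    rw [h, map_zero] at he
    exact zero_ne_one he
  have hpt : ∀ v : Place K F, canonicalDivisorOf hω v =
      v.ord (e ω) + v.ordDifferential (D K F x) := by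
    intro v
    obtain ⟨h1, h2, -⟩ := local_package x hx hfin v
    have h3 : v.differentialCoeff (D K F x) ≠ 0 := by
      intro h0
      apply hDx
      rw [← v.differentialCoeff_smul_dCoord (D K F x), h0, zero_smul]
    rw [canonicalDivisorOf_apply, ← v.ordDifferential_smul hf h3, ← hrep]
  obtain ⟨hs1, hsum1⟩ := finsum_ord_eq_zero x hfin (e ω) hf
  obtain ⟨hs2, hsum2⟩ := finsum_ordDifferential_D x hx hfin c₀ c₁ hc hgen
  rw [degree_eq_finsum x hx hfin, finsum_congr hpt, finsum_add_distrib hs1 hs2, hsum1, hsum2,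
    zero_add]

end Fermat.Agent.S24
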