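import Fermat.Agent.S24.Interior
import Fermat.Agent.S24.Cusp
import Fermat.Agent.S24.Diff
import Fermat.Agent.S24.Orbits

set_option autoImplicit false

open UpperHalfPlane ModularForm EisensteinSeries WithZero ModularCurve AlgebraicCurve
open IntermediateField
open scoped MatrixGroups Manifold

noncomputable section

namespace Fermat.Agent.S24

theorem genus_eq (N : ℕ) [NeZero N]
    [AlgebraicCurve.HasCanonicalDivisor (K := AlgebraicClosure ℚ)
      (F := ↥(ModularCurve.modularFunctionFieldBar N))] :
    (AlgebraicCurve.genus (AlgebraicClosure ℚ) ↥(ModularCurve.modularFunctionFieldBar N) : ℚ)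
      = ModularCurve.genusFormula N := by
  have hx := transcendental_jN N
  have hfin := finiteDimensional_FN N
  have hex := exists_kaehler_ne_zero (K := Kb) (jN N) hx hfin
  have hdeg := degree_canonicalDivisorOf (K := Kb) (jN N) hx hfin 0 1728 (by norm_num)
    (fun c h0 h1 v hv => ord_jN_sub_eq_one N c h0 h1 v hv) hex.choose_spec
  rw [finrank_FN, card_zeros_jN, card_zeros_jN_sub_1728, card_poles_jN] at hdeg
  unfold AlgebraicCurve.genus
  rw [dif_pos hex, hdeg]
  have e1 := card_QN N
  have e2 := two_mul_rOrb_S N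
  have e3 := three_mul_rOrb_ST N
  have e4 := rOrb_T N
  have e5 := even_card_add_rOrb N
  have e6 := rOrb_add_le N
  unfold rOrb at e2 e3 e4 e5 e6
  set n := Nat.card (QN N) with hn
  set r2 := Nat.card (MulAction.orbitRel.Quotient (Subgroup.zpowers ModularGroup.S) (QN N))
  set r3 := Nat.card (MulAction.orbitRel.Quotient
        (Subgroup.zpowers (ModularGroup.S * ModularGroup.T)) (QN N))
  set rT := Nat.card (MulAction.orbitRel.Quotient (Subgroup.zpowers ModularGroup.T) (QN N))
  obtain ⟨m, hm⟩ := e5
  have h1 : ((n : ℤ) - r3 - r2 - rT + 2).toNat = 2 * (n + 1 - m) := by omega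
  rw [h1, Nat.mul_div_cancel_left _ (by norm_num)]
  unfold genusFormula
  have hle : m ≤ n + 1 := by omega
  rw [Nat.cast_sub hle]
  have e2' : (2 : ℚ) * r2 = dedekindPsi N + nuTwo N := by exact_mod_cast e2
  have e3' : (3 : ℚ) * r3 = dedekindPsi N + 2 * nuThree N := by exact_mod_cast e3
  have e4' : (rT : ℚ) = cuspCount N := by exact_mod_cast e4
  have e1' : (n : ℚ) = dedekindPsi N := by exact_mod_cast e1
  have hm' : (n : ℚ) + r2 + r3 + rT = m + m := by exact_mod_cast hm
  push_cast
  linarith

end Fermat.Agent.S24
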