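import Fermat.Agent.S24.IotaRing
import Fermat.Prelude.Sol.S_ModularCurve_coeff_jqModC_neg_one

set_option autoImplicit false

open UpperHalfPlane ModularForm EisensteinSeries WithZero ModularCurve AlgebraicCurve
open scoped MatrixGroups Manifold Topology

noncomputable section

namespace Fermat.Agent.S24

theorem FN_le_range (N : ℕ) (x : LaurentSeries Kb) (hx : x ∈ modularFunctionFieldBar N) :
    x ∈ phiS.fieldRange :=
  mem_of_FN N phiS.fieldRange (fun a => RingHom.mem_fieldRange.mpr ⟨_, phiS_cstB a⟩)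
    (fun d _ _ => RingHom.mem_fieldRange.mpr ⟨_, phiS_jQ d⟩) x hx

/-- the function field inside the fraction field of the pullback ring -/
def iotaQ (N : ℕ) : FN N →+* Qq :=
  (phiS.rangeRestrictFieldEquiv.symm : phiS.fieldRange →+* Qq).comp
    { toFun := fun x => ⟨x.1, FN_le_range N x.1 x.2⟩
      map_one' := rfl
      map_mul' := fun _ _ => rfl
      map_zero' := rfl
      map_add' := fun _ _ => rfl }

theorem phiS_iotaQ (N : ℕ) (x : FN N) : phiS (iotaQ N x) = x.1 :=
  RingHom.rangeRestrictFieldEquiv_apply_symm_apply phiS ⟨x.1, FN_le_range N x.1 x.2⟩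

theorem iotaQ_eq (N : ℕ) (x : FN N) (y : Qq) (h : phiS y = x.1) : iotaQ N x = y :=
  phiS.injective (by rw [phiS_iotaQ, h])

theorem IsQ.smul {f : ℍ → ℂ} (hf : IsQ f) (c : ℂ) : IsQ (c • f) := (IsQ.const c).mul hf

theorem isQ_sum_smul {ι : Type*} (s : Finset ι) (c : ι → ℂ) (f : ι → ℍ → ℂ)
    (hf : ∀ i, IsQ (f i)) :
    IsQ (∑ i ∈ s, c i • f i) ∧
      qExpansion 1 (∑ i ∈ s, c i • f i) = ∑ i ∈ s, c i • qExpansion 1 (f i) := by
  classical
  induction s using Finset.induction_on with
  | empty => exact ⟨IsQ.zero, by simp [qExpansion_zero]⟩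
  | insert a s ha ih =>
    rw [Finset.sum_insert ha, Finset.sum_insert ha]
    refine ⟨((hf a).smul _).add ih.1, ?_⟩
    rw [qExpansion_add ((hf a).smul _).analytic ih.1.analytic, ih.2,
      qExpansion_smul (hf a).analytic]

theorem linearIndependent_aux (n : ℕ) (w : Fin n → PowerSeries Kb)
    (hw : ∀ l : Fin n → Kb, ∑ i, PowerSeries.C (l i) * w i = 0 → ∀ i, l i = 0)
    (c : Fin n → ℂ) (hc : ∑ i, c i • (w i).map kappa = 0) (i : Fin n) : c i = 0 := by
  let _ : Algebra Kb ℂ := kappa.toAlgebra
  rw [← Module.forall_dual_apply_eq_zero_iff Kb]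
  intro φ
  refine hw (fun i => φ (c i)) ?_ i
  ext m
  have h1 := congrArg (PowerSeries.coeff m) hc
  simp only [map_sum, PowerSeries.coeff_smul, PowerSeries.coeff_map, map_zero, smul_eq_mul] at h1
  have h2 := congrArg φ h1
  rw [map_sum, map_zero] at h2
  simp only [map_sum, PowerSeries.coeff_C_mul, map_zero]
  rw [← h2]
  refine Finset.sum_congr rfl fun j _ => ?_
  have : c j * kappa ((w j).coeff m) = ((w j).coeff m) • c j := by
    rw [Algebra.smul_def, mul_comm]; rfl
  rw [this, map_smul, smul_eq_mul, mul_comm]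


theorem exists_iota (N : ℕ) [NeZero N] : ∃ ι : FN N →+* Mer,
    (∀ a : Kb, ι (algebraMap Kb (FN N) a) = algebraMap ℂ Mer (kappa a)) ∧
    (∀ (d : ℕ) [NeZero d] (hd : d ∣ N), ι (jF N d hd) = algebraMap Hol Mer (jHd d)) ∧
    (∀ (n : ℕ) (v : Fin n → FN N), LinearIndependent Kb v →
      LinearIndependent ℂ (fun i => ι (v i))) := by
  refine ⟨phiH.comp (iotaQ N), fun a => ?_, fun d _ hd => ?_, fun n v hv => ?_⟩
  · rw [RingHom.comp_apply, iotaQ_eq N _ _ (phiS_cstB a), phiH_cstB]
  · rw [RingHom.comp_apply, iotaQ_eq N _ _ (phiS_jQ d), phiH_jQ]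
  · rw [Fintype.linearIndependent_iff] at hv ⊢
    intro c hc
    obtain ⟨b, hb⟩ := IsLocalization.exist_integer_multiples_of_finite (nonZeroDivisors Bq)
      (fun i => iotaQ N (v i))
    choose a ha using hb
    have hb0 : algebraMap Bq Qq (b : Bq) ≠ 0 := by
      rw [Ne, IsFractionRing.to_map_eq_zero_iff]
      exact nonZeroDivisors.ne_zero b.2
    have ha' : ∀ i, algebraMap Bq Qq (a i) = algebraMap Bq Qq (b : Bq) * iotaQ N (v i) := by
      intro i
      rw [ha i, Algebra.smul_def]
    -- the analytic side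
    have h1 : ∑ i, c i • prH (a i) = 0 := by
      apply IsFractionRing.injective Hol Mer
      rw [map_zero, map_sum]
      have : ∀ i, algebraMap Hol Mer (c i • prH (a i)) =
          phiH (algebraMap Bq Qq (b : Bq)) * (c i • (phiH.comp (iotaQ N)) (v i)) := by
        intro i
        rw [Algebra.smul_def, map_mul, ← phiH_algebraMap, ha' i, map_mul, Algebra.smul_def,
          ← IsScalarTower.algebraMap_apply ℂ Hol Mer, RingHom.comp_apply]
        ring
      simp only [this]
      rw [← Finset.mul_sum, hc, mul_zero]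
    have h2 : ∑ i, c i • (a i).1.1 = 0 := by
      have := congrArg Subtype.val h1
      simp only [AddSubmonoidClass.coe_finsetSum, SetLike.val_smul, ZeroMemClass.coe_zero] at this
      exact this
    have h3 : ∑ i, c i • ((a i).1.2).map kappa = 0 := by
      have := (isQ_sum_smul Finset.univ c (fun i => (a i).1.1) (fun i => (a i).2.1)).2
      rw [h2, qExpansion_zero] at this
      rw [this]
      exact Finset.sum_congr rfl fun i _ => by rw [(a i).2.2]
    refine linearIndependent_aux n (fun i => (a i).1.2) ?_ c h3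
    intro l hl
    apply hv
    apply Subtype.ext
    have hB : phiS (algebraMap Bq Qq (b : Bq)) ≠ 0 := (map_ne_zero phiS).mpr hb0
    apply mul_left_cancel₀ hB
    have h4 := congrArg (HahnSeries.ofPowerSeries ℤ Kb) hl
    rw [map_sum, map_zero] at h4
    rw [ZeroMemClass.coe_zero, mul_zero, ← h4, AddSubmonoidClass.coe_finsetSum, Finset.mul_sum]
    refine Finset.sum_congr rfl fun i _ => ?_
    have h5 : HahnSeries.ofPowerSeries ℤ Kb (a i).1.2 =
        phiS (algebraMap Bq Qq (b : Bq)) * (v i).1 := by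
      rw [← phiS_iotaQ, ← map_mul, ← ha' i, phiS_algebraMap]
      rfl
    rw [map_mul, h5, HahnSeries.ofPowerSeries_C]
    have h6 : ((l i • v i : FN N) : LaurentSeries Kb) =
        algebraMap Kb (LaurentSeries Kb) (l i) * (v i).1 := by
      rw [Algebra.smul_def]; rfl
    rw [h6, algebraMap_laurentSeries_eq_single]
    show _ = HahnSeries.single 0 (l i) * _
    ring

/-- the embedding of the function field into the field of meromorphic functions -/
def iota (N : ℕ) [NeZero N] : FN N →+* Mer := (exists_iota N).choose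

theorem iota_algebraMap (N : ℕ) [NeZero N] (a : Kb) :
    iota N (algebraMap Kb (FN N) a) = algebraMap ℂ Mer (kappa a) :=
  (exists_iota N).choose_spec.1 a

theorem iota_jF (N : ℕ) [NeZero N] (d : ℕ) [NeZero d] (hd : d ∣ N) :
    iota N (jF N d hd) = algebraMap Hol Mer (jHd d) :=
  (exists_iota N).choose_spec.2.1 d hd

theorem iota_linearIndependent (N : ℕ) [NeZero N] (n : ℕ) (v : Fin n → FN N)
    (hv : LinearIndependent Kb v) : LinearIndependent ℂ (fun i => iota N (v i)) :=
  (exists_iota N).choose_spec.2.2 n v hv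

theorem adjoin_jF (N : ℕ) [NeZero N] :
    IntermediateField.adjoin Kb
      {x : FN N | ∃ (d : ℕ) (_ : NeZero d) (hd : d ∣ N), x = jF N d hd} = ⊤ := by
  rw [eq_top_iff]
  rintro ⟨x, hx⟩ -
  have := mem_of_FN N ((IntermediateField.adjoin Kb
      {x : FN N | ∃ (d : ℕ) (_ : NeZero d) (hd : d ∣ N), x = jF N d hd}).map
        (modularFunctionFieldBar N).val).toSubfield
    (fun a => IntermediateField.algebraMap_mem _ a)
    (fun d _ hd => ⟨jF N d hd, IntermediateField.subset_adjoin _ _ ⟨d, inferInstance, hd, rfl⟩, rfl⟩)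
    x hx
  obtain ⟨y, hy, hxy⟩ := this
  have : y = ⟨x, hx⟩ := Subtype.ext hxy
  rw [← this]
  exact hy

theorem transcendental_jN (N : ℕ) : Transcendental Kb (jN N) := by
  have h1 : algebraMap (FN N) (LaurentSeries Kb) (jN N) = jqModC Kb := by
    show coeffEmb Kb (qExpand ℚ 1 jq) = jqModC Kb
    rw [qExpand_one_apply]
    exact map_jqModC (algebraMap ℚ Kb)
  rw [← transcendental_algebraMap_iff (A := LaurentSeries Kb)
    (algebraMap (FN N) (LaurentSeries Kb)).injective, h1]
  exact P2MW.S_ModularCurve_coeff_jqModC_neg_one.ModularCurve.CharLRows.transcendental_jqModC Kb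

end Fermat.Agent.S24
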