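import Fermat.Agent.S24.QExp

set_option autoImplicit false

open UpperHalfPlane ModularForm EisensteinSeries WithZero ModularCurve AlgebraicCurve
open scoped MatrixGroups Manifold Topology

noncomputable section

namespace Fermat.Agent.S24

theorem map_kappa_injective : Function.Injective (PowerSeries.map kappa) :=
  PowerSeries.map_injective kappa kappa.injective

/-- pairs (function, power series over `Kb`) with matching `q`-expansion -/
def Bq : Subring ((ℍ → ℂ) × PowerSeries Kb) where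
  carrier := {p | IsQ p.1 ∧ qExpansion 1 p.1 = p.2.map kappa}
  mul_mem' := fun {p r} hp hr => ⟨hp.1.mul hr.1, by
    show qExpansion 1 (p.1 * r.1) = (p.2 * r.2).map kappa
    rw [qExpansion_mul hp.1.analytic hr.1.analytic, hp.2, hr.2, map_mul]⟩
  one_mem' := ⟨IsQ.one, by
    show qExpansion 1 (1 : ℍ → ℂ) = (1 : PowerSeries Kb).map kappa
    rw [qExpansion_one, map_one]⟩
  add_mem' := fun {p r} hp hr => ⟨hp.1.add hr.1, by
    show qExpansion 1 (p.1 + r.1) = (p.2 + r.2).map kappa
    rw [qExpansion_add hp.1.analytic hr.1.analytic, hp.2, hr.2, map_add]⟩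
  zero_mem' := ⟨IsQ.zero, by
    show qExpansion 1 (0 : ℍ → ℂ) = (0 : PowerSeries Kb).map kappa
    rw [qExpansion_zero, map_zero]⟩
  neg_mem' := fun {p} hp => ⟨hp.1.neg, by
    show qExpansion 1 (-p.1) = (-p.2).map kappa
    rw [qExpansion_neg hp.1.analytic, hp.2, map_neg]⟩

theorem mem_Bq {p : (ℍ → ℂ) × PowerSeries Kb} :
    p ∈ Bq ↔ IsQ p.1 ∧ qExpansion 1 p.1 = p.2.map kappa := Iff.rfl

/-- first projection -/
def prH : Bq →+* Hol where
  toFun p := ⟨p.1.1, p.2.1.holo⟩
  map_one' := rfl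
  map_mul' _ _ := rfl
  map_zero' := rfl
  map_add' _ _ := rfl

/-- second projection -/
def prS : Bq →+* PowerSeries Kb where
  toFun p := p.1.2
  map_one' := rfl
  map_mul' _ _ := rfl
  map_zero' := rfl
  map_add' _ _ := rfl

theorem prS_injective : Function.Injective prS := by
  rw [injective_iff_map_eq_zero]
  intro p hp
  have h2 : p.1.2 = 0 := hp
  have h1 : p.1.1 = 0 := p.2.1.eq_zero_of_qExpansion (by rw [p.2.2, h2, map_zero])
  exact Subtype.ext (Prod.ext h1 h2)

theorem prH_injective : Function.Injective prH := by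
  rw [injective_iff_map_eq_zero]
  intro p hp
  have h1 : p.1.1 = 0 := congrArg Subtype.val hp
  have h2 : p.1.2 = 0 := by
    apply map_kappa_injective
    rw [← p.2.2, h1, qExpansion_zero, map_zero]
  exact Subtype.ext (Prod.ext h1 h2)

instance : IsDomain Bq := prS_injective.isDomain prS

/-- fraction field of the pullback ring -/
abbrev Qq : Type := FractionRing Bq

theorem algebraMap_prH_injective :
    Function.Injective ((algebraMap Hol Mer).comp prH) :=
  (IsFractionRing.injective Hol Mer).comp prH_injective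

theorem ofPowerSeries_prS_injective :
    Function.Injective ((HahnSeries.ofPowerSeries ℤ Kb).comp prS) :=
  (HahnSeries.ofPowerSeries_injective).comp prS_injective

/-- to meromorphic functions -/
def phiH : Qq →+* Mer := IsFractionRing.lift algebraMap_prH_injective

/-- to Laurent series -/
def phiS : Qq →+* LaurentSeries Kb := IsFractionRing.lift ofPowerSeries_prS_injective

theorem phiH_algebraMap (p : Bq) : phiH (algebraMap Bq Qq p) = algebraMap Hol Mer (prH p) :=
  IsFractionRing.lift_algebraMap _ _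

theorem phiS_algebraMap (p : Bq) :
    phiS (algebraMap Bq Qq p) = HahnSeries.ofPowerSeries ℤ Kb (prS p) :=
  IsFractionRing.lift_algebraMap _ _

/-- constants -/
def cstB (a : Kb) : Bq := ⟨(fun _ => kappa a, PowerSeries.C a), IsQ.const _, by
  show qExpansion 1 (fun _ : ℍ => kappa a) = (PowerSeries.C a).map kappa
  rw [qExpansion_const, PowerSeries.map_C]⟩

/-- `s(q^d)` with coefficients cast to `R` -/
def expandK (R : Type) [CommRing R] (d : ℕ) (s : PowerSeries ℤ) : PowerSeries R :=
  PowerSeries.mk fun m => if d ∣ m then ((s.coeff (m / d) : ℤ) : R) else 0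

theorem expandK_map_kappa (d : ℕ) (s : PowerSeries ℤ) :
    (expandK Kb d s).map kappa = expandK ℂ d s := by
  ext m
  simp only [expandK, PowerSeries.coeff_map, PowerSeries.coeff_mk]
  split_ifs <;> simp

/-- an element of the pullback ring from a function with integral `q`-expansion -/
def scaleB (f : ℍ → ℂ) (s : PowerSeries ℤ) (hf : IsQ f)
    (hs : qExpansion 1 f = s.map (Int.castRingHom ℂ)) (d : ℕ) [NeZero d] : Bq :=
  ⟨(f ∘ scaleH d, expandK Kb d s), hf.scale d, by
    show qExpansion 1 (f ∘ scaleH d) = (expandK Kb d s).map kappa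
    rw [expandK_map_kappa]
    ext m
    rw [qExpansion_scale_coeff hf, hs]
    simp [expandK]⟩


theorem isQ_discriminant : IsQ discriminant :=
  ⟨CuspForm.discriminant.holo', SlashInvariantFormClass.periodic_comp_ofComplex CuspForm.discriminant
      one_mem_strictPeriods_SL,
    ModularFormClass.bdd_at_infty CuspForm.discriminant⟩

theorem ofPowerSeries_expandK (d : ℕ) [NeZero d] (s : PowerSeries ℤ) :
    HahnSeries.ofPowerSeries ℤ Kb (expandK Kb d s) =
      coeffEmb Kb (qExpand ℚ d (HahnSeries.ofPowerSeries ℤ ℚ (s.map (Int.castRingHom ℚ)))) := by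
  have hd : (0 : ℤ) < d := by exact_mod_cast Nat.pos_of_ne_zero (NeZero.ne d)
  ext k
  rw [coeffEmb_coeff]
  rcases lt_or_ge k 0 with hk | hk
  · rw [ofPowerSeries_coeff_of_neg _ hk]
    by_cases hdk : (d : ℤ) ∣ k
    · obtain ⟨m, rfl⟩ := hdk
      rw [qExpand_coeff_mul, ofPowerSeries_coeff_of_neg _ (by nlinarith), map_zero]
    · rw [qExpand_coeff_of_not_dvd _ _ hdk, map_zero]
  · lift k to ℕ using hk
    rw [HahnSeries.ofPowerSeries_apply_coeff, expandK, PowerSeries.coeff_mk]
    by_cases hdk : d ∣ k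
    · obtain ⟨m, rfl⟩ := hdk
      rw [if_pos (dvd_mul_right _ _), Nat.mul_div_cancel_left _ (Nat.pos_of_ne_zero (NeZero.ne d))]
      push_cast
      rw [qExpand_coeff_mul, HahnSeries.ofPowerSeries_apply_coeff, PowerSeries.coeff_map]
      simp
    · rw [if_neg hdk, qExpand_coeff_of_not_dvd _ _ (by exact_mod_cast hdk), map_zero]

theorem jq_mul_delta :
    jq * HahnSeries.ofPowerSeries ℤ ℚ ((PowerSeries.X * dedekindEtaUnit).map (Int.castRingHom ℚ)) =
      HahnSeries.ofPowerSeries ℤ ℚ (eisenstein4.map (Int.castRingHom ℚ)) ^ 3 := by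
  have h1 : jNumQ * dedekindEtaUnit.map (Int.castRingHom ℚ) =
      (eisenstein4.map (Int.castRingHom ℚ)) ^ 3 := by
    rw [jNumQ, jNum, ← map_mul, mul_assoc, mul_comm dedekindEtaUnitInv, dedekindEtaUnit_mul_inv,
      mul_one, map_pow]
  rw [jq, map_mul, map_mul, PowerSeries.map_X, HahnSeries.ofPowerSeries_X, ← map_pow, ← h1, map_mul]
  have h2 : (HahnSeries.single (-1 : ℤ) (1 : ℚ)) * HahnSeries.single (1 : ℤ) (1 : ℚ) = 1 := by
    rw [HahnSeries.single_mul_single]
    simp
  calc _ = (HahnSeries.single (-1 : ℤ) (1 : ℚ) * HahnSeries.single (1 : ℤ) (1 : ℚ)) *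
        (HahnSeries.ofPowerSeries ℤ ℚ jNumQ *
          HahnSeries.ofPowerSeries ℤ ℚ (dedekindEtaUnit.map (Int.castRingHom ℚ))) := by ring
    _ = _ := by rw [h2, one_mul]

/-- `E₄(dτ)` -/
def e4B (d : ℕ) [NeZero d] : Bq :=
  scaleB E₄ eisenstein4 (isQ_of_modularForm E₄) qExpansion_E₄ d

/-- `Δ(dτ)` -/
def deltaB (d : ℕ) [NeZero d] : Bq :=
  scaleB discriminant (PowerSeries.X * dedekindEtaUnit) isQ_discriminant qExpansion_discriminant d

theorem deltaB_ne_zero (d : ℕ) [NeZero d] : deltaB d ≠ 0 := by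
  intro h
  have h1 : (deltaB d).1.1 I = 0 := by rw [h]; rfl
  exact discriminant_ne_zero _ h1

theorem jHd_mul_deltaB (d : ℕ) [NeZero d] : jHd d * prH (deltaB d) = prH (e4B d) ^ 3 := by
  ext τ
  show (E₄ (scaleH d τ) ^ 3 / discriminant (scaleH d τ)) * discriminant (scaleH d τ) =
    E₄ (scaleH d τ) ^ 3
  exact div_mul_cancel₀ _ (discriminant_ne_zero _)

/-- the element of `Qq` giving `j(dτ)` -/
def jQ (d : ℕ) [NeZero d] : Qq := algebraMap Bq Qq (e4B d) ^ 3 / algebraMap Bq Qq (deltaB d)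

theorem algebraMap_deltaB_ne_zero (d : ℕ) [NeZero d] : algebraMap Bq Qq (deltaB d) ≠ 0 := by
  rw [Ne, IsFractionRing.to_map_eq_zero_iff]
  exact deltaB_ne_zero d

theorem phiH_jQ (d : ℕ) [NeZero d] : phiH (jQ d) = algebraMap Hol Mer (jHd d) := by
  have h0 : phiH (algebraMap Bq Qq (deltaB d)) ≠ 0 :=
    (map_ne_zero phiH).mpr (algebraMap_deltaB_ne_zero d)
  rw [jQ, map_div₀, map_pow, div_eq_iff h0, phiH_algebraMap, phiH_algebraMap, ← map_mul, ← map_pow,
    jHd_mul_deltaB]

theorem phiS_jQ (d : ℕ) [NeZero d] : phiS (jQ d) = coeffEmb Kb (qExpand ℚ d jq) := by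
  have h0 : phiS (algebraMap Bq Qq (deltaB d)) ≠ 0 :=
    (map_ne_zero phiS).mpr (algebraMap_deltaB_ne_zero d)
  rw [jQ, map_div₀, map_pow, div_eq_iff h0, phiS_algebraMap, phiS_algebraMap]
  show HahnSeries.ofPowerSeries ℤ Kb (expandK Kb d eisenstein4) ^ 3 =
    _ * HahnSeries.ofPowerSeries ℤ Kb (expandK Kb d (PowerSeries.X * dedekindEtaUnit))
  rw [ofPowerSeries_expandK, ofPowerSeries_expandK, ← map_mul, ← map_mul, jq_mul_delta, map_pow,
    map_pow]

theorem phiH_cstB (a : Kb) : phiH (algebraMap Bq Qq (cstB a)) = algebraMap ℂ Mer (kappa a) := by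
  rw [phiH_algebraMap, IsScalarTower.algebraMap_apply ℂ Hol Mer]
  rfl

theorem phiS_cstB (a : Kb) :
    phiS (algebraMap Bq Qq (cstB a)) = algebraMap Kb (LaurentSeries Kb) a := by
  rw [phiS_algebraMap, algebraMap_laurentSeries_eq_single]
  show HahnSeries.ofPowerSeries ℤ Kb (PowerSeries.C a) = _
  rw [HahnSeries.ofPowerSeries_C]
  rfl

/-- induction principle for the function field -/
theorem mem_of_FN (N : ℕ) (S : Subfield (LaurentSeries Kb))
    (hc : ∀ a : Kb, algebraMap Kb (LaurentSeries Kb) a ∈ S)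
    (hj : ∀ (d : ℕ) [NeZero d], d ∣ N → coeffEmb Kb (qExpand ℚ d jq) ∈ S)
    (x : LaurentSeries Kb) (hx : x ∈ modularFunctionFieldBar N) : x ∈ S := by
  rw [mem_laurentBaseChange_iff] at hx
  refine (Subfield.closure_le (t := S)).mpr ?_ hx
  rintro y (⟨a, rfl⟩ | ⟨z, hz, rfl⟩)
  · exact hc a
  · have hz' : z ∈ Subfield.closure
        (Set.range (algebraMap ℚ (LaurentSeries ℚ)) ∪ divisorExpansions N) := hz
    have : Subfield.closure
        (Set.range (algebraMap ℚ (LaurentSeries ℚ)) ∪ divisorExpansions N) ≤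
        S.comap (coeffEmb Kb) := by
      rw [Subfield.closure_le]
      rintro w (⟨c, rfl⟩ | ⟨d, hd, hdN, rfl⟩)
      · show coeffEmb Kb (algebraMap ℚ (LaurentSeries ℚ) c) ∈ S
        rw [eq_ratCast, map_ratCast]
        exact SubfieldClass.ratCast_mem S c
      · exact hj d hdN
    exact this hz'

end Fermat.Agent.S24
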