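import Fermat.Agent.S24.ModDefs

set_option autoImplicit false

open UpperHalfPlane ModularForm EisensteinSeries WithZero Filter Topology
open scoped MatrixGroups Manifold

noncomputable section

namespace Fermat.Agent.S24

theorem ordAt_algebraMap (τ : ℍ) (f : Hol) : ordAt τ (algebraMap Hol Mer f) = holVal τ f := by
  exact Valuation.extendToLocalization_apply_map_apply _ _ _ _

theorem merAct_algebraMap (g : SL(2, ℤ)) (f : Hol) :
    merAct g (algebraMap Hol Mer f) = algebraMap Hol Mer (holAct g f) := by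
  exact IsFractionRing.ringEquivOfRingEquiv_algebraMap _ _

namespace MerAux

theorem exists_div (x : Mer) : ∃ a b : Hol, b ≠ 0 ∧ x = algebraMap Hol Mer a / algebraMap Hol Mer b := by
  obtain ⟨a, b, hb, rfl⟩ := IsFractionRing.div_surjective Hol x
  exact ⟨a, b, nonZeroDivisors.ne_zero hb, rfl⟩

theorem algebraMap_ne_zero {b : Hol} (hb : b ≠ 0) : algebraMap Hol Mer b ≠ 0 := by
  intro h
  exact hb ((IsFractionRing.injective Hol Mer) (by rw [h, map_zero]))

theorem holAct_one (f : Hol) : holAct 1 f = f := by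
  ext τ
  simp

theorem holAct_mul (g h : SL(2, ℤ)) (f : Hol) : holAct (g * h) f = holAct g (holAct h f) := by
  ext τ
  simp [mul_smul]

theorem analyticAt_hol (τ : ℍ) (f : Hol) : AnalyticAt ℂ ((f : ℍ → ℂ) ∘ ofComplex) (τ : ℂ) :=
  (UpperHalfPlane.mdifferentiable_iff.mp f.2).analyticAt
    (isOpen_upperHalfPlaneSet.mem_nhds τ.im_pos)

theorem expNeg_eq_one_iff {a : WithTop ℤ} : expNeg a = 1 ↔ a = 0 := by
  induction a using WithTop.recTopCoe with
  | top => simp
  | coe a =>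
    rw [expNeg_coe, ← exp_zero, exp_inj]
    constructor
    · intro h
      have : a = 0 := by omega
      simp [this]
    · intro h
      have : a = 0 := by exact_mod_cast h
      omega

theorem holOrd_nonneg (τ : ℍ) (f : Hol) : 0 ≤ holOrd τ f :=
  (analyticAt_hol τ f).meromorphicOrderAt_nonneg

theorem holOrd_eq_zero_iff (τ : ℍ) (f : Hol) : holOrd τ f = 0 ↔ (f : ℍ → ℂ) τ ≠ 0 := by
  rw [holOrd, (analyticAt_hol τ f).meromorphicOrderAt_eq]
  have h : analyticOrderAt ((f : ℍ → ℂ) ∘ ofComplex) (τ : ℂ) = 0 ↔ (f : ℍ → ℂ) τ ≠ 0 := by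
    rw [(analyticAt_hol τ f).analyticOrderAt_eq_zero]
    simp
  rw [← h]
  cases hn : analyticOrderAt ((f : ℍ → ℂ) ∘ ofComplex) (τ : ℂ) with
  | top => simp
  | coe n => simp

theorem holOrd_holAct (τ : ℍ) (g : SL(2, ℤ)) (f : Hol) :
    holOrd τ (holAct g f) = holOrd (g⁻¹ • τ) f := by
  have := UpperHalfPlane.meromorphicOrderAt_comp_smul (f := (f : ℍ → ℂ)) (τ := τ)
    (g := ((g⁻¹ : SL(2, ℤ)) : GL (Fin 2) ℝ)) (by
      rw [← Matrix.GeneralLinearGroup.val_det_apply]; simp)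
  exact this

/-- trailing coefficient of `G - G x` at a point with nonzero derivative -/
theorem trailingCoeff_sub_of_deriv_ne_zero {G : ℂ → ℂ} {x : ℂ} (hG : AnalyticAt ℂ G x)
    (hG' : deriv G x ≠ 0) :
    meromorphicTrailingCoeffAt (fun z => G z - G x) x = deriv G x := by
  have h1 := hG.analyticOrderAt_sub_eq_one_of_deriv_ne_zero hG'
  have han : AnalyticAt ℂ (fun z => G z - G x) x := by fun_prop
  obtain ⟨F, hFa, hFne, hfF⟩ := (han.analyticOrderAt_eq_natCast (n := 1)).mp (by exact_mod_cast h1)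
  have h2 : meromorphicTrailingCoeffAt (fun z => G z - G x) x = F x := by
    apply hFa.meromorphicTrailingCoeffAt_of_ne_zero_of_eq_nhdsNE (n := 1) hFne
    apply Filter.Eventually.filter_mono nhdsWithin_le_nhds
    filter_upwards [hfF] with z hz
    simpa using hz
  rw [h2]
  have h3 : G =ᶠ[𝓝 x] fun z => (z - x) ^ 1 • F z + G x := by
    filter_upwards [hfF] with z hz
    rw [← hz]; ring
  rw [h3.deriv_eq, deriv_add_const, deriv_fun_smul (by fun_prop) (by fun_prop)]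
  simp

theorem det_pos_SL (g : SL(2, ℤ)) : 0 < ((g : GL (Fin 2) ℝ)).val.det := by
  rw [← Matrix.GeneralLinearGroup.val_det_apply]; simp

theorem det_SL (g : SL(2, ℤ)) : ((g : GL (Fin 2) ℝ)).val.det = 1 := by
  rw [← Matrix.GeneralLinearGroup.val_det_apply]; simp

/-- trailing coefficient of `f ∘ g` at a fixed point of `g` -/
theorem trailingCoeff_holAct_inv (g : SL(2, ℤ)) (τ : ℍ) (hfix : g • τ = τ) (f : Hol) :
    meromorphicTrailingCoeffAt ((holAct g⁻¹ f : ℍ → ℂ) ∘ ofComplex) (τ : ℂ) =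
      ((denom (g : GL (Fin 2) ℝ) τ ^ 2)⁻¹) ^ (holOrd τ f).untop₀ *
        meromorphicTrailingCoeffAt ((f : ℍ → ℂ) ∘ ofComplex) (τ : ℂ) := by
  set G : ℂ → ℂ := fun z => ↑((g : GL (Fin 2) ℝ) • ofComplex z) with hG
  have hGan : AnalyticAt ℂ G τ := τ.analyticAt_smul (det_pos_SL g)
  have hGd : deriv G τ = (denom (g : GL (Fin 2) ℝ) τ ^ 2)⁻¹ := by
    rw [hG, UpperHalfPlane.deriv_smul (det_pos_SL g), det_SL]
    simp
  have hGne : deriv G τ ≠ 0 := τ.deriv_smul_ne_zero (det_pos_SL g)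
  have hGτ : G τ = τ := by
    have : (g : GL (Fin 2) ℝ) • τ = τ := hfix
    simp [hG, this]
  have hcomp : ((holAct g⁻¹ f : ℍ → ℂ) ∘ ofComplex) = ((f : ℍ → ℂ) ∘ ofComplex) ∘ G := by
    funext z
    simp only [Function.comp_apply, holAct_apply, inv_inv, hG, ofComplex_apply]
    rfl
  have hnc : ¬ EventuallyConst G (𝓝 (τ : ℂ)) := by
    intro hc
    apply hGne
    rw [eventuallyConst_iff_exists_eventuallyEq] at hc
    obtain ⟨c, hc⟩ := hc
    rw [hc.deriv_eq]
    simp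
  rw [hcomp, MeromorphicAt.meromorphicTrailingCoeffAt_comp (by rw [hGτ]; exact meromorphicAt_hol τ f)
    hGan hnc, trailingCoeff_sub_of_deriv_ne_zero hGan hGne, hGd, hGτ]
  rfl

end MerAux

open MerAux

theorem merAct_one : merAct 1 = RingEquiv.refl Mer := by
  ext x
  obtain ⟨a, b, hb, rfl⟩ := exists_div x
  simp [merAct_algebraMap, holAct_one]

theorem merAct_mul (g h : SL(2, ℤ)) (x : Mer) : merAct (g * h) x = merAct g (merAct h x) := by
  obtain ⟨a, b, hb, rfl⟩ := exists_div x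
  simp [merAct_algebraMap, holAct_mul]

theorem merAct_const (g : SL(2, ℤ)) (c : ℂ) :
    merAct g (algebraMap ℂ Mer c) = algebraMap ℂ Mer c := by
  rw [IsScalarTower.algebraMap_apply ℂ Hol Mer, merAct_algebraMap]
  congr 1

theorem holVal_le_one (τ : ℍ) (f : Hol) : holVal τ f ≤ 1 := by
  have := expNeg_anti (holOrd_nonneg τ f)
  rw [holVal_apply]
  exact this.trans (le_of_eq (expNeg_eq_one_iff.mpr rfl))

theorem ordAt_const (τ : ℍ) (c : ℂ) : ordAt τ (algebraMap ℂ Mer c) ≤ 1 := by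
  rw [IsScalarTower.algebraMap_apply ℂ Hol Mer, ordAt_algebraMap]
  exact holVal_le_one _ _

theorem holVal_eq_one_iff (τ : ℍ) (f : Hol) : holVal τ f = 1 ↔ (f : ℍ → ℂ) τ ≠ 0 := by
  rw [holVal_apply, expNeg_eq_one_iff, holOrd_eq_zero_iff]

/-- simple zero -/
theorem holVal_eq_exp_neg_one (τ : ℍ) (f : Hol) (h0 : (f : ℍ → ℂ) τ = 0)
    (h1 : deriv ((f : ℍ → ℂ) ∘ ofComplex) (τ : ℂ) ≠ 0) : holVal τ f = exp (-1 : ℤ) := by
  have h := (analyticAt_hol τ f).analyticOrderAt_sub_eq_one_of_deriv_ne_zero h1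
  have h2 : (fun z => ((f : ℍ → ℂ) ∘ ofComplex) z - ((f : ℍ → ℂ) ∘ ofComplex) (τ : ℂ))
      = ((f : ℍ → ℂ) ∘ ofComplex) := by
    funext z
    simp [h0]
  rw [h2] at h
  rw [holVal_apply, holOrd, (analyticAt_hol τ f).meromorphicOrderAt_eq, h]
  rfl

theorem ordAt_merAct (τ : ℍ) (g : SL(2, ℤ)) (x : Mer) :
    ordAt τ (merAct g x) = ordAt (g⁻¹ • τ) x := by
  obtain ⟨a, b, hb, rfl⟩ := exists_div x
  rw [map_div₀, map_div₀, map_div₀, merAct_algebraMap, merAct_algebraMap, ordAt_algebraMap,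
    ordAt_algebraMap, ordAt_algebraMap, ordAt_algebraMap, holVal_apply, holVal_apply,
    holVal_apply, holVal_apply, holOrd_holAct, holOrd_holAct]

namespace MerAux

theorem log_expNeg {a : WithTop ℤ} : log (expNeg a) = - a.untop₀ := by
  induction a using WithTop.recTopCoe with
  | top => simp
  | coe a => simp

theorem log_ordAt_div (τ : ℍ) {a b : Hol} (ha : a ≠ 0) (hb : b ≠ 0) :
    log (ordAt τ (algebraMap Hol Mer a / algebraMap Hol Mer b)) =
      (holOrd τ b).untop₀ - (holOrd τ a).untop₀ := by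
  have ha' : holVal τ a ≠ 0 := by
    rw [holVal_apply, Ne, expNeg_eq_zero_iff, holOrd_eq_top_iff]; exact ha
  have hb' : holVal τ b ≠ 0 := by
    rw [holVal_apply, Ne, expNeg_eq_zero_iff, holOrd_eq_top_iff]; exact hb
  rw [map_div₀, ordAt_algebraMap, ordAt_algebraMap, log_div ha' hb', holVal_apply, holVal_apply,
    log_expNeg, log_expNeg]
  ring

/-- the multiplier relation at a fixed point -/
theorem denom_sq_zpow_eq_one (g : SL(2, ℤ)) (τ : ℍ) (hfix : g • τ = τ) (x : Mer) (hx : x ≠ 0)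
    (hinv : merAct g x = x) :
    (denom (g : GL (Fin 2) ℝ) τ ^ 2) ^ (log (ordAt τ x)) = 1 := by
  have hinv' : merAct g⁻¹ x = x := by
    have h1 : merAct (g⁻¹ * g) x = x := by simp [merAct_one]
    rw [merAct_mul, hinv] at h1
    exact h1
  obtain ⟨a, b, hb, rfl⟩ := exists_div x
  have ha : a ≠ 0 := by
    rintro rfl
    simp at hx
  have hb' := algebraMap_ne_zero hb
  have hgb : holAct g⁻¹ b ≠ 0 := by
    intro h
    exact hb ((holAct g⁻¹).injective (by rw [h, map_zero]))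
  have hgb' := algebraMap_ne_zero hgb
  rw [map_div₀, merAct_algebraMap, merAct_algebraMap, div_eq_div_iff hgb' hb', ← map_mul,
    ← map_mul] at hinv'
  have hrel : holAct g⁻¹ a * b = a * holAct g⁻¹ b := IsFractionRing.injective Hol Mer hinv'
  have hrel' : ((holAct g⁻¹ a : ℍ → ℂ) ∘ ofComplex) * ((b : ℍ → ℂ) ∘ ofComplex)
      = ((a : ℍ → ℂ) ∘ ofComplex) * ((holAct g⁻¹ b : ℍ → ℂ) ∘ ofComplex) := by
    funext z
    exact congrFun (congrArg Subtype.val hrel) (ofComplex z)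
  have htc := congrArg (fun F => meromorphicTrailingCoeffAt F (τ : ℂ)) hrel'
  beta_reduce at htc
  rw [(meromorphicAt_hol τ _).meromorphicTrailingCoeffAt_mul (meromorphicAt_hol τ _),
    (meromorphicAt_hol τ _).meromorphicTrailingCoeffAt_mul (meromorphicAt_hol τ _),
    trailingCoeff_holAct_inv g τ hfix, trailingCoeff_holAct_inv g τ hfix] at htc
  have hta : meromorphicTrailingCoeffAt ((a : ℍ → ℂ) ∘ ofComplex) (τ : ℂ) ≠ 0 :=
    (meromorphicAt_hol τ a).meromorphicTrailingCoeffAt_ne_zero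
      (fun h => ha ((holOrd_eq_top_iff τ a).mp h))
  have htb : meromorphicTrailingCoeffAt ((b : ℍ → ℂ) ∘ ofComplex) (τ : ℂ) ≠ 0 :=
    (meromorphicAt_hol τ b).meromorphicTrailingCoeffAt_ne_zero
      (fun h => hb ((holOrd_eq_top_iff τ b).mp h))
  have hd : (denom (g : GL (Fin 2) ℝ) τ ^ 2) ≠ 0 := pow_ne_zero _ (denom_ne_zero _ _)
  have hpow : ((denom (g : GL (Fin 2) ℝ) τ ^ 2)⁻¹) ^ (holOrd τ a).untop₀
      = ((denom (g : GL (Fin 2) ℝ) τ ^ 2)⁻¹) ^ (holOrd τ b).untop₀ := by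
    have h2 : (((denom (g : GL (Fin 2) ℝ) τ ^ 2)⁻¹) ^ (holOrd τ a).untop₀) *
        (meromorphicTrailingCoeffAt ((a : ℍ → ℂ) ∘ ofComplex) (τ : ℂ) *
          meromorphicTrailingCoeffAt ((b : ℍ → ℂ) ∘ ofComplex) (τ : ℂ)) =
        (((denom (g : GL (Fin 2) ℝ) τ ^ 2)⁻¹) ^ (holOrd τ b).untop₀) *
        (meromorphicTrailingCoeffAt ((a : ℍ → ℂ) ∘ ofComplex) (τ : ℂ) *
          meromorphicTrailingCoeffAt ((b : ℍ → ℂ) ∘ ofComplex) (τ : ℂ)) := by
      linear_combination htc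
    exact mul_right_cancel₀ (mul_ne_zero hta htb) h2
  rw [log_ordAt_div τ ha hb, zpow_sub₀ hd, div_eq_one_iff_eq (zpow_ne_zero _ hd)]
  rw [inv_zpow, inv_zpow, inv_inj] at hpow
  exact hpow.symm

theorem pow_smul_fix (g : SL(2, ℤ)) (τ : ℍ) (hfix : g • τ = τ) (h : ℕ) : (g ^ h) • τ = τ := by
  induction h with
  | zero => simp
  | succ n ih => rw [pow_succ, mul_smul, hfix, ih]

theorem denom_pow_fix (g : SL(2, ℤ)) (τ : ℍ) (hfix : g • τ = τ) (h : ℕ) :
    denom ((g ^ h : SL(2, ℤ)) : GL (Fin 2) ℝ) τ = denom (g : GL (Fin 2) ℝ) τ ^ h := by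
  induction h with
  | zero => simp
  | succ n ih =>
    have hfix' : (g : GL (Fin 2) ℝ) • τ = τ := hfix
    have hσ : σ (g : GL (Fin 2) ℝ) = .refl ℝ ℂ := by
      simp [σ]
    rw [pow_succ, map_mul, map_mul, denom_cocycle_σ, hfix', hσ, pow_succ, ← ih]
    rfl

end MerAux

theorem S_smul_I : ModularGroup.S • (I : ℍ) = I := by
  apply UpperHalfPlane.ext
  rw [UpperHalfPlane.modular_S_smul]
  simp

theorem MerAux.rho_quad : (rho : ℂ) ^ 2 + (rho : ℂ) + 1 = 0 := by
  have h3 : ((Real.sqrt 3 : ℝ) : ℂ) ^ 2 = 3 := by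
    rw [← Complex.ofReal_pow, Real.sq_sqrt (by norm_num)]
    norm_num
  have : (rho : ℂ) = (-1 + Real.sqrt 3 * Complex.I) / 2 := rfl
  rw [this]
  have hI : Complex.I ^ 2 = -1 := Complex.I_sq
  linear_combination (1/4 : ℂ) * Complex.I ^ 2 * h3 + (3/4 : ℂ) * hI

theorem ST_smul_rho : (ModularGroup.S * ModularGroup.T) • rho = rho := by
  apply UpperHalfPlane.ext
  rw [mul_smul, UpperHalfPlane.modular_S_smul, UpperHalfPlane.modular_T_smul]
  have h := MerAux.rho_quad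
  have hne : (1 : ℂ) + (rho : ℂ) ≠ 0 := by
    intro h0
    have : (rho : ℂ) = -1 := by linear_combination h0
    rw [this] at h
    norm_num at h
  simp only [coe_vadd, Complex.ofReal_one]
  show (-((1 : ℂ) + (rho : ℂ)))⁻¹ = (rho : ℂ)
  have hne' : -((1 : ℂ) + (rho : ℂ)) ≠ 0 := neg_ne_zero.mpr hne
  symm
  apply eq_inv_of_mul_eq_one_left
  linear_combination -h

theorem two_dvd_of_merAct_S_pow (h : ℕ) (x : Mer) (hx : x ≠ 0)
    (hfix : merAct (ModularGroup.S ^ h) x = x) : (2 : ℤ) ∣ (h : ℤ) * log (ordAt I x) := by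
  have h1 := denom_sq_zpow_eq_one (ModularGroup.S ^ h) I (pow_smul_fix _ _ S_smul_I h) x hx hfix
  rw [denom_pow_fix _ _ S_smul_I, ModularGroup.denom_S] at h1
  have h2 : (((I : ℍ) : ℂ) ^ h) ^ 2 = (-1 : ℂ) ^ (h : ℤ) := by
    rw [← pow_mul, mul_comm, pow_mul, zpow_natCast]
    simp
  rw [h2, ← zpow_mul] at h1
  rcases Int.even_or_odd ((h : ℤ) * log (ordAt I x)) with he | ho
  · exact even_iff_two_dvd.mp he
  · rw [ho.neg_one_zpow] at h1
    norm_num at h1

theorem three_dvd_of_merAct_ST_pow (h : ℕ) (x : Mer) (hx : x ≠ 0)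
    (hfix : merAct ((ModularGroup.S * ModularGroup.T) ^ h) x = x) :
    (3 : ℤ) ∣ (h : ℤ) * log (ordAt rho x) := by
  have h1 := denom_sq_zpow_eq_one ((ModularGroup.S * ModularGroup.T) ^ h) rho
    (pow_smul_fix _ _ ST_smul_rho h) x hx hfix
  rw [denom_pow_fix _ _ ST_smul_rho] at h1
  have hden : denom ((ModularGroup.S * ModularGroup.T : SL(2, ℤ)) : GL (Fin 2) ℝ) rho
      = (rho : ℂ) + 1 := by
    rw [ModularGroup.denom_apply]
    have e10 : (ModularGroup.S * ModularGroup.T : SL(2, ℤ)) 1 0 = 1 := by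
      rw [Matrix.SpecialLinearGroup.coe_mul]
      simp [ModularGroup.S, ModularGroup.T, Matrix.mul_apply, Fin.sum_univ_two]
    have e11 : (ModularGroup.S * ModularGroup.T : SL(2, ℤ)) 1 1 = 1 := by
      rw [Matrix.SpecialLinearGroup.coe_mul]
      simp [ModularGroup.S, ModularGroup.T, Matrix.mul_apply, Fin.sum_univ_two]
    rw [e10, e11]
    simp
  have hsq : ((rho : ℂ) + 1) ^ 2 = (rho : ℂ) := by linear_combination MerAux.rho_quad
  have h2 : (((rho : ℂ) + 1) ^ h) ^ 2 = (rho : ℂ) ^ (h : ℤ) := by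
    rw [← pow_mul, mul_comm, pow_mul, zpow_natCast, hsq]
  rw [hden, h2, ← zpow_mul] at h1
  have hprim : IsPrimitiveRoot (rho : ℂ) 3 := by
    have h3 : (rho : ℂ) ^ 3 = 1 := by linear_combination ((rho : ℂ) - 1) * MerAux.rho_quad
    have hne1 : (rho : ℂ) ≠ 1 := by
      intro h0
      have := MerAux.rho_quad
      rw [h0] at this
      norm_num at this
    refine IsPrimitiveRoot.mk_of_lt _ (by norm_num) h3 ?_
    intro l hl0 hl3
    interval_cases l
    · simpa using hne1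
    · intro h0
      apply hne1
      have h4 := MerAux.rho_quad
      have h5 : (rho : ℂ) = -2 := by linear_combination h4 - h0
      rw [h5] at h0
      norm_num at h0
  exact (hprim.zpow_eq_one_iff_dvd _).mp h1

end Fermat.Agent.S24
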