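import Fermat.Agent.S24.AnDefs
import Fermat.Prelude.Def_ModularCurve_ArithmeticGalois
import Fermat.Prelude.Def_ModularCurve_GenusNumerics
import Fermat.Prelude.Def_AlgebraicCurve_CanonicalDivisor
import Fermat.Prelude.Def_ModularCurve_JqCoeff

set_option autoImplicit false

open UpperHalfPlane ModularForm EisensteinSeries WithZero ModularCurve AlgebraicCurve
open scoped MatrixGroups Manifold

noncomputable section

namespace Fermat.Agent.S24

/-- the base field -/
abbrev Kb : Type := AlgebraicClosure ℚ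

/-- the function field of `X₀(N)` over `Kb` -/
abbrev FN (N : ℕ) : Type := ↥(modularFunctionFieldBar N)

theorem isAlgebraic_Kb : Algebra.IsAlgebraic ℚ Kb := AlgebraicClosure.isAlgebraic ℚ

/-- a fixed embedding of `Kb` into `ℂ` -/
def kappa : Kb →+* ℂ :=
  haveI := isAlgebraic_Kb
  ((IsAlgClosed.lift : Kb →ₐ[ℚ] ℂ) : Kb →+* ℂ)

/-- `j(q^d)` as an element of the function field -/
def jF (N d : ℕ) [NeZero d] (hd : d ∣ N) : FN N :=
  ⟨coeffEmb Kb (qExpand ℚ d jq),
    coeffEmb_mem_laurentBaseChange Kb (jqd_mem_full N hd)⟩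

/-- `j` as an element of the function field -/
def jN (N : ℕ) : FN N := jF N 1 (one_dvd N)

/-- the coset space -/
abbrev QN (N : ℕ) : Type := SL(2, ℤ) ⧸ CongruenceSubgroup.Gamma0 N

/-- the elliptic point of order three, fixed by `S * T` -/
def rho : ℍ :=
  ⟨(-1 + Real.sqrt 3 * Complex.I) / 2, by
    simp⟩

end Fermat.Agent.S24
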