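import Fermat.Agent.S24.Iota
import Fermat.Agent.S24.Mer
import Fermat.Agent.S24.JFunCore
import Fermat.Agent.IntStruct.Theta

set_option autoImplicit false

open UpperHalfPlane ModularForm EisensteinSeries WithZero ModularCurve AlgebraicCurve
open scoped MatrixGroups Manifold

noncomputable section

namespace Fermat.Agent.S24

/-- a modular form as an element of `Hol` -/
def mfHol {Γ : Subgroup (GL (Fin 2) ℝ)} {k : ℤ} (f : ModularForm Γ k) : Hol := ⟨f, f.holo'⟩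

open Matrix.SpecialLinearGroup in
/-- `τ ↦ d ^ (k - 1) * F (d τ)` as a modular form on `Γ₀(N)`, for `d ∣ N` -/
def raiseLevel (N d : ℕ) [NeZero N] (hd : d ∣ N) {k : ℤ} (F : ModularForm 𝒮ℒ k) :
    ModularForm (CongruenceSubgroup.Gamma0 N : Subgroup (GL (Fin 2) ℝ)) k where
  toFun := ⇑F ∣[k] heckeDiagMatrix d
  slash_action_eq' := by
    rintro γ ⟨g, hg, rfl⟩
    have hd0 : d ≠ 0 := fun h => NeZero.ne N (by rw [h] at hd; exact zero_dvd_iff.mp hd)
    have hg2 := CongruenceSubgroup.Gamma0_mem.mp hg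
    have hg3 : (N : ℤ) ∣ g 1 0 := (ZMod.intCast_zmod_eq_zero_iff_dvd _ _).mp hg2
    have hg4 : (d : ℤ) ∣ g 1 0 := (Int.natCast_dvd_natCast.mpr hd).trans hg3
    obtain ⟨g', hg'⟩ := IntStruct.exists_comm hd0 g hg4
    have hF : ⇑F ∣[k] (mapGL ℝ g') = ⇑F := F.slash_action_eq' _ ⟨g', rfl⟩
    show (⇑F ∣[k] heckeDiagMatrix d) ∣[k] (mapGL ℝ g) = ⇑F ∣[k] heckeDiagMatrix d
    rw [← SlashAction.slash_mul, hg', SlashAction.slash_mul, hF]
  holo' := F.holo'.slash k _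
  bdd_at_cusps' hc := by
    have hd0 : d ≠ 0 := fun h => NeZero.ne N (by rw [h] at hd; exact zero_dvd_iff.mp hd)
    rw [Subgroup.IsArithmetic.isCusp_iff_isCusp_SL2Z] at hc
    rw [OnePoint.isBoundedAt_iff_forall_SL2Z hc]
    intro γ _
    obtain ⟨g', a, b, e, had, -, -, -, -, h⟩ := IntStruct.exists_factor hd0 γ
    have hF : ⇑F ∣[k] (mapGL ℝ g') = ⇑F := F.slash_action_eq' _ ⟨g', rfl⟩
    rw [ModularForm.SL_slash]
    change IsBoundedAtImInfty ((⇑F ∣[k] heckeDiagMatrix d) ∣[k] (mapGL ℝ γ))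
    rw [← SlashAction.slash_mul, h, SlashAction.slash_mul, hF]
    exact IsBoundedAtImInfty.slash k (by simp) (ModularFormClass.bdd_at_infty F)

theorem heckeDiagMatrix_smul (d : ℕ) [NeZero d] (τ : ℍ) : heckeDiagMatrix d • τ = scaleH d τ := by
  ext
  rw [coe_heckeDiagMatrix_smul (NeZero.ne d)]
  rfl

theorem raiseLevel_apply (N d : ℕ) [NeZero N] [NeZero d] (hd : d ∣ N) {k : ℤ}
    (F : ModularForm 𝒮ℒ k) (τ : ℍ) :
    raiseLevel N d hd F τ = (d : ℂ) ^ (k - 1) * F (scaleH d τ) := by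
  show (⇑F ∣[k] heckeDiagMatrix d) τ = _
  rw [slash_heckeDiagMatrix_apply k (NeZero.ne d), heckeDiagMatrix_smul]

/-- being (the underlying function of) a modular form of weight `k` -/
def IsMFH (Γ : Subgroup (GL (Fin 2) ℝ)) (k : ℤ) (f : Hol) : Prop :=
  ∃ F : ModularForm Γ k, mfHol F = f

theorem IsMFH.add {Γ : Subgroup (GL (Fin 2) ℝ)} {k : ℤ} {f g : Hol} (hf : IsMFH Γ k f)
    (hg : IsMFH Γ k g) : IsMFH Γ k (f + g) := by
  obtain ⟨F, rfl⟩ := hf
  obtain ⟨G, rfl⟩ := hg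
  exact ⟨F + G, rfl⟩

theorem IsMFH.mul {Γ : Subgroup (GL (Fin 2) ℝ)} [Γ.HasDetPlusMinusOne] {k l : ℤ} {f g : Hol}
    (hf : IsMFH Γ k f) (hg : IsMFH Γ l g) : IsMFH Γ (k + l) (f * g) := by
  obtain ⟨F, rfl⟩ := hf
  obtain ⟨G, rfl⟩ := hg
  exact ⟨F.mul G, rfl⟩

theorem IsMFH.const {Γ : Subgroup (GL (Fin 2) ℝ)} [Γ.HasDetOne] (c : ℂ) :
    IsMFH Γ 0 (algebraMap ℂ Hol c) :=
  ⟨ModularForm.const c, rfl⟩

/-- the property proved by induction -/
def IsQuot (N : ℕ) (x : Mer) : Prop :=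
  ∃ (m : ℕ) (a b : Hol), IsMFH (CongruenceSubgroup.Gamma0 N) (12 * m) a ∧
    IsMFH (CongruenceSubgroup.Gamma0 N) (12 * m) b ∧ b ≠ 0 ∧
    x * algebraMap Hol Mer b = algebraMap Hol Mer a

theorem IsQuot.const (N : ℕ) (c : ℂ) : IsQuot N (algebraMap ℂ Mer c) := by
  refine ⟨0, algebraMap ℂ Hol c, 1, ?_, ?_, one_ne_zero, ?_⟩
  · simpa using IsMFH.const c
  · simpa using IsMFH.const (Γ := (CongruenceSubgroup.Gamma0 N : Subgroup (GL (Fin 2) ℝ))) 1
  · rw [map_one, mul_one]; rfl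

theorem IsQuot.add {N : ℕ} {x y : Mer} (hx : IsQuot N x) (hy : IsQuot N y) :
    IsQuot N (x + y) := by
  obtain ⟨m, a, b, ha, hb, hb0, h⟩ := hx
  obtain ⟨m', a', b', ha', hb', hb0', h'⟩ := hy
  have e : (12 * ((m + m' : ℕ) : ℤ)) = 12 * (m : ℤ) + 12 * (m' : ℤ) := by push_cast; ring
  refine ⟨m + m', a * b' + b * a', b * b', ?_, ?_, mul_ne_zero hb0 hb0', ?_⟩
  · rw [e]; exact (ha.mul hb').add (hb.mul ha')
  · rw [e]; exact hb.mul hb'
  · rw [map_mul, map_add, map_mul, map_mul, ← h, ← h']; ring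

theorem IsQuot.mul {N : ℕ} {x y : Mer} (hx : IsQuot N x) (hy : IsQuot N y) :
    IsQuot N (x * y) := by
  obtain ⟨m, a, b, ha, hb, hb0, h⟩ := hx
  obtain ⟨m', a', b', ha', hb', hb0', h'⟩ := hy
  have e : (12 * ((m + m' : ℕ) : ℤ)) = 12 * (m : ℤ) + 12 * (m' : ℤ) := by push_cast; ring
  refine ⟨m + m', a * a', b * b', ?_, ?_, mul_ne_zero hb0 hb0', ?_⟩
  · rw [e]; exact ha.mul ha'
  · rw [e]; exact hb.mul hb'
  · rw [map_mul, map_mul, ← h, ← h']; ring

theorem IsQuot.inv {N : ℕ} {x : Mer} (hx : IsQuot N x) : IsQuot N x⁻¹ := by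
  by_cases hx0 : x = 0
  · rw [hx0, inv_zero]
    simpa using IsQuot.const N 0
  obtain ⟨m, a, b, ha, hb, hb0, h⟩ := hx
  have hb1 : algebraMap Hol Mer b ≠ 0 := by
    simpa using (IsFractionRing.injective Hol Mer).ne hb0
  have ha0 : a ≠ 0 := by
    rintro rfl
    rw [map_zero] at h
    exact (mul_ne_zero hx0 hb1) h
  refine ⟨m, b, a, hb, ha, ha0, ?_⟩
  rw [← h]
  field_simp

theorem IsQuot.jHd (N d : ℕ) [NeZero N] [NeZero d] (hd : d ∣ N) :
    IsQuot N (algebraMap Hol Mer (jHd d)) := by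
  have h12 : (12 : ℤ) = 4 + 4 + 4 := by norm_num
  let E43 : ModularForm 𝒮ℒ 12 := ModularForm.mcast h12.symm ((E₄.mul E₄).mul E₄)
  let Δ' : ModularForm 𝒮ℒ 12 := CuspForm.discriminant
  have hdC : ((d : ℂ) ^ ((12 : ℤ) - 1)) ≠ 0 := zpow_ne_zero _ (by exact_mod_cast NeZero.ne d)
  refine ⟨1, mfHol (raiseLevel N d hd E43), mfHol (raiseLevel N d hd Δ'), ?_, ?_, ?_, ?_⟩
  · have h : IsMFH (CongruenceSubgroup.Gamma0 N) 12 (mfHol (raiseLevel N d hd E43)) := ⟨_, rfl⟩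
    have e : (12 * ((1 : ℕ) : ℤ)) = 12 := by norm_num
    rw [e]; exact h
  · have h : IsMFH (CongruenceSubgroup.Gamma0 N) 12 (mfHol (raiseLevel N d hd Δ')) := ⟨_, rfl⟩
    have e : (12 * ((1 : ℕ) : ℤ)) = 12 := by norm_num
    rw [e]; exact h
  · intro h
    have h1 : raiseLevel N d hd Δ' I = 0 := congrFun (congrArg Subtype.val h) I
    rw [raiseLevel_apply] at h1
    exact (mul_ne_zero hdC (discriminant_ne_zero _)) h1
  · rw [← map_mul]
    congr 1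
    ext τ
    show JFun.jFun (scaleH d τ) * raiseLevel N d hd Δ' τ = raiseLevel N d hd E43 τ
    rw [raiseLevel_apply, raiseLevel_apply]
    show JFun.jFun (scaleH d τ) * (_ * discriminant (scaleH d τ))
      = _ * (E₄ (scaleH d τ) * E₄ (scaleH d τ) * E₄ (scaleH d τ))
    have := JFun.jFun_mul_Δ (scaleH d τ)
    linear_combination ((d : ℂ) ^ ((12 : ℤ) - 1)) * this

theorem isQuot_iota (N : ℕ) [NeZero N] (θ : FN N) : IsQuot N (iota N θ) := by
  have hθ : θ ∈ IntermediateField.adjoin Kb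
      {x : FN N | ∃ (d : ℕ) (_ : NeZero d) (hd : d ∣ N), x = jF N d hd} := by
    rw [adjoin_jF]; trivial
  induction hθ using IntermediateField.adjoin_induction with
  | mem x hx =>
    obtain ⟨d, hd0, hd, rfl⟩ := hx
    rw [iota_jF]
    exact IsQuot.jHd N d hd
  | algebraMap a =>
    rw [iota_algebraMap]
    exact IsQuot.const N _
  | add x y _ _ hx hy => rw [map_add]; exact hx.add hy
  | inv x _ hx => rw [map_inv₀]; exact hx.inv
  | mul x y _ _ hx hy => rw [map_mul]; exact hx.mul hy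

/-- every element of the function field is a quotient of two modular forms of the same weight -/
theorem exists_quot (N : ℕ) [NeZero N] (θ : FN N) :
    ∃ (m : ℕ) (A B : ModularForm (CongruenceSubgroup.Gamma0 N) (12 * m)), B ≠ 0 ∧
      iota N θ * algebraMap Hol Mer (mfHol B) = algebraMap Hol Mer (mfHol A) := by
  obtain ⟨m, a, b, ⟨A, rfl⟩, ⟨B, rfl⟩, hb0, h⟩ := isQuot_iota N θ
  refine ⟨m, A, B, ?_, h⟩
  rintro rfl
  exact hb0 rfl

end Fermat.Agent.S24
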